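import Mathlib
import Fermat.Agent.ESJ.Jac.Resolvent
import Fermat.Agent.ESJ.Jac.GalCore
import Fermat.Agent.ESJ.ParHom.Cmp
import Fermat.Agent.S21.Injective
import Fermat.Agent.S21

/-!
# MW / DIV-A : `n`-th roots of parabolic-elliptic characters are realised by functions

Let `χ : Γ₀(N) →* ℂˣ` be a character which is trivial on all `γ` with `tr(γ)² ≤ 4`
(`IsPETriv`; NO finiteness of the order is assumed) and let `n ≠ 0`.  Then there are a character
`ψ` with `ψ ^ n = χ`, again trivial on the parabolic and elliptic elements, and a function `u`,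
analytic on the upper half plane, not identically zero, meromorphic at all cusps, with
`u (γ z) = ψ γ · u z` for all `γ ∈ Γ₀(N)` (`exists_root_fun`).

Proof.  `Γ₀(N)^ab / ⟨parabolic, elliptic⟩` is free (`ESJ/ParHom`), so `χ = exp ∘ (n • c)` for an
additive parabolic homomorphism `c`.  By Eichler–Shimura (`S21.result`)
`c = per_a + ι per_b` for cusp forms `a`, `b`; with `A`, `B` equivariant primitives and
`B* = conjFun B` (holomorphic) this reads `c γ = (A (γ z) - A z) + conj (B* (γ z) - B* z)`.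
Hence `exp (c γ) = mult (exp (A + B*)) γ · θ γ` with the UNITARY character
`θ γ = exp (cB γ - conj (cB γ))`, and unitary characters are multipliers of Eisenstein quotients
(`Lib/Analysis/EisensteinChar`, any unitary character).
-/

set_option autoImplicit false

open UpperHalfPlane hiding I
open Complex Filter Function Topology
open scoped MatrixGroups Manifold ModularForm Real ComplexConjugate
open CongruenceSubgroup ModularCurve ModularCurve.Period

noncomputable section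

namespace Fermat.Agent.MW.DivA.CharRoot

open Fermat.Agent.ESJ.Jac Fermat.Agent.ESJ.ParHom Fermat.Agent.S21
open Fermat.Agent.Lib.Analysis.EisensteinChar

/-- Characters which are trivial on `±1`, on the parabolic and on the elliptic elements
(no condition on the order). -/
def IsPETriv (Γ : Subgroup SL(2, ℤ)) (χ : Γ →* ℂˣ) : Prop :=
  ∀ γ : Γ, ((γ : SL(2, ℤ)) : Matrix (Fin 2) (Fin 2) ℤ).trace ^ 2 ≤ 4 → χ γ = 1

theorem IsPEChar.isPETriv {Γ : Subgroup SL(2, ℤ)} {n : ℕ} {χ : Γ →* ℂˣ} (h : IsPEChar Γ n χ) :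
    IsPETriv Γ χ := h.2

/-! ### Unitary characters: Eisenstein quotients -/

/-- **Resolvent for unitary characters**: for a character `χ` of `Γ₀(N)` with values of absolute
value one, trivial on the parabolic and elliptic elements, there is `u`, analytic on `U`, not
locally zero, meromorphic at all cusps, with `u (γ z) = χ γ · u z`. -/
theorem exists_resolvent_unitary (N : ℕ) [NeZero N] (χ : Gamma0 N →* ℂˣ)
    (hχ : IsPETriv (Gamma0 N) χ) (hχ1 : ∀ δ, ‖(χ δ : ℂ)‖ = 1) :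
    ∃ u : ℂ → ℂ, (∀ z ∈ U, AnalyticAt ℂ u z) ∧ (∀ z ∈ U, meromorphicOrderAt u z ≠ ⊤) ∧
      HasMultiplier (Gamma0 N) u χ ∧ MerAtCusps u := by
  have hT : χ ⟨ModularGroup.T, T_mem_Gamma0 N⟩ = 1 := by
    apply hχ
    simp [ModularGroup.coe_T, Matrix.trace_fin_two]
  have hneg : χ ⟨-1, neg_one_mem_Gamma0 N⟩ = 1 := by
    apply hχ
    simp
  have h12 : Even (12 : ℤ) := ⟨6, by norm_num⟩
  obtain ⟨hG, hsmul, -, hbdd⟩ := eisChar_spec χ hT hneg hχ1 (k := 12) (by norm_num) h12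
  have hG0 := eisChar_ne_zero χ hT hneg hχ1 (k := 12) (by norm_num) h12
  refine ⟨Resolvent.quot (eisChar χ 12), fun z hz => Resolvent.analyticAt_quot hG hz,
    Resolvent.order_quot_ne_top hG hG0, ?_, Resolvent.merAtCusps_quot hG hbdd⟩
  intro γ z hz
  have h1 : mob (γ : SL(2, ℤ)) z = (((γ : SL(2, ℤ)) • (⟨z, hz⟩ : ℍ) : ℍ) : ℂ) :=
    mob_coe _ ⟨z, hz⟩
  have h2 : Resolvent.quot (eisChar χ 12) z
      = eisChar χ 12 ⟨z, hz⟩ / ModularForm.discriminant ⟨z, hz⟩ :=
    Resolvent.quot_coe _ ⟨z, hz⟩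
  rw [h1, Resolvent.quot_coe, h2, hsmul γ ⟨z, hz⟩, Resolvent.discriminant_smul]
  have h3 : denom (γ : SL(2, ℤ)) (⟨z, hz⟩ : ℍ) ^ (12 : ℤ) ≠ 0 :=
    zpow_ne_zero _ (denom_ne_zero _ _)
  have h4 : ModularForm.discriminant (⟨z, hz⟩ : ℍ) ≠ 0 := ModularForm.discriminant_ne_zero _
  generalize denom (γ : SL(2, ℤ)) (⟨z, hz⟩ : ℍ) ^ (12 : ℤ) = D at h3 ⊢
  generalize ModularForm.discriminant (⟨z, hz⟩ : ℍ) = E at h4 ⊢
  field_simp

/-! ### Exponentials of holomorphic functions with bounded translates -/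

/-- The function `z ↦ exp (G z)` on `ℂ` attached to `G : ℍ → ℂ`. -/
def expFn (G : ℍ → ℂ) (z : ℂ) : ℂ := Complex.exp (G (ofComplex z))

theorem expFn_ne_zero (G : ℍ → ℂ) (z : ℂ) : expFn G z ≠ 0 := Complex.exp_ne_zero _

theorem analyticAt_expFn {G : ℍ → ℂ} (hG : MDiff G) {z : ℂ} (hz : z ∈ U) :
    AnalyticAt ℂ (expFn G) z :=
  (Resolvent.analyticAt_comp_ofComplex hG hz).cexp

theorem expFn_coe (G : ℍ → ℂ) (τ : ℍ) : expFn G (τ : ℂ) = Complex.exp (G τ) := by
  simp [expFn, ofComplex_apply]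

theorem expFn_mob (G : ℍ → ℂ) (g : SL(2, ℤ)) {z : ℂ} (hz : z ∈ U) :
    expFn G (mob g z) = Complex.exp (G (g • (⟨z, hz⟩ : ℍ))) := by
  have h1 : mob g z = ((g • (⟨z, hz⟩ : ℍ) : ℍ) : ℂ) := mob_coe g ⟨z, hz⟩
  rw [h1, expFn_coe]

/-- If all translates of `G` are bounded at `i∞`, then `exp ∘ G` is meromorphic at all cusps. -/
theorem merAtCusps_expFn {G : ℍ → ℂ} (hG : MDiff G)
    (hb : ∀ δ : SL(2, ℤ), IsBoundedAtImInfty (fun w : ℍ => G (δ • w))) :
    MerAtCusps (expFn G) := by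
  intro g
  obtain ⟨B, A, hBA⟩ := UpperHalfPlane.isBoundedAtImInfty_iff.mp (hb g)
  refine ⟨max (max A 0) B, 1, fun z hz => ?_⟩
  have hzA : A < z.im := lt_of_le_of_lt ((le_max_left _ _).trans (le_max_left _ _)) hz
  have hz0 : 0 < z.im := lt_of_le_of_lt ((le_max_right _ _).trans (le_max_left _ _)) hz
  have hzB : B < z.im := lt_of_le_of_lt (le_max_right _ _) hz
  have hzU : z ∈ U := hz0
  refine ⟨?_, ?_⟩
  · exact AnalyticAt.comp (g := expFn G) (f := mob g) (analyticAt_expFn hG (mob_mem_U g hzU))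
      (analyticAt_mob g hzU)
  · rw [expFn_mob G g hzU, Complex.norm_exp, one_mul]
    apply Real.exp_le_exp.2
    have h1 : ‖G (g • (⟨z, hzU⟩ : ℍ))‖ ≤ B := hBA ⟨z, hzU⟩ hzA.le
    exact ((Complex.re_le_norm _).trans h1).trans hzB.le

/-! ### Characters of the form `exp ∘ c` -/

/-- The character `γ ↦ exp (c γ)` of an additive homomorphism `c`. -/
def expChar {Γ : Subgroup SL(2, ℤ)} (c : Additive Γ →+ ℂ) : Γ →* ℂˣ where
  toFun γ := Units.mk0 (Complex.exp (c (Additive.ofMul γ))) (Complex.exp_ne_zero _)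
  map_one' := by
    apply Units.ext
    simp
  map_mul' a b := by
    apply Units.ext
    simp [Complex.exp_add]

theorem expChar_apply {Γ : Subgroup SL(2, ℤ)} (c : Additive Γ →+ ℂ) (γ : Γ) :
    ((expChar c γ : ℂˣ) : ℂ) = Complex.exp (c (Additive.ofMul γ)) := rfl

theorem isPETriv_expChar {Γ : Subgroup SL(2, ℤ)} {c : Additive Γ →+ ℂ} (hc : IsPEHom Γ c) :
    IsPETriv Γ (expChar c) := by
  intro γ hγ
  apply Units.ext
  rw [expChar_apply, hc γ hγ, Complex.exp_zero, Units.val_one]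

/-- **Eichler–Shimura in primitive form**: every parabolic homomorphism `c : Γ₀(N) → ℂ` is
`cA + cB` where `cA` is the period homomorphism of a holomorphic `A` and `conj ∘ cB` is the
period homomorphism of a holomorphic `B`; all translates of `A`, `B` are bounded at `i∞`. -/
theorem exists_primitive_pair (N : ℕ) [NeZero N] (c : Additive (Gamma0 N) →+ ℂ)
    (hc : c ∈ parabolicHoms ℂ (Gamma0 N) ℂ) :
    ∃ (A B : ℍ → ℂ) (cA cB : Additive (Gamma0 N) →+ ℂ), MDiff A ∧ MDiff B ∧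
      (∀ δ : SL(2, ℤ), IsBoundedAtImInfty (fun w : ℍ => A (δ • w))) ∧
      (∀ δ : SL(2, ℤ), IsBoundedAtImInfty (fun w : ℍ => B (δ • w))) ∧
      c = cA + cB ∧ IsParabolicHom (Gamma0 N) cB ∧
      (∀ (γ : Gamma0 N) (z : ℍ), A ((γ : SL(2, ℤ)) • z) - A z = cA (Additive.ofMul γ)) ∧
      (∀ (γ : Gamma0 N) (z : ℍ),
        B ((γ : SL(2, ℤ)) • z) - B z = conj (cB (Additive.ofMul γ))) := by
  obtain ⟨-, hrange⟩ := Fermat.Agent.S21.result N
  rw [← hrange] at hc
  obtain ⟨⟨f, g⟩, rfl⟩ := hc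
  obtain ⟨A, hA, hAd⟩ := exists_hasEquivariantPrimitive N (f + g)
  obtain ⟨B, hB, hBd⟩ := exists_hasEquivariantPrimitive N (f - g)
  refine ⟨A, conjFun B, periodMap N (f + g), charInvolution N ℂ ℂ (periodMap N (f - g)), hAd,
    mdifferentiable_conjFun hB.1, ?_, ?_, periodHomPair_apply N f g, ?_, ?_, ?_⟩
  · intro δ
    obtain ⟨L, hL⟩ := hA.2.2.2 δ
    exact hL.isBigO_one ℝ
  · intro δ
    obtain ⟨L, hL⟩ := tendsto_conjFun_smul hB δ
    exact hL.isBigO_one ℝ
  · exact (mem_parabolicHoms_iff (R := ℂ)).mp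
      (charInvolution_mem_parabolicHoms N ℂ ℂ (periodMap_mem_parabolicHoms N (f - g)))
  · intro γ z
    exact (periodMap_apply hA γ z).symm
  · intro γ z
    rw [charInvolution_apply, toMul_ofMul, periodMap_apply hB (jConjGamma0 N γ) (J • z),
      conjFun_apply, conjFun_apply, J_smul_smul, map_sub]
    rfl

/-- **Every character `exp ∘ c`, `c` a parabolic homomorphism, is the multiplier of a function**
which is analytic on `U`, not locally zero and meromorphic at all cusps. -/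
theorem exists_fun_expChar (N : ℕ) [NeZero N] (c : Additive (Gamma0 N) →+ ℂ)
    (hc : c ∈ parabolicHoms ℂ (Gamma0 N) ℂ) :
    ∃ u : ℂ → ℂ, (∀ z ∈ U, AnalyticAt ℂ u z) ∧ (∀ z ∈ U, meromorphicOrderAt u z ≠ ⊤) ∧
      HasMultiplier (Gamma0 N) u (expChar c) ∧ MerAtCusps u := by
  obtain ⟨A, B, cA, cB, hAd, hBd, hAb, hBb, hsum, hpar, hA, hB⟩ := exists_primitive_pair N c hc
  -- the unitary character `γ ↦ exp (cB γ - conj (cB γ))`
  set e : Additive (Gamma0 N) →+ ℂ :=
    cB - ((starRingEnd ℂ : ℂ →+* ℂ) : ℂ →+ ℂ).comp cB with he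
  have he_apply : ∀ γ, e γ = cB γ - conj (cB γ) := fun γ => rfl
  have hθ1 : ∀ δ, ‖((expChar e δ : ℂˣ) : ℂ)‖ = 1 := by
    intro δ
    rw [expChar_apply, Complex.norm_exp, he_apply]
    simp
  have hθpe : IsPETriv (Gamma0 N) (expChar e) := by
    intro γ hγ
    have h0 : cB (Additive.ofMul γ) = 0 := isPEHom_of_isParabolicHom (Gamma0 N) hpar γ hγ
    apply Units.ext
    rw [expChar_apply, he_apply, h0]
    simp
  obtain ⟨v, hvan, hvord, hvmult, hvcusp⟩ := exists_resolvent_unitary N (expChar e) hθpe hθ1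
  have hGd : MDiff (A + B) := hAd.add hBd
  have hGb : ∀ δ : SL(2, ℤ), IsBoundedAtImInfty (fun w : ℍ => (A + B) (δ • w)) := by
    intro δ
    exact (hAb δ).add (hBb δ)
  refine ⟨fun z => expFn (A + B) z * v z, fun z hz => (analyticAt_expFn hGd hz).mul (hvan z hz),
    fun z hz => ?_, ?_, ?_⟩
  · have h1 : meromorphicOrderAt (fun z => expFn (A + B) z * v z) z
        = meromorphicOrderAt (expFn (A + B)) z + meromorphicOrderAt v z :=
      meromorphicOrderAt_mul (analyticAt_expFn hGd hz).meromorphicAt (hvan z hz).meromorphicAt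
    have h2 : meromorphicOrderAt (expFn (A + B)) z = 0 := by
      rw [(analyticAt_expFn hGd hz).meromorphicOrderAt_eq,
        (analyticAt_expFn hGd hz).analyticOrderAt_eq_zero.mpr (expFn_ne_zero _ _)]
      simp
    rw [h1, h2, zero_add]
    exact hvord z hz
  · intro γ z hz
    show expFn (A + B) (mob (γ : SL(2, ℤ)) z) * v (mob (γ : SL(2, ℤ)) z)
      = ((expChar c γ : ℂˣ) : ℂ) * (expFn (A + B) z * v z)
    have hz' : expFn (A + B) z = Complex.exp ((A + B) (⟨z, hz⟩ : ℍ)) := expFn_coe (A + B) ⟨z, hz⟩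
    rw [expFn_mob (A + B) (γ : SL(2, ℤ)) hz, hvmult γ z hz, hz', expChar_apply, expChar_apply,
      he_apply]
    have e1 := hA γ ⟨z, hz⟩
    have e2 := hB γ ⟨z, hz⟩
    have e3 : c (Additive.ofMul γ) = cA (Additive.ofMul γ) + cB (Additive.ofMul γ) := by
      rw [hsum]
      rfl
    have e4 : (A + B) ((γ : SL(2, ℤ)) • (⟨z, hz⟩ : ℍ))
        = (A + B) (⟨z, hz⟩ : ℍ) + cA (Additive.ofMul γ) + conj (cB (Additive.ofMul γ)) := by
      simp only [Pi.add_apply]
      linear_combination e1 + e2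
    rw [e4, e3]
    rw [← mul_assoc, ← Complex.exp_add, ← mul_assoc, ← Complex.exp_add]
    congr 2
    ring
  · have h1 : expFn (A + B) ∈ GalCore.MA :=
      ⟨fun z hz => (analyticAt_expFn hGd hz).meromorphicAt, merAtCusps_expFn hGd hGb⟩
    have h2 : v ∈ GalCore.MA := ⟨fun z hz => (hvan z hz).meromorphicAt, hvcusp⟩
    exact (GalCore.MA.mul_mem h1 h2).2

/-! ### Roots -/

/-- **`n`-th roots of parabolic-elliptic characters are realised by functions.** -/
theorem exists_root_fun (N : ℕ) [NeZero N] {n : ℕ} (hn : n ≠ 0) (χ : Gamma0 N →* ℂˣ)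
    (hχ : IsPETriv (Gamma0 N) χ) :
    ∃ ψ : Gamma0 N →* ℂˣ, (∀ γ, ψ γ ^ n = χ γ) ∧ IsPETriv (Gamma0 N) ψ ∧
      ∃ u : ℂ → ℂ, (∀ z ∈ U, AnalyticAt ℂ u z) ∧ (∀ z ∈ U, meromorphicOrderAt u z ≠ ⊤) ∧
        HasMultiplier (Gamma0 N) u ψ ∧ MerAtCusps u := by
  -- logarithms of the values of `χ` on a basis
  set a : Fin (2 * genusNat N) → ℂ := fun l =>
    Complex.log ((χ (Additive.toMul (evalPt N l)) : ℂˣ) : ℂ) / n with ha
  set c₀ : peHoms (Gamma0 N) ℂ ℂ := (evalEquiv N ℂ ℂ).symm a with hc₀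
  have hc₀a : ∀ l, (c₀ : Additive (Gamma0 N) →+ ℂ) (evalPt N l) = a l := by
    intro l
    rw [← evalEquiv_apply, hc₀, LinearEquiv.apply_symm_apply]
  have hcpe : IsPEHom (Gamma0 N) (c₀ : Additive (Gamma0 N) →+ ℂ) := c₀.2
  have hnc : (n : ℂ) ≠ 0 := Nat.cast_ne_zero.mpr hn
  -- the two homomorphisms into `Additive ℂˣ`
  set φ₁ : Additive (Gamma0 N) →+ Additive ℂˣ := MonoidHom.toAdditive χ with hφ₁
  set φ₂ : Additive (Gamma0 N) →+ Additive ℂˣ :=
    MonoidHom.toAdditive ((expChar (c₀ : Additive (Gamma0 N) →+ ℂ)) ^ n) with hφ₂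
  have h₁ : IsPEHom (Gamma0 N) φ₁ := by
    intro γ hγ
    show Additive.ofMul (χ γ) = 0
    rw [hχ γ hγ]
    rfl
  have h₂ : IsPEHom (Gamma0 N) φ₂ := by
    intro γ hγ
    show Additive.ofMul ((expChar (c₀ : Additive (Gamma0 N) →+ ℂ) ^ n) γ) = 0
    rw [MonoidHom.pow_apply, isPETriv_expChar hcpe γ hγ, one_pow]
    rfl
  have heq : (⟨φ₁, h₁⟩ : peHoms (Gamma0 N) ℤ (Additive ℂˣ)) = ⟨φ₂, h₂⟩ := by
    apply (evalEquiv N ℤ (Additive ℂˣ)).injective
    funext l
    rw [evalEquiv_apply, evalEquiv_apply]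
    show Additive.ofMul (χ (Additive.toMul (evalPt N l)))
      = Additive.ofMul ((expChar (c₀ : Additive (Gamma0 N) →+ ℂ) ^ n) (Additive.toMul (evalPt N l)))
    congr 1
    apply Units.ext
    rw [MonoidHom.pow_apply, Units.val_pow_eq_pow_val, expChar_apply, ofMul_toMul, hc₀a l,
      ← Complex.exp_nat_mul, ha]
    show _ = Complex.exp ((n : ℂ) * (Complex.log _ / n))
    rw [mul_div_cancel₀ _ hnc, Complex.exp_log (Units.ne_zero _)]
  have heq' : φ₁ = φ₂ := congrArg Subtype.val heq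
  refine ⟨expChar (c₀ : Additive (Gamma0 N) →+ ℂ), fun γ => ?_, isPETriv_expChar hcpe,
    exists_fun_expChar N _ (IsPEHom.isParabolicHom (Gamma0 N) hcpe)⟩
  have h := DFunLike.congr_fun heq' (Additive.ofMul γ)
  have h' : χ γ = (expChar (c₀ : Additive (Gamma0 N) →+ ℂ) ^ n) γ := h
  rw [h', MonoidHom.pow_apply]

end Fermat.Agent.MW.DivA.CharRoot
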