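import Mathlib
import Fermat.Agent.MW.DivA.CharRoot
import Fermat.Agent.ESJ.Jac.Kummer
import Fermat.Agent.ESJ.Jac.Gal
import Fermat.Agent.ESJ.Dict.Main

/-!
# MW / DIV-A : from a multiplicative function to a Kummer relation

Let `h` be meromorphic on the upper half plane with `h (γ z) = χ γ · h z` for `γ ∈ Γ₀(N)`, where
`χ` is trivial on the parabolic and elliptic elements, and meromorphic at all cusps.  Suppose the
orders of `h` are given by an integer valued function `𝔇` on the places of `F_ℂ = FNK ℂ N`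
(point places: `ord_τ h = e · 𝔇 v`; cusp places: `q_w ^ (-𝔇 v) · (h ∘ g⁻¹)` has a nonzero limit
at `i∞`).  Then for every `n > 0` there is `G ∈ F_ℂ`, `G ≠ 0`, with
`n ∣ 𝔇 v - ord_v G` for ALL places `v` (`exists_kummer_of_multiplicative`).

Proof: `CharRoot.exists_root_fun` gives `u` with multiplier `ψ`, `ψ ^ n = χ⁻¹`; then
`h · u ^ n` is `Γ₀(N)`-invariant and meromorphic at the cusps, hence `= merK G`; the orders of
`u` are divisible by the elliptic indices and `u` is periodic at the cusps because `ψ` is trivial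
on elliptic and parabolic elements.
-/

set_option autoImplicit false

open UpperHalfPlane hiding I
open Complex Filter Topology CongruenceSubgroup AlgebraicCurve
open scoped MatrixGroups

noncomputable section

namespace Fermat.Agent.MW.DivA.Assemble

open Fermat.Agent.ESJ.Jac Fermat.Agent.ESJ.Dict Fermat.Agent.MW.DivA.CharRoot
open Fermat.Agent.Lib.Analysis.NthRoot Fermat.Agent.ESJ.Jac.Kummer

/-- The order at an elliptic point of an analytic function whose multiplier is trivial on the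
elliptic elements is divisible by the elliptic index. -/
theorem ell_dvd_order {N : ℕ} {u : ℂ → ℂ} (huan : ∀ z ∈ U, AnalyticAt ℂ u z)
    (hufin : ∀ z ∈ U, meromorphicOrderAt u z ≠ ⊤) {ψ : Gamma0 N →* ℂˣ}
    (hψ : IsPETriv (Gamma0 N) ψ) (humult : HasMultiplier (Gamma0 N) u ψ) (τ : ℍ) (e : ℕ)
    (hell : EllType N τ e) : (e : ℤ) ∣ (meromorphicOrderAt u (τ : ℂ)).untop₀ := by
  have hroot : IsRootOn 1 u u U :=
    ⟨fun z hz => (huan z hz).meromorphicNFAt, fun z hz => Filter.Eventually.of_forall fun y => by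
      simp⟩
  rcases hell with rfl | ⟨rfl, δ, hδ, h2, hfix⟩ | ⟨rfl, δ, hδ, h3, hne, hfix⟩
  · simp
  · exact dvd_of_multiplier_eq_one one_ne_zero hufin hroot humult ⟨δ, hδ⟩ τ hfix 2 two_pos
      (Or.inr h2) (hmin_two δ h2) (hψ ⟨δ, hδ⟩ (trace_sq_le_four_of_fixed δ τ hfix))
  · exact dvd_of_multiplier_eq_one one_ne_zero hufin hroot humult ⟨δ, hδ⟩ τ hfix 3 three_pos
      (Or.inr h3) (hmin_three δ h3 hne) (hψ ⟨δ, hδ⟩ (trace_sq_le_four_of_fixed δ τ hfix))

/-- **Assembly.** A multiplicative function `h` (multiplier trivial on parabolic and elliptic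
elements) with "divisor" `𝔇` gives, for every `n > 0`, an element `G ≠ 0` of `F_ℂ` with
`n ∣ 𝔇 v - ord_v G` at every place. -/
theorem exists_kummer_of_multiplicative (N : ℕ) [NeZero N] {n : ℕ} (hn : 0 < n)
    (𝔇 : Place ℂ (FNK ℂ N) → ℤ) (h : ℂ → ℂ)
    (hmer : MeromorphicOn h U) (hfin : ∀ z ∈ U, meromorphicOrderAt h z ≠ ⊤)
    (χ : Gamma0 N →* ℂˣ) (hχ : IsPETriv (Gamma0 N) χ) (hmult : HasMultiplier (Gamma0 N) h χ)
    (hcusp : MerAtCusps h)
    (hpt : ∀ (v : Place ℂ (FNK ℂ N)) (τ : ℍ) (e : ℕ), EllType N τ e →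
      (∀ f : FNK ℂ N, f ≠ 0 → valPtK (RingHom.id ℂ) N τ f = e * v.ord f) →
      (meromorphicOrderAt h (τ : ℂ)).untop₀ = e * 𝔇 v)
    (hcu : ∀ (v : Place ℂ (FNK ℂ N)) (g : SL(2, ℤ)) (e w : ℕ), 0 < w → e * w = N →
      g⁻¹ * ModularGroup.T ^ w * g ∈ Gamma0 N →
      (∀ f : FNK ℂ N, f ≠ 0 → valCuspK (RingHom.id ℂ) N g f = e * v.ord f) →
      ∃ L : ℂ, L ≠ 0 ∧ Tendsto
        (fun z : ℂ => Function.Periodic.qParam (w : ℝ) z ^ (-𝔇 v) * h (mob g⁻¹ z))
        (comap Complex.im atTop) (𝓝 L)) :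
    ∃ G : FNK ℂ N, G ≠ 0 ∧ ∀ v : Place ℂ (FNK ℂ N), (n : ℤ) ∣ 𝔇 v - v.ord G := by
  have hD := isDict_C N
  have hχi : IsPETriv (Gamma0 N) χ⁻¹ := by
    intro γ hγ
    rw [MonoidHom.inv_apply, hχ γ hγ, inv_one]
  obtain ⟨ψ, hψn, hψpe, u, huan, hufin, humult, hucusp⟩ := exists_root_fun N hn.ne' χ⁻¹ hχi
  have humer : MeromorphicOn u U := fun z hz => (huan z hz).meromorphicAt
  set φ : ℂ → ℂ := h * u ^ n with hφ
  have hφmer : MeromorphicOn φ U := hmer.mul (humer.pow n)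
  have hφMA : φ ∈ GalCore.MA :=
    GalCore.MA.mul_mem ⟨hmer, hcusp⟩ (GalCore.MA.pow_mem ⟨humer, hucusp⟩ n)
  have hφinv : ∀ γ ∈ Gamma0 N, ∀ z ∈ U, φ (mob γ z) = φ z := by
    intro γ hγ z hz
    have e1 := hmult ⟨γ, hγ⟩ z hz
    have e2 := humult ⟨γ, hγ⟩ z hz
    have e3 : ((χ ⟨γ, hγ⟩ : ℂˣ) : ℂ) * ((ψ ⟨γ, hγ⟩ : ℂˣ) : ℂ) ^ n = 1 := by
      rw [← Units.val_pow_eq_pow_val, hψn, MonoidHom.inv_apply, ← Units.val_mul, mul_inv_cancel,
        Units.val_one]
    show h (mob γ z) * u (mob γ z) ^ n = h z * u z ^ n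
    rw [e1, e2, mul_pow]
    linear_combination (h z * u z ^ n) * e3
  obtain ⟨G, hG⟩ := exists_merK_eq_of_isDict N hD φ hφmer hφinv hφMA.2
  -- orders of `φ`
  have hφord : ∀ τ : ℍ, meromorphicOrderAt φ (τ : ℂ)
      = meromorphicOrderAt h (τ : ℂ) + n * meromorphicOrderAt u (τ : ℂ) := by
    intro τ
    rw [hφ, meromorphicOrderAt_mul (hmer _ τ.im_pos) ((humer _ τ.im_pos).pow n),
      meromorphicOrderAt_pow (humer _ τ.im_pos)]
  have hG0 : G ≠ 0 := by
    rintro rfl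
    have h0 := (hD.merK_eq_zero_iff (0 : FNK ℂ N)).mpr rfl
    have h1 : φ =ᶠ[codiscreteWithin U] fun _ => (0 : ℂ) := hG.symm.trans h0
    have h2 := eventuallyEq_nhdsNE_of_codiscreteWithin h1 (coe_mem_U UpperHalfPlane.I)
    have h3 : meromorphicOrderAt φ ((UpperHalfPlane.I : ℍ) : ℂ) = ⊤ :=
      meromorphicOrderAt_eq_top_iff.mpr h2
    rw [hφord, ← WithTop.coe_untop₀_of_ne_top (hfin _ (coe_mem_U UpperHalfPlane.I)),
      ← WithTop.coe_untop₀_of_ne_top (hufin _ (coe_mem_U UpperHalfPlane.I))] at h3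
    have h4 : ((n : ℕ) : WithTop ℤ) = (((n : ℤ)) : WithTop ℤ) := by norm_cast
    rw [h4, ← WithTop.coe_mul, ← WithTop.coe_add] at h3
    exact WithTop.coe_ne_top h3
  refine ⟨G, hG0, fun v => ?_⟩
  rcases hD.place_cases v with ⟨τ, e, hell, hv⟩ | ⟨g, e, w, hw, hew, hmem, hv⟩
  · -- point places
    have hv' := hv G hG0
    have e1 : meromorphicOrderAt (merK (RingHom.id ℂ) N G) (τ : ℂ)
        = ((valPtK (RingHom.id ℂ) N τ G : ℤ) : WithTop ℤ) := hD.meromorphicOrderAt_merK G hG0 τ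
    have e2 : meromorphicOrderAt (merK (RingHom.id ℂ) N G) (τ : ℂ)
        = meromorphicOrderAt φ (τ : ℂ) :=
      meromorphicOrderAt_congr (eventuallyEq_nhdsNE_of_codiscreteWithin hG τ.im_pos)
    have e3 := hφord τ
    obtain ⟨k, hk⟩ := ell_dvd_order huan hufin hψpe humult τ e hell
    have ha := hpt v τ e hell hv
    have e4 : meromorphicOrderAt h (τ : ℂ) = (((e : ℤ) * 𝔇 v : ℤ) : WithTop ℤ) := by
      rw [← ha]
      exact (WithTop.coe_untop₀_of_ne_top (hfin _ τ.im_pos)).symm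
    have e5 : meromorphicOrderAt u (τ : ℂ) = (((e : ℤ) * k : ℤ) : WithTop ℤ) := by
      rw [← hk]
      exact (WithTop.coe_untop₀_of_ne_top (hufin _ τ.im_pos)).symm
    rw [e2, e3, e4, e5] at e1
    have h4 : ((n : ℕ) : WithTop ℤ) = (((n : ℤ)) : WithTop ℤ) := by norm_cast
    rw [h4, ← WithTop.coe_mul, ← WithTop.coe_add, WithTop.coe_eq_coe, hv'] at e1
    have he0 : (e : ℤ) ≠ 0 := by exact_mod_cast hell.pos.ne'
    refine ⟨-k, ?_⟩
    apply mul_left_cancel₀ he0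
    linear_combination e1
  · -- cusp places
    have hv' := hv G hG0
    obtain ⟨ψG, hψGan, hψG0, hshape⟩ := hD.merK_cusp_shape G hG0 g
    obtain ⟨L, hL0, hL⟩ := hcu v g e w hw hew hmem hv
    have hNpos : (0 : ℝ) < (N : ℝ) := by exact_mod_cast Nat.pos_of_ne_zero (NeZero.ne N)
    have hwR : (0 : ℝ) < (w : ℝ) := by exact_mod_cast hw
    set γw : Gamma0 N := ⟨g⁻¹ * ModularGroup.T ^ w * g, hmem⟩ with hγw
    have hψγ : ψ γw = 1 := by
      apply hψpe
      show ((g⁻¹ * ModularGroup.T ^ w * g : SL(2, ℤ)) : Matrix (Fin 2) (Fin 2) ℤ).trace ^ 2 ≤ 4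
      rw [← zpow_natCast, trace_conj_T_zpow]
      norm_num
    have huc : ∀ z : ℂ, 0 < z.im → AnalyticAt ℂ (fun y => u (mob g⁻¹ y)) z := fun z hz =>
      AnalyticAt.comp (g := u) (f := mob g⁻¹) (huan _ (mob_mem_U' g⁻¹ hz)) (analyticAt_mob' g⁻¹ hz)
    have hfan : ∀ z : ℂ, (0 : ℝ) < z.im → AnalyticAt ℂ (fun y => u (mob g⁻¹ y) ^ n) z :=
      fun z hz => (huc z hz).pow n
    -- the root
    have hroot : IsRootOn n (fun z => u (mob g⁻¹ z) ^ n) (fun z => u (mob g⁻¹ z))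
        {z : ℂ | 0 < z.im} :=
      ⟨fun z hz => (huc z hz).meromorphicNFAt, fun z hz => Filter.Eventually.of_forall fun y => rfl⟩
    have hζ : ∀ z : ℂ, 0 < z.im →
        (fun z => u (mob g⁻¹ z)) (z + ((w : ℝ) : ℂ)) = (1 : ℂ) * (fun z => u (mob g⁻¹ z)) z := by
      intro z hz
      have hzU : z ∈ U := hz
      have e1 : mob g⁻¹ (z + (w : ℂ)) = mob (g⁻¹ * ModularGroup.T ^ w * g) (mob g⁻¹ z) := by
        rw [← mob_mul' _ _ hzU]
        have e2 : g⁻¹ * ModularGroup.T ^ w * g * g⁻¹ = g⁻¹ * ModularGroup.T ^ w := by group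
        rw [e2, mob_mul' _ _ hzU, mob_T_pow]
      show u (mob g⁻¹ (z + ((w : ℝ) : ℂ))) = 1 * u (mob g⁻¹ z)
      rw [Complex.ofReal_natCast, e1, one_mul]
      have h1 := humult γw (mob g⁻¹ z) (mob_mem_U' g⁻¹ hzU)
      rw [hψγ, Units.val_one, one_mul] at h1
      exact h1
    -- pointwise identity near the cusp
    obtain ⟨Y₁, M₁, hY₁⟩ := hcusp g⁻¹
    obtain ⟨Y₂, -, hY₂⟩ := MultCusp.exists_analyticAt_ne_zero
      (φ := fun z => merK (RingHom.id ℂ) N G (mob g⁻¹ z)) (Y := 0) hNpos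
      (valCuspK (RingHom.id ℂ) N g G) ψG hψGan hψG0 (fun z hz => hshape z hz)
    have hpw : ∀ z : ℂ, max (max Y₁ Y₂) 0 < z.im →
        merK (RingHom.id ℂ) N G (mob g⁻¹ z) = h (mob g⁻¹ z) * u (mob g⁻¹ z) ^ n := by
      intro z hz
      have hz0 : 0 < z.im := lt_of_le_of_lt (le_max_right _ _) hz
      have hz1 : Y₁ < z.im := lt_of_le_of_lt ((le_max_left _ _).trans (le_max_left _ _)) hz
      have hz2 : Y₂ < z.im := lt_of_le_of_lt ((le_max_right _ _).trans (le_max_left _ _)) hz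
      have hzU : z ∈ U := hz0
      have ev := eventuallyEq_nhdsNE_of_codiscreteWithin hG (mob_mem_U' g⁻¹ hzU)
      have ev' : (fun y => merK (RingHom.id ℂ) N G (mob g⁻¹ y)) =ᶠ[𝓝[≠] z]
          fun y => h (mob g⁻¹ y) * u (mob g⁻¹ y) ^ n :=
        (tendsto_mob_nhdsNE g⁻¹ hzU).eventually ev
      have c1 : ContinuousAt (fun y => merK (RingHom.id ℂ) N G (mob g⁻¹ y)) z :=
        (hY₂ z hz2).1.continuousAt
      have c2 : ContinuousAt (fun y => h (mob g⁻¹ y) * u (mob g⁻¹ y) ^ n) z :=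
        ((hY₁ z hz1).1.mul (hfan z hz0)).continuousAt
      exact tendsto_nhds_unique_of_eventuallyEq (c1.tendsto.mono_left nhdsWithin_le_nhds)
        (c2.tendsto.mono_left nhdsWithin_le_nhds) ev'
    -- the limit at `i∞`
    set k : ℤ := v.ord G - 𝔇 v with hk
    have hT1 : Tendsto (fun z : ℂ => ψG (Function.Periodic.qParam (N : ℝ) z))
        (comap Complex.im atTop) (𝓝 (ψG 0)) :=
      hψGan.continuousAt.tendsto.comp
        ((Function.Periodic.qParam_tendsto hNpos).mono_right nhdsWithin_le_nhds)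
    have hlim : Tendsto (fun z : ℂ => Function.Periodic.qParam (w : ℝ) z ^ (-k) *
        (fun z => u (mob g⁻¹ z) ^ n) z) (comap Complex.im atTop) (𝓝 (ψG 0 / L)) := by
      refine (hT1.div hL hL0).congr' ?_
      have h2 : ∀ᶠ z : ℂ in comap Complex.im atTop, max (max Y₁ Y₂) 0 < z.im :=
        tendsto_comap.eventually (eventually_gt_atTop _)
      have h3 : ∀ᶠ z : ℂ in comap Complex.im atTop,
          Function.Periodic.qParam (w : ℝ) z ^ (-𝔇 v) * h (mob g⁻¹ z) ≠ 0 :=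
        hL.eventually_ne hL0
      filter_upwards [h2, h3] with z hz hz3
      have hz0 : 0 < z.im := lt_of_le_of_lt (le_max_right _ _) hz
      have hQ : Function.Periodic.qParam (N : ℝ) z ≠ 0 := Complex.exp_ne_zero _
      have hqw : ∀ m : ℤ, Function.Periodic.qParam (w : ℝ) z ^ m
          = Function.Periodic.qParam (N : ℝ) z ^ ((e : ℤ) * m) := by
        intro m
        rw [qParam_eq_pow (NeZero.ne N) hw hew, ← zpow_natCast, ← zpow_mul]
      have hkey : Function.Periodic.qParam (N : ℝ) z ^ ((e : ℤ) * v.ord G)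
          * ψG (Function.Periodic.qParam (N : ℝ) z)
          = h (mob g⁻¹ z) * u (mob g⁻¹ z) ^ n := by
        rw [← hpw z hz, hshape z hz0, hv']
      show ψG (Function.Periodic.qParam (N : ℝ) z)
          / (Function.Periodic.qParam (w : ℝ) z ^ (-𝔇 v) * h (mob g⁻¹ z))
        = Function.Periodic.qParam (w : ℝ) z ^ (-k) * u (mob g⁻¹ z) ^ n
      rw [hqw (-𝔇 v)] at hz3
      rw [hqw (-𝔇 v), hqw (-k), div_eq_iff hz3]
      have hexp : (e : ℤ) * -k + (e : ℤ) * -𝔇 v + (e : ℤ) * v.ord G = 0 := by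
        rw [hk]
        ring
      have hone : Function.Periodic.qParam (N : ℝ) z ^ ((e : ℤ) * -k)
          * Function.Periodic.qParam (N : ℝ) z ^ ((e : ℤ) * -𝔇 v)
          * Function.Periodic.qParam (N : ℝ) z ^ ((e : ℤ) * v.ord G) = 1 := by
        rw [← zpow_add₀ hQ, ← zpow_add₀ hQ, hexp, zpow_zero]
      calc ψG (Function.Periodic.qParam (N : ℝ) z)
          = (Function.Periodic.qParam (N : ℝ) z ^ ((e : ℤ) * -k)
              * Function.Periodic.qParam (N : ℝ) z ^ ((e : ℤ) * -𝔇 v)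
              * Function.Periodic.qParam (N : ℝ) z ^ ((e : ℤ) * v.ord G))
              * ψG (Function.Periodic.qParam (N : ℝ) z) := by rw [hone, one_mul]
        _ = (Function.Periodic.qParam (N : ℝ) z ^ ((e : ℤ) * -k)
              * Function.Periodic.qParam (N : ℝ) z ^ ((e : ℤ) * -𝔇 v))
              * (Function.Periodic.qParam (N : ℝ) z ^ ((e : ℤ) * v.ord G)
                * ψG (Function.Periodic.qParam (N : ℝ) z)) := by ring
        _ = (Function.Periodic.qParam (N : ℝ) z ^ ((e : ℤ) * -k)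
              * Function.Periodic.qParam (N : ℝ) z ^ ((e : ℤ) * -𝔇 v))
              * (h (mob g⁻¹ z) * u (mob g⁻¹ z) ^ n) := by rw [hkey]
        _ = Function.Periodic.qParam (N : ℝ) z ^ ((e : ℤ) * -k) * u (mob g⁻¹ z) ^ n
              * (Function.Periodic.qParam (N : ℝ) z ^ ((e : ℤ) * -𝔇 v) * h (mob g⁻¹ z)) := by
            ring
    have key := (Fermat.Agent.Lib.Analysis.CuspMultiplier.cusp_multiplier_eq_one_iff hn.ne' hroot
      hwR (ζ := 1) (one_pow n) hζ (div_ne_zero hψG0 hL0) (Y := 0) hfan hlim).1 rfl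
    obtain ⟨c, hc⟩ := key
    exact ⟨-c, by rw [hk] at hc; linear_combination -hc⟩

end Fermat.Agent.MW.DivA.Assemble
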