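import Mathlib
import Fermat.Agent.Lib.Analysis.NthRoot

/-!
# Logarithmic primitives of meromorphic functions with integral residues

`HasIntRes g z m` : near `z`, `g = a + m / (· - z)` with `a` analytic at `z` (`m : ℤ`).

`IsLogPrim g h B` : `h` is meromorphic in normal form on `B`, of finite order everywhere, and its
logarithmic derivative is `g` (off the poles).

* `IsLogPrim.order_eq` : the order of `h` at `z` is the residue of `g` at `z`.
* `IsLogPrim.eq_const_mul` : uniqueness up to a nonzero constant on preconnected open sets.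
* `exists_isLogPrim_ball`, `exists_isLogPrim_iUnion`, `exists_isLogPrim_upperHalfPlane` :
  existence, for `g` all of whose singularities are (at most) simple poles with integral residues.
-/

set_option autoImplicit false

open Complex Metric Set Filter Topology

noncomputable section

namespace Fermat.Agent.MW.DivA.LogPrim

/-- `g` has at `z` at most a simple pole, with residue the integer `m`. -/
def HasIntRes (g : ℂ → ℂ) (z : ℂ) (m : ℤ) : Prop :=
  ∃ a : ℂ → ℂ, AnalyticAt ℂ a z ∧ g =ᶠ[𝓝[≠] z] fun y => a y + (m : ℂ) / (y - z)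

theorem HasIntRes.meromorphicAt {g : ℂ → ℂ} {z : ℂ} {m : ℤ} (h : HasIntRes g z m) :
    MeromorphicAt g z := by
  obtain ⟨a, ha, hg⟩ := h
  have h1 : MeromorphicAt (fun y => a y + (m : ℂ) / (y - z)) z := by
    apply ha.meromorphicAt.add
    exact (MeromorphicAt.const _ _).div ((MeromorphicAt.id z).sub (MeromorphicAt.const _ _))
  exact h1.congr hg.symm

theorem hasIntRes_of_analyticAt {g : ℂ → ℂ} {z : ℂ} (h : AnalyticAt ℂ g z) : HasIntRes g z 0 :=
  ⟨g, h, by simp⟩

theorem hasIntRes_zero_fun (z : ℂ) : HasIntRes (fun _ => (0 : ℂ)) z 0 :=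
  hasIntRes_of_analyticAt analyticAt_const

theorem HasIntRes.congr {g g' : ℂ → ℂ} {z : ℂ} {m : ℤ} (h : HasIntRes g z m)
    (hgg : g' =ᶠ[𝓝[≠] z] g) : HasIntRes g' z m := by
  obtain ⟨a, ha, hg⟩ := h
  exact ⟨a, ha, hgg.trans hg⟩

/-- The key local computation: the order of a meromorphic function is the residue of its
logarithmic derivative. -/
theorem order_eq_of_logDeriv {f g : ℂ → ℂ} {z : ℂ} {k m : ℤ} (hf : MeromorphicAt f z)
    (hk : meromorphicOrderAt f z = k) (hfg : logDeriv f =ᶠ[𝓝[≠] z] g) (hg : HasIntRes g z m) :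
    k = m := by
  obtain ⟨a, ha, hga⟩ := hg
  obtain ⟨u, hu, hu0, hfu⟩ := (meromorphicOrderAt_eq_int_iff hf).1 hk
  have hfu' : f =ᶠ[𝓝[≠] z] fun y => (y - z) ^ k * u y := by
    filter_upwards [hfu] with y hy
    rw [hy, smul_eq_mul]
  have h1 : ∀ᶠ y in 𝓝[≠] z, logDeriv f y = (k : ℂ) / (y - z) + logDeriv u y := by
    filter_upwards [logDeriv_congr_nhdsNE hfu', eventually_mem_nhdsWithin,
      (hu.continuousAt.eventually_ne hu0).filter_mono nhdsWithin_le_nhds,
      hu.eventually_analyticAt.filter_mono nhdsWithin_le_nhds] with y hy hyne huy huan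
    have hyz : y - z ≠ 0 := sub_ne_zero.mpr hyne
    have hd1 : DifferentiableAt ℂ (fun y : ℂ => y - z) y := by fun_prop
    have hd2 : DifferentiableAt ℂ (fun y : ℂ => (y - z) ^ k) y :=
      hd1.zpow (Or.inl hyz)
    rw [hy, logDeriv_mul (f := fun y : ℂ => (y - z) ^ k) y (zpow_ne_zero k hyz) huy hd2
        huan.differentiableAt,
      logDeriv_fun_zpow hd1 k]
    congr 1
    rw [logDeriv_apply]
    have : deriv (fun y : ℂ => y - z) y = 1 := by
      rw [deriv_sub_const]
      simp
    rw [this]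
    ring
  have h2 : ∀ᶠ y in 𝓝[≠] z, ((k : ℂ) - m) = (y - z) * (a y - logDeriv u y) := by
    filter_upwards [h1, hfg, hga, eventually_mem_nhdsWithin] with y hy1 hy2 hy3 hyne
    have hyz : y - z ≠ 0 := sub_ne_zero.mpr hyne
    rw [hy2, hy3] at hy1
    field_simp at hy1 ⊢
    linear_combination -hy1
  have hcont : ContinuousAt (fun y => (y - z) * (a y - logDeriv u y)) z := by
    have hl : ContinuousAt (logDeriv u) z := by
      have : logDeriv u = fun y => deriv u y / u y := by
        ext y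
        rw [logDeriv_apply]
      rw [this]
      exact hu.deriv.continuousAt.div hu.continuousAt hu0
    exact ((continuousAt_id.sub continuousAt_const)).mul (ha.continuousAt.sub hl)
  have h3 : Tendsto (fun y => (y - z) * (a y - logDeriv u y)) (𝓝[≠] z) (𝓝 0) := by
    have := hcont.tendsto.mono_left (nhdsWithin_le_nhds (s := {z}ᶜ))
    simpa using this
  have h4 : Tendsto (fun y => (y - z) * (a y - logDeriv u y)) (𝓝[≠] z) (𝓝 ((k : ℂ) - m)) :=
    tendsto_const_nhds.congr' h2
  have h5 := tendsto_nhds_unique h4 h3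
  have h6 : (k : ℂ) = m := sub_eq_zero.mp h5
  exact_mod_cast h6

theorem HasIntRes.unique {g : ℂ → ℂ} {z : ℂ} {m m' : ℤ} (h : HasIntRes g z m)
    (h' : HasIntRes g z m') : m = m' := by
  obtain ⟨a, ha, hg⟩ := h
  obtain ⟨a', ha', hg'⟩ := h'
  have h2 : ∀ᶠ y in 𝓝[≠] z, ((m : ℂ) - m') = (y - z) * (a' y - a y) := by
    filter_upwards [hg, hg', eventually_mem_nhdsWithin] with y hy1 hy2 hyne
    have hyz : y - z ≠ 0 := sub_ne_zero.mpr hyne
    rw [hy1] at hy2
    field_simp at hy2 ⊢
    linear_combination hy2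
  have hcont : ContinuousAt (fun y => (y - z) * (a' y - a y)) z :=
    ((continuousAt_id.sub continuousAt_const)).mul (ha'.continuousAt.sub ha.continuousAt)
  have h3 : Tendsto (fun y => (y - z) * (a' y - a y)) (𝓝[≠] z) (𝓝 0) := by
    have := hcont.tendsto.mono_left (nhdsWithin_le_nhds (s := {z}ᶜ))
    simpa using this
  have h4 : Tendsto (fun y => (y - z) * (a' y - a y)) (𝓝[≠] z) (𝓝 ((m : ℂ) - m')) :=
    tendsto_const_nhds.congr' h2
  have h5 := tendsto_nhds_unique h4 h3
  have h6 : (m : ℂ) = m' := sub_eq_zero.mp h5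
  exact_mod_cast h6

/-- At a genuine pole the order of `g` is `-1`. -/
theorem HasIntRes.order_eq_neg_one {g : ℂ → ℂ} {z : ℂ} {m : ℤ} (h : HasIntRes g z m)
    (hm : m ≠ 0) : meromorphicOrderAt g z = ((-1 : ℤ) : WithTop ℤ) := by
  have hmer := h.meromorphicAt
  obtain ⟨a, ha, hg⟩ := h
  rw [meromorphicOrderAt_eq_int_iff hmer]
  refine ⟨fun y => (y - z) * a y + m, by fun_prop, by simpa using hm, ?_⟩
  filter_upwards [hg, eventually_mem_nhdsWithin] with y hy hyne
  have hyz : y - z ≠ 0 := sub_ne_zero.mpr hyne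
  rw [hy, smul_eq_mul]
  field_simp

/-- `h` is a meromorphic logarithmic primitive of `g` on `B`. -/
def IsLogPrim (g h : ℂ → ℂ) (B : Set ℂ) : Prop :=
  MeromorphicNFOn h B ∧ (∀ z ∈ B, meromorphicOrderAt h z ≠ ⊤) ∧
    ∀ z ∈ B, logDeriv h =ᶠ[𝓝[≠] z] g

theorem IsLogPrim.mono {g h : ℂ → ℂ} {B B' : Set ℂ} (hh : IsLogPrim g h B) (hB : B' ⊆ B) :
    IsLogPrim g h B' :=
  ⟨fun _ hz => hh.1 (hB hz), fun z hz => hh.2.1 z (hB hz), fun z hz => hh.2.2 z (hB hz)⟩

theorem IsLogPrim.congr {g g' h : ℂ → ℂ} {B : Set ℂ} (hh : IsLogPrim g h B)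
    (hgg : ∀ z ∈ B, g =ᶠ[𝓝[≠] z] g') : IsLogPrim g' h B :=
  ⟨hh.1, hh.2.1, fun z hz => (hh.2.2 z hz).trans (hgg z hz)⟩

/-- The order of a logarithmic primitive is the residue. -/
theorem IsLogPrim.order_eq {g h : ℂ → ℂ} {B : Set ℂ} (hh : IsLogPrim g h B) {z : ℂ} (hz : z ∈ B)
    {m : ℤ} (hm : HasIntRes g z m) : meromorphicOrderAt h z = (m : WithTop ℤ) := by
  have ht := hh.2.1 z hz
  lift meromorphicOrderAt h z to ℤ using ht with k hk
  have := order_eq_of_logDeriv (hh.1 hz).meromorphicAt hk.symm (hh.2.2 z hz) hm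
  rw [this]

/-- A logarithmic primitive does not vanish on punctured neighbourhoods and is analytic there. -/
theorem IsLogPrim.eventually {g h : ℂ → ℂ} {B : Set ℂ} (hh : IsLogPrim g h B) {z : ℂ}
    (hz : z ∈ B) : ∀ᶠ y in 𝓝[≠] z, h y ≠ 0 ∧ AnalyticAt ℂ h y :=
  ((meromorphicOrderAt_ne_top_iff_eventually_ne_zero (hh.1 hz).meromorphicAt).1
    (hh.2.1 z hz)).and (hh.1 hz).meromorphicAt.eventually_analyticAt

theorem IsLogPrim.const_mul {g h : ℂ → ℂ} {B : Set ℂ} (hh : IsLogPrim g h B) {c : ℂ}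
    (hc : c ≠ 0) : IsLogPrim g (fun z => c * h z) B := by
  refine ⟨fun z hz => ?_, fun z hz => ?_, fun z hz => ?_⟩
  · exact (meromorphicNFAt_mul_iff_right (f := h) (g := fun _ => c) analyticAt_const hc).mpr
      (hh.1 hz)
  · have h1 : meromorphicOrderAt (fun z => c * h z) z = meromorphicOrderAt h z := by
      have h2 := meromorphicOrderAt_mul (f := fun _ : ℂ => c) (g := h) (x := z)
        (MeromorphicAt.const c z) (hh.1 hz).meromorphicAt
      have h3 : meromorphicOrderAt (fun _ : ℂ => c) z = ((0 : ℤ) : WithTop ℤ) := by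
        rw [meromorphicOrderAt_eq_int_iff (MeromorphicAt.const c z)]
        exact ⟨fun _ => c, analyticAt_const, hc, by simp⟩
      rw [h3, WithTop.coe_zero, zero_add] at h2
      exact h2
    rw [h1]
    exact hh.2.1 z hz
  · filter_upwards [hh.2.2 z hz] with y hy
    rw [← hy]
    exact logDeriv_const_mul y c hc

/-- Two logarithmic primitives of the same function on a preconnected open set differ by a
nonzero constant. -/
theorem IsLogPrim.eq_const_mul {g h h' : ℂ → ℂ} {B : Set ℂ} (hB : IsOpen B)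
    (hBc : IsPreconnected B) (hh : IsLogPrim g h B) (hh' : IsLogPrim g h' B) :
    ∃ c : ℂ, c ≠ 0 ∧ ∀ z ∈ B, h z = c * h' z := by
  have hq₀ : MeromorphicOn (h * h'⁻¹) B := fun z hz =>
    (hh.1 hz).meromorphicAt.mul (hh'.1 hz).meromorphicAt.inv
  set q := toMeromorphicNFOn (h * h'⁻¹) B with hq
  have hqNF : MeromorphicNFOn q B := meromorphicNFOn_toMeromorphicNFOn _ _
  have hqeq : ∀ z ∈ B, q =ᶠ[𝓝[≠] z] h * h'⁻¹ := fun z hz =>
    hq₀.toMeromorphicNFOn_eq_self_on_nhdsNE hz
  -- the logarithmic derivative of the quotient vanishes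
  have hqlog : ∀ z ∈ B, logDeriv q =ᶠ[𝓝[≠] z] fun _ => (0 : ℂ) := by
    intro z hz
    filter_upwards [logDeriv_congr_nhdsNE (hqeq z hz), hh.eventually hz, hh'.eventually hz,
      hh.2.2 z hz, hh'.2.2 z hz] with y hy hy1 hy2 hy3 hy4
    rw [hy]
    have e : (h * h'⁻¹) = fun z => h z / h' z := by
      ext w
      simp [div_eq_mul_inv]
    rw [e, logDeriv_div y hy1.1 hy2.1 hy1.2.differentiableAt hy2.2.differentiableAt, hy3, hy4,
      sub_self]
  -- the order of the quotient is zero everywhere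
  have hord : ∀ z ∈ B, meromorphicOrderAt q z = 0 := by
    intro z hz
    have ht : meromorphicOrderAt q z ≠ ⊤ := by
      rw [meromorphicOrderAt_congr (hqeq z hz),
        meromorphicOrderAt_mul (hh.1 hz).meromorphicAt (hh'.1 hz).meromorphicAt.inv,
        meromorphicOrderAt_inv]
      have t1 := hh.2.1 z hz
      have t2 := hh'.2.1 z hz
      lift meromorphicOrderAt h z to ℤ using t1 with a ha
      lift meromorphicOrderAt h' z to ℤ using t2 with b hb
      exact_mod_cast WithTop.coe_ne_top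
    lift meromorphicOrderAt q z to ℤ using ht with k hk
    have := order_eq_of_logDeriv (hqNF hz).meromorphicAt hk.symm (hqlog z hz)
      (hasIntRes_zero_fun z)
    rw [this]
    rfl
  have hqan : ∀ z ∈ B, AnalyticAt ℂ q z := fun z hz =>
    (hqNF hz).meromorphicOrderAt_nonneg_iff_analyticAt.1 (hord z hz).ge
  have hqne : ∀ z ∈ B, q z ≠ 0 := fun z hz =>
    (hqNF hz).meromorphicOrderAt_eq_zero_iff.1 (hord z hz)
  have hqd : DifferentiableOn ℂ q B := fun z hz =>
    (hqan z hz).differentiableAt.differentiableWithinAt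
  have hqderiv : B.EqOn (deriv q) 0 := by
    intro z hz
    have h1 : ∀ᶠ y in 𝓝[≠] z, deriv q y = 0 := by
      filter_upwards [hqlog z hz, eventually_nhdsWithin_of_eventually_nhds (hB.mem_nhds hz)]
        with y hy hyB
      rw [logDeriv_apply] at hy
      exact (div_eq_zero_iff.mp hy).resolve_right (hqne y hyB)
    have h2 : Tendsto (deriv q) (𝓝[≠] z) (𝓝 (deriv q z)) :=
      ((hqan z hz).deriv.continuousAt.tendsto).mono_left nhdsWithin_le_nhds
    have h3 : Tendsto (deriv q) (𝓝[≠] z) (𝓝 0) :=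
      tendsto_const_nhds.congr' (h1.mono fun y hy => hy.symm)
    exact tendsto_nhds_unique h2 h3
  rcases B.eq_empty_or_nonempty with hBe | ⟨z₀, hz₀⟩
  · exact ⟨1, one_ne_zero, fun z hz => by rw [hBe] at hz; exact absurd hz (notMem_empty z)⟩
  refine ⟨q z₀, hqne z₀ hz₀, fun z hz => ?_⟩
  have hconst : ∀ y ∈ B, q y = q z₀ := fun y hy =>
    hB.is_const_of_deriv_eq_zero hBc hqd hqderiv hy hz₀
  have hNF2 : MeromorphicNFAt (fun z => q z₀ * h' z) z :=
    (hh'.const_mul (hqne z₀ hz₀)).1 hz
  have hev : h =ᶠ[𝓝[≠] z] fun z => q z₀ * h' z := by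
    filter_upwards [hqeq z hz, hh'.eventually hz,
      eventually_nhdsWithin_of_eventually_nhds (hB.mem_nhds hz)] with y hy hy0 hyB
    rw [← hconst y hyB, hy]
    simp only [Pi.mul_apply, Pi.inv_apply]
    rw [mul_assoc, inv_mul_cancel₀ hy0.1, mul_one]
  exact (((hh.1 hz).eventuallyEq_nhdsNE_iff_eventuallyEq_nhds hNF2).1 hev).eq_of_nhds

/-! ### Existence on a disc -/

/-- The finite product `∏ (y - s) ^ m s` and its logarithmic derivative off `S`. -/
theorem logDeriv_prod_zpow (S : Finset ℂ) (m : ℂ → ℤ) {y : ℂ} (hy : y ∉ S) :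
    logDeriv (fun y => ∏ s ∈ S, (y - s) ^ m s) y = ∑ s ∈ S, (m s : ℂ) / (y - s) := by
  have h1 : ∀ s ∈ S, (fun y : ℂ => (y - s) ^ m s) y ≠ 0 := fun s hs =>
    zpow_ne_zero _ (sub_ne_zero.mpr (fun h => hy (h ▸ hs)))
  have h2 : ∀ s ∈ S, DifferentiableAt ℂ (fun y : ℂ => (y - s) ^ m s) y := fun s hs =>
    (by fun_prop : DifferentiableAt ℂ (fun y : ℂ => y - s) y).zpow
      (Or.inl (sub_ne_zero.mpr (fun h => hy (h ▸ hs))))
  rw [logDeriv_prod (f := fun s (y : ℂ) => (y - s) ^ m s) h1 h2]
  refine Finset.sum_congr rfl (fun s hs => ?_)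
  have hd1 : DifferentiableAt ℂ (fun y : ℂ => y - s) y := by fun_prop
  rw [logDeriv_fun_zpow hd1 (m s), logDeriv_apply]
  have : deriv (fun y : ℂ => y - s) y = 1 := by
    rw [deriv_sub_const]
    simp
  rw [this]
  ring

/-- Local existence of logarithmic primitives on a disc whose closure lies in the domain. -/
theorem exists_isLogPrim_ball {g : ℂ → ℂ} {U : Set ℂ}
    (hg : ∀ z ∈ U, ∃ m : ℤ, HasIntRes g z m) {c : ℂ} {r : ℝ} (hK : closedBall c r ⊆ U) :
    ∃ h, IsLogPrim g h (ball c r) := by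
  classical
  choose! m hm using hg
  choose! a ha hga using hm
  have hm' : ∀ z ∈ U, HasIntRes g z (m z) := fun z hz => ⟨a z, ha z hz, hga z hz⟩
  have hgK : MeromorphicOn g (closedBall c r) := fun z hz => (hm' z (hK hz)).meromorphicAt
  set D := MeromorphicOn.divisor g (closedBall c r) with hD
  have hDfin : D.support.Finite := D.finiteSupport (isCompact_closedBall c r)
  have hSfin : {z | z ∈ closedBall c r ∧ m z ≠ 0}.Finite := by
    refine hDfin.subset (fun z hz => ?_)
    obtain ⟨hzK, hmz⟩ := hz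
    simp only [Function.mem_support]
    rw [hD, MeromorphicOn.divisor_apply hgK hzK, (hm' z (hK hzK)).order_eq_neg_one hmz]
    decide
  set S : Finset ℂ := hSfin.toFinset with hS
  have hmemS : ∀ z, z ∈ S ↔ z ∈ closedBall c r ∧ m z ≠ 0 := fun z => by
    rw [hS, Set.Finite.mem_toFinset]
    rfl
  let R : ℂ → ℂ := fun y => ∑ s ∈ S, (m s : ℂ) / (y - s)
  let g0 : ℂ → ℂ := fun y => g y - R y
  -- a local analytic representative of `g0`
  have hb : ∀ z ∈ closedBall c r, ∃ b : ℂ → ℂ, AnalyticAt ℂ b z ∧ g0 =ᶠ[𝓝[≠] z] b := by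
    intro z hz
    refine ⟨fun y => a z y - ∑ s ∈ S.erase z, (m s : ℂ) / (y - s), ?_, ?_⟩
    · apply (ha z (hK hz)).sub
      apply Finset.analyticAt_fun_sum
      intro s hs
      have hsz : z - s ≠ 0 := sub_ne_zero.mpr (Finset.ne_of_mem_erase hs).symm
      exact analyticAt_const.div (analyticAt_id.sub analyticAt_const) hsz
    · filter_upwards [hga z (hK hz)] with y hy
      simp only [g0, R]
      rw [hy]
      by_cases hzS : z ∈ S
      · rw [← Finset.add_sum_erase S _ hzS]
        ring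
      · have hmz : m z = 0 := by
          by_contra hne
          exact hzS ((hmemS z).2 ⟨hz, hne⟩)
        rw [Finset.erase_eq_of_notMem hzS, hmz]
        simp
  have hBK : ball c r ⊆ closedBall c r := ball_subset_closedBall
  have hg0mer : MeromorphicOn g0 (ball c r) := fun z hz => by
    obtain ⟨b, hb1, hb2⟩ := hb z (hBK hz)
    exact hb1.meromorphicAt.congr hb2.symm
  set G0 := toMeromorphicNFOn g0 (ball c r) with hG0
  have hG0NF : MeromorphicNFOn G0 (ball c r) := meromorphicNFOn_toMeromorphicNFOn _ _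
  have hG0eq : ∀ z ∈ ball c r, G0 =ᶠ[𝓝[≠] z] g0 := fun z hz =>
    hg0mer.toMeromorphicNFOn_eq_self_on_nhdsNE hz
  have hG0an : ∀ z ∈ ball c r, AnalyticAt ℂ G0 z := by
    intro z hz
    obtain ⟨b, hb1, hb2⟩ := hb z (hBK hz)
    apply (hG0NF hz).meromorphicOrderAt_nonneg_iff_analyticAt.1
    rw [meromorphicOrderAt_congr ((hG0eq z hz).trans hb2)]
    exact hb1.meromorphicOrderAt_nonneg
  have hG0d : DifferentiableOn ℂ G0 (ball c r) := fun z hz =>
    (hG0an z hz).differentiableAt.differentiableWithinAt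
  obtain ⟨L, hL⟩ := hG0d.isExactOn_ball
  -- the rational factor
  let d : ℂ → ℤ := fun u => if u ∈ S then m u else 0
  have hdfin : d.support.Finite := S.finite_toSet.subset (fun u hu => by
    simp only [Function.mem_support, d] at hu
    by_contra hne
    exact hu (if_neg hne))
  have hP : (∏ᶠ u, (· - u) ^ d u) = fun y : ℂ => ∏ s ∈ S, (y - s) ^ m s := by
    rw [Function.FactorizedRational.finprod_eq_fun hdfin]
    funext y
    rw [finprod_eq_prod_of_mulSupport_subset (s := S)]
    · refine Finset.prod_congr rfl (fun s hs => ?_)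
      simp only [d, if_pos hs]
    · intro u hu
      simp only [Function.mem_mulSupport] at hu
      by_contra hne
      apply hu
      simp only [d]
      rw [if_neg (by simpa using hne), zpow_zero]
  have hEan : AnalyticOnNhd ℂ (fun z => exp (L z)) (ball c r) := by
    apply DifferentiableOn.analyticOnNhd _ isOpen_ball
    have hLd : DifferentiableOn ℂ L (ball c r) :=
      fun z hz => (hL z hz).differentiableAt.differentiableWithinAt
    exact hLd.cexp
  refine ⟨(∏ᶠ u, (· - u) ^ d u) * fun z => exp (L z), ?_, fun z hz => ?_, fun z hz => ?_⟩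
  · rw [meromorphicNFOn_mul_iff_left_of_analyticOnNhd hEan (fun u _ => exp_ne_zero _)]
    exact Function.FactorizedRational.meromorphicNFOn d _
  · rw [meromorphicOrderAt_mul
      ((Function.FactorizedRational.meromorphicNFOn d (ball c r)) hz).meromorphicAt
      (hEan z hz).meromorphicAt]
    have h1 := Function.FactorizedRational.meromorphicOrderAt_ne_top (z := z) d
    have h2 : meromorphicOrderAt (fun z => exp (L z)) z ≠ ⊤ := by
      rw [meromorphicOrderAt_ne_top_iff_eventually_ne_zero (hEan z hz).meromorphicAt]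
      exact Filter.Eventually.of_forall (fun y => exp_ne_zero _)
    lift meromorphicOrderAt (∏ᶠ u, (· - u) ^ d u) z to ℤ using h1 with k1 hk1
    lift meromorphicOrderAt (fun z => exp (L z)) z to ℤ using h2 with k2 hk2
    exact_mod_cast WithTop.coe_ne_top
  · -- the logarithmic derivative
    have hfinS : ∀ᶠ y in 𝓝[≠] z, y ∉ S := by
      have h1 : ∀ᶠ y in 𝓝 z, y ∉ (S.erase z : Finset ℂ) := by
        have hcl : IsClosed ((S.erase z : Finset ℂ) : Set ℂ) := (S.erase z).finite_toSet.isClosed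
        have hz' : z ∈ ((S.erase z : Finset ℂ) : Set ℂ)ᶜ := by
          simp
        exact hcl.isOpen_compl.mem_nhds hz'
      filter_upwards [eventually_nhdsWithin_of_eventually_nhds h1, eventually_mem_nhdsWithin]
        with y hy hyne hyS
      exact hy (Finset.mem_erase.mpr ⟨hyne, hyS⟩)
    filter_upwards [hfinS, hG0eq z hz,
      eventually_nhdsWithin_of_eventually_nhds (isOpen_ball.mem_nhds hz)] with y hyS hyG hyB
    rw [hP]
    have hPy : (fun y : ℂ => ∏ s ∈ S, (y - s) ^ m s) y ≠ 0 :=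
      Finset.prod_ne_zero_iff.mpr (fun s hs =>
        zpow_ne_zero _ (sub_ne_zero.mpr (fun h => hyS (h ▸ hs))))
    have hPd : DifferentiableAt ℂ (fun y : ℂ => ∏ s ∈ S, (y - s) ^ m s) y := by
      apply DifferentiableAt.fun_finsetProd
      intro s hs
      exact (by fun_prop : DifferentiableAt ℂ (fun y : ℂ => y - s) y).zpow
        (Or.inl (sub_ne_zero.mpr (fun h => hyS (h ▸ hs))))
    have hEd : HasDerivAt (fun z => exp (L z)) (exp (L y) * G0 y) y := (hL y hyB).cexp
    have e : ((fun y : ℂ => ∏ s ∈ S, (y - s) ^ m s) * fun z => exp (L z))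
        = fun y => (fun y : ℂ => ∏ s ∈ S, (y - s) ^ m s) y * (fun z => exp (L z)) y := rfl
    rw [e, logDeriv_mul (f := fun y : ℂ => ∏ s ∈ S, (y - s) ^ m s) (g := fun z => exp (L z)) y hPy
      (exp_ne_zero _) hPd hEd.differentiableAt, logDeriv_prod_zpow S m hyS,
      logDeriv_apply, hEd.deriv, hyG]
    simp only [g0, R]
    field_simp
    ring

/-! ### Gluing -/

/-- Gluing of local logarithmic primitives along an increasing sequence of preconnected open
sets. -/
theorem exists_isLogPrim_iUnion {g : ℂ → ℂ} (B : ℕ → Set ℂ)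
    (hBo : ∀ j, IsOpen (B j)) (hBc : ∀ j, IsPreconnected (B j)) (hmono : Monotone B)
    (hloc : ∀ j, ∃ h, IsLogPrim g h (B j)) :
    ∃ h, IsLogPrim g h (⋃ j, B j) := by
  classical
  choose h hh using hloc
  -- recursive renormalisation
  let step : ℕ → (ℂ → ℂ) → (ℂ → ℂ) := fun j G =>
    if hζ : ∃ ζ : ℂ, ζ ≠ 0 ∧ ∀ z ∈ B j, G z = ζ * h (j + 1) z then
      fun z => Classical.choose hζ * h (j + 1) z
    else h (j + 1)
  let G : ℕ → (ℂ → ℂ) := fun j => Nat.rec (h 0) step j
  have hG0 : G 0 = h 0 := rfl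
  have hGs : ∀ j, G (j + 1) = step j (G j) := fun j => rfl
  have hroot : ∀ j, IsLogPrim g (G j) (B j) := by
    intro j
    induction j with
    | zero => rw [hG0]; exact hh 0
    | succ j ih =>
      have hζ : ∃ ζ : ℂ, ζ ≠ 0 ∧ ∀ z ∈ B j, G j z = ζ * h (j + 1) z :=
        ih.eq_const_mul (hBo j) (hBc j) ((hh (j + 1)).mono (hmono (Nat.le_succ j)))
      rw [hGs]
      simp only [step, dif_pos hζ]
      exact (hh (j + 1)).const_mul (Classical.choose_spec hζ).1
  have key : ∀ j, ∀ z ∈ B j, G (j + 1) z = G j z := by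
    intro j z hz
    have hζ : ∃ ζ : ℂ, ζ ≠ 0 ∧ ∀ z ∈ B j, G j z = ζ * h (j + 1) z :=
      (hroot j).eq_const_mul (hBo j) (hBc j) ((hh (j + 1)).mono (hmono (Nat.le_succ j)))
    rw [hGs]
    simp only [step, dif_pos hζ]
    exact ((Classical.choose_spec hζ).2 z hz).symm
  have compat : ∀ i j, i ≤ j → ∀ z ∈ B i, G j z = G i z := by
    intro i j hij
    induction j, hij using Nat.le_induction with
    | base => intro z _; rfl
    | succ j hij ih =>
      intro z hz
      rw [key j z (hmono hij hz), ih z hz]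
  let H : ℂ → ℂ := fun z => if hz : ∃ j, z ∈ B j then G (Nat.find hz) z else 0
  have hH : ∀ j, ∀ z ∈ B j, H z = G j z := by
    intro j z hz
    have hex : ∃ j, z ∈ B j := ⟨j, hz⟩
    simp only [H, dif_pos hex]
    exact (compat _ _ (Nat.find_min' hex hz) z (Nat.find_spec hex)).symm
  have hHev : ∀ j, ∀ z ∈ B j, H =ᶠ[𝓝 z] G j := fun j z hj => by
    filter_upwards [(hBo j).mem_nhds hj] with y hy using hH j y hy
  refine ⟨H, fun z hz => ?_, fun z hz => ?_, fun z hz => ?_⟩
  · obtain ⟨j, hj⟩ := mem_iUnion.mp hz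
    exact (meromorphicNFAt_congr (hHev j z hj)).mpr ((hroot j).1 hj)
  · obtain ⟨j, hj⟩ := mem_iUnion.mp hz
    rw [meromorphicOrderAt_congr ((hHev j z hj).filter_mono nhdsWithin_le_nhds)]
    exact (hroot j).2.1 z hj
  · obtain ⟨j, hj⟩ := mem_iUnion.mp hz
    have h1 : logDeriv H =ᶠ[𝓝[≠] z] logDeriv (G j) :=
      logDeriv_congr_nhdsNE ((hHev j z hj).filter_mono nhdsWithin_le_nhds)
    exact h1.trans ((hroot j).2.2 z hj)

open Fermat.Agent.Lib.Analysis.NthRoot in
/-- **Logarithmic primitives on the upper half plane.** If all singularities of `g` in the upper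
half plane are at most simple poles with integral residues, then `g` is the logarithmic
derivative of a meromorphic function on the upper half plane. -/
theorem exists_isLogPrim_upperHalfPlane {g : ℂ → ℂ}
    (hg : ∀ z : ℂ, 0 < z.im → ∃ m : ℤ, HasIntRes g z m) :
    ∃ h, IsLogPrim g h {z : ℂ | 0 < z.im} := by
  rw [← iUnion_hBall]
  refine exists_isLogPrim_iUnion hBall (fun j => isOpen_ball)
    (fun j => (convex_ball _ _).isPreconnected) hBall_mono (fun j => ?_)
  have := exists_isLogPrim_ball (U := {z : ℂ | 0 < z.im}) (fun z hz => hg z hz)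
    (closedBall_subset_upperHalfPlane j)
  simpa [hBall] using this

end Fermat.Agent.MW.DivA.LogPrim
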