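import Mathlib
import Fermat.Agent.S24C.Cx
import Fermat.Agent.ESJ.Jac.Defs
import Fermat.Agent.MW.DivA.LogPrim

/-!
# MW / DIV-A : shared definitions of the analytic route to the divisibility of `J₀(N)(ℚ̄)`

(no proofs) `IsPE`, `CuspLim`, `IsGood`.  Vocabulary: `U`, `mob`, `HasMultiplier`, `MerAtCusps` of
`ESJ/Jac/Defs.lean`; `FN N`, `Cx.placePt`, `Cx.mulPt`, `PlaceDict.placeCusp` of `S24C`
(`FN N = FNK ℂ N` is the function field of `X₀(N)` over `ℂ`).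
-/

set_option autoImplicit false

open UpperHalfPlane Filter Topology
open scoped MatrixGroups

noncomputable section

namespace Fermat.Agent.MW.DivA

open Fermat.Agent.ESJ.Jac

/-- `χ` is trivial on `±1`, on the elliptic and on the parabolic elements (`tr² ≤ 4`). -/
def IsPE (Γ : Subgroup SL(2, ℤ)) (χ : Γ →* ℂˣ) : Prop :=
  ∀ γ : Γ, ((γ : SL(2, ℤ)) : Matrix (Fin 2) (Fin 2) ℤ).trace ^ 2 ≤ 4 → χ γ = 1

/-- `h` has a nonzero limit at every cusp: `h (s z) → L ≠ 0` as `Im z → ∞`. -/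
def CuspLim (h : ℂ → ℂ) : Prop :=
  ∀ s : SL(2, ℤ), ∃ L : ℂ, L ≠ 0 ∧
    Tendsto (fun z => h (mob s z)) (Filter.comap Complex.im Filter.atTop) (𝓝 L)

/-- A point of `ℍ` which is not `SL(2, ℤ)`-elliptic: `j(τ) ∉ {0, 1728}`. -/
def IsGood (τ : ℍ) : Prop := Fermat.Agent.S24.Jfun τ ≠ 0 ∧ Fermat.Agent.S24.Jfun τ ≠ 1728

/-- The residue data of a difference of two point places. -/
def resPair (N : ℕ) [NeZero N] (τ τ' σ : ℍ) : ℤ :=
  open scoped Classical in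
  (if Fermat.Agent.S24C.Cx.placePt N σ = Fermat.Agent.S24C.Cx.placePt N τ then 1 else 0)
    - (if Fermat.Agent.S24C.Cx.placePt N σ = Fermat.Agent.S24C.Cx.placePt N τ' then 1 else 0)

/-- The divisor `[τ] - [τ']` on `X₀(N)` over `ℂ`. -/
def pairDiv (N : ℕ) [NeZero N] (τ τ' : ℍ) :
    AlgebraicCurve.Divisor ℂ (Fermat.Agent.S24C.FN N) :=
  Finsupp.single (Fermat.Agent.S24C.Cx.placePt N τ) 1
    - Finsupp.single (Fermat.Agent.S24C.Cx.placePt N τ') 1

end Fermat.Agent.MW.DivA
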