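/-
MW / DIV-A, brick (D1): differentials of the third kind.

Setting: `h : IsFF1 K F x₀` (function field of a curve over `K`, all residue fields `K`), `x : F`
with `W` the divisor of `dx` (`Adele.IsDivisorOf (D x) W`).  A place `v` is *good for `x`* with
centre `c` if `x - c` is a uniformizer at `v`.

* `exists_thirdKind_pair` : for good places `P ≠ P'` there is `φ : F` such that `φ dx` is regular
  outside `{P, P'}` (`v (φ) ≤ exp (W v)`), with simple poles of residues `+1` at `P` and `-1` at
  `P'` (`φ (x - c) ≡ 1` at `P`, `φ (x - c') ≡ -1` at `P'`);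
* `exists_thirdKind` : for a finite set `S` of good places and residues `r v ∈ K` of sum `0` there
  is `φ` with `φ dx` regular outside `S` and `φ (x - c v) ≡ r v` at every `v ∈ S`;
* `isDivisorOf_apply_eq_zero` : `W v = 0` at a good place;
* `resPair_single_one_smul_D` : the residue at `p` of `φ dt` is the value of `φ t` at `p`;
* `resPair_add_resPair_eq_zero` : the residue theorem for a differential with two simple poles.
-/
import Fermat.Agent.Lib.FF.CanonicalIsFF1

set_option autoImplicit false

namespace Fermat.Agent.MW.DivA.ThirdKind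

open AlgebraicCurve WithZero Module KaehlerDifferential
open Fermat.Agent.Lib.FF Fermat.Agent.Lib.FF.Res Fermat.Agent.Lib.FF.Res.Adele

variable {K F : Type*} [Field K] [Field F] [Algebra K F]

theorem le_exp_neg_one_of_lt_one {y : ℤᵐ⁰} (hy : y < 1) : y ≤ exp (-1 : ℤ) := by
  rcases eq_or_ne y 0 with rfl | h0
  · exact zero_le
  · rw [← log_le_iff_le_exp h0]
    have : log y < 0 := by
      rw [log_lt_iff_lt_exp h0, exp_zero]
      exact hy
    omega

theorem exp_neg_one_lt_one : (exp (-1 : ℤ) : ℤᵐ⁰) < 1 := by
  rw [← exp_zero, exp_lt_exp]; norm_num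

theorem D_sub_algebraMap (x : F) (c : K) :
    D K F (x - algebraMap K F c) = D K F x := by
  rw [map_sub, Derivation.map_algebraMap, sub_zero]

section localRes

variable [HasPrincipalDivisors K F] (hres : ∀ v : Place K F, RR.ResK v)

/-- The residue at `p` of `φ dt` (`t` a uniformizer at `p`, `φ t` integral at `p`) is the value of
`φ t` at `p`. -/
theorem resPair_single_one_smul_D (p : Place K F) {t φ : F}
    (ht : p.adicValuation t = exp (-1 : ℤ)) {r : K}
    (hφ : p.adicValuation (φ * t - algebraMap K F r) < 1) :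
    resPair hres (RR.singleRep p 1) (φ • D K F t) = r := by
  have ht0 : t ≠ 0 := by
    intro h
    rw [h, map_zero] at ht
    exact exp_ne_zero ht.symm
  have e : φ • D K F t =
      (algebraMap K F r * t⁻¹) • D K F t + ((φ * t - algebraMap K F r) * t⁻¹) • D K F t := by
    rw [← add_smul]
    congr 1
    field_simp
    ring
  rw [e, resPair_add_right]
  have h1 : resPair hres (RR.singleRep p 1) ((algebraMap K F r * t⁻¹) • D K F t) = r := by
    rw [resPair_smul_right, iotaA_mul_singleRep, mul_one, ← Algebra.smul_def, singleRep_smul,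
      resPair_smul_left, resPair_single_inv_D hres p ht, mul_one]
  have h2 : resPair hres (RR.singleRep p 1)
      (((φ * t - algebraMap K F r) * t⁻¹) • D K F t) = 0 := by
    refine resPair_single_eq_zero hres p ?_ (ht.le.trans exp_neg_one_le_one)
    rw [mul_one, map_mul, map_inv₀, ht, ← exp_neg, neg_neg]
    calc p.adicValuation (φ * t - algebraMap K F r) * exp (1 : ℤ)
        ≤ exp (-1 : ℤ) * exp (1 : ℤ) := mul_le_mul_left (le_exp_neg_one_of_lt_one hφ) _
      _ = 1 := by rw [← exp_add]; simp
  rw [h1, h2, add_zero]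

include hres in
/-- The divisor of `dx` vanishes at a place where `x - c` is a uniformizer. -/
theorem isDivisorOf_apply_eq_zero {x : F} {W : Divisor K F}
    (hW : IsDivisorOf (D K F x) W) (p : Place K F) {c : K}
    (hc : p.adicValuation (x - algebraMap K F c) = exp (-1 : ℤ)) : W p = 0 := by
  obtain ⟨t₀, a₀, ht₀, hω, ha₀⟩ := hW p
  have hD : D K F (x - algebraMap K F c) = D K F x := D_sub_algebraMap x c
  have ha₀0 : a₀ ≠ 0 := by
    intro h0
    rw [h0, map_zero] at ha₀
    exact exp_ne_zero ha₀.symm
  by_contra hne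
  rcases lt_or_gt_of_ne hne with hlt | hgt
  · -- `W p < 0`
    have h1 := resPair_single_eq_one hres p ht₀ ha₀0
    rw [← hω, ← hD, ← one_smul F (D K F (x - algebraMap K F c))] at h1
    have h0 : resPair hres (RR.singleRep p (a₀⁻¹ * t₀⁻¹))
        ((1 : F) • D K F (x - algebraMap K F c)) = 0 := by
      refine resPair_single_eq_zero hres p ?_ (hc.le.trans exp_neg_one_le_one)
      rw [one_mul, map_mul, map_inv₀, map_inv₀, ha₀, ht₀, ← exp_neg, ← exp_neg, ← exp_add,
        ← exp_zero, exp_le_exp]
      omega
    rw [h0] at h1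
    exact zero_ne_one h1
  · -- `0 < W p`
    have h1 := resPair_single_inv_D hres p hc
    rw [hD] at h1
    have hmem : RR.singleRep p (x - algebraMap K F c)⁻¹ ∈ repartitionsOf W := by
      intro v
      by_cases hv : v = p
      · subst hv
        rw [RR.singleRep_apply_self, map_inv₀, hc, ← exp_neg, exp_le_exp]
        omega
      · rw [RR.singleRep_apply_of_ne p _ hv, map_zero]
        exact zero_le
    rw [hW.resPair_eq_zero hres hmem] at h1
    exact zero_ne_one h1

end localRes

section global

variable {x₀ : F}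

/-- **Residue theorem for a differential with at most two simple poles**: if
`φ ∈ L(W + P + P')`, `W` the divisor of `dx`, then `res_P (φ dx) + res_P' (φ dx) = 0`. -/
theorem resPair_add_resPair_eq_zero (h : IsFF1 K F x₀) {x φ : F} {W : Divisor K F}
    (hW : IsDivisorOf (D K F x) W) {P P' : Place K F} (hne : P ≠ P')
    (hφ : φ ∈ riemannRochSpace (W + Finsupp.single P 1 + Finsupp.single P' 1)) :
    haveI := h.hasPrincipalDivisors
    resPair h.resK (RR.singleRep P 1) (φ • D K F x) +
      resPair h.resK (RR.singleRep P' 1) (φ • D K F x) = 0 := by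
  have := h.hasPrincipalDivisors
  classical
  set ω : Ω[F⁄K] := φ • D K F x with hω
  set W' : Divisor K F := -(Finsupp.single P 1 + Finsupp.single P' 1) with hW'
  -- the residue functional vanishes on `Λ(W')`
  have hloc : ∀ p : Place K F, ∃ t a : F, p.adicValuation t ≤ 1 ∧
      ω = a • D K F t ∧ p.adicValuation a ≤ exp (-(W' p)) := by
    intro p
    obtain ⟨t, a, ht, hDx, ha⟩ := hW p
    refine ⟨t, φ * a, ht.le.trans exp_neg_one_le_one, ?_, ?_⟩
    · rw [hω, hDx, smul_smul]
    · have h1 := hφ p
      rw [map_mul, ha]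
      calc p.adicValuation φ * exp (-(W p))
          ≤ exp ((W + Finsupp.single P 1 + Finsupp.single P' 1 : Divisor K F) p) *
              exp (-(W p)) :=
            mul_le_mul_left h1 _
        _ = exp (-(W' p)) := by
            rw [← exp_add, hW']
            congr 1
            simp only [Finsupp.add_apply, Finsupp.neg_apply]
            ring
  set α : ↥(repartitions K F) :=
    iotaA K F 1 - RR.singleRep P 1 - RR.singleRep P' 1 with hα
  have hαmem : α ∈ repartitionsOf W' := by
    intro v
    rw [hα, coe_sub_apply, coe_sub_apply, iotaA_apply]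
    by_cases hvP : v = P
    · subst hvP
      rw [RR.singleRep_apply_self, RR.singleRep_apply_of_ne P' _ hne, sub_self, sub_zero, map_zero]
      exact zero_le
    · by_cases hvP' : v = P'
      · subst hvP'
        rw [RR.singleRep_apply_of_ne P _ hvP, RR.singleRep_apply_self, sub_zero, sub_self,
          map_zero]
        exact zero_le
      · rw [RR.singleRep_apply_of_ne P _ hvP, RR.singleRep_apply_of_ne P' _ hvP', sub_zero,
          sub_zero, map_one, hW']
        simp [Ne.symm hvP, Ne.symm hvP']
  have h0 : resPair h.resK α ω = 0 := resPair_eq_zero_of_mem h.resK ω W' hloc hαmem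
  have hc : resPair h.resK (iotaA K F 1) ω = 0 :=
    resPair_const h.resK (h.finite_L 0) (h.finite_H1 0) 1 ω
  rw [hα, resPair_sub_left, resPair_sub_left, hc] at h0
  linear_combination -h0

/-- **Differential of the third kind with two poles.** -/
theorem exists_thirdKind_pair (h : IsFF1 K F x₀) {x : F} {W : Divisor K F}
    (hW : IsDivisorOf (D K F x) W) {P P' : Place K F} (hne : P ≠ P') {c c' : K}
    (hc : P.adicValuation (x - algebraMap K F c) = exp (-1 : ℤ))
    (hc' : P'.adicValuation (x - algebraMap K F c') = exp (-1 : ℤ)) :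
    ∃ φ : F, (∀ v : Place K F, v ≠ P → v ≠ P' → v.adicValuation φ ≤ exp (W v)) ∧
      P.adicValuation (φ * (x - algebraMap K F c) - 1) < 1 ∧
      P'.adicValuation (φ * (x - algebraMap K F c') + 1) < 1 := by
  have := h.hasPrincipalDivisors
  classical
  have hWP : W P = 0 := isDivisorOf_apply_eq_zero h.resK hW P hc
  have hWP' : W P' = 0 := isDivisorOf_apply_eq_zero h.resK hW P' hc'
  -- dimensions
  set D₂ : Divisor K F := W + Finsupp.single P 1 + Finsupp.single P' 1 with hD₂
  set D₁ : Divisor K F := W + Finsupp.single P' 1 with hD₁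
  have hdegW := degree_of_isDivisorOf_ff1 h hW
  have hdeg1 : ∀ v : Place K F, Divisor.degree (Finsupp.single v (1 : ℤ)) = 1 := by
    intro v
    rw [Divisor.degree_single, h.deg_eq_one v]
    simp
  have hdegD₂ : Divisor.degree D₂ = 2 * (genusFF K F : ℤ) := by
    rw [hD₂, map_add, map_add, hdegW, hdeg1, hdeg1]; ring
  have hdegD₁ : Divisor.degree D₁ = 2 * (genusFF K F : ℤ) - 1 := by
    rw [hD₁, map_add, hdegW, hdeg1]; ring
  have hL₂ : riemannRochSpace (W - D₂) = ⊥ := by
    apply Weil.L_eq_bot_of_degree_neg
    rw [map_sub, hdegW, hdegD₂]; omega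
  have hL₁ : riemannRochSpace (W - D₁) = ⊥ := by
    apply Weil.L_eq_bot_of_degree_neg
    rw [map_sub, hdegW, hdegD₁]; omega
  have hrr₂ := riemannRoch_ff1 h hW D₂
  have hrr₁ := riemannRoch_ff1 h hW D₁
  rw [hL₂, finrank_bot, hdegD₂] at hrr₂
  rw [hL₁, finrank_bot, hdegD₁] at hrr₁
  have hlt : finrank K (riemannRochSpace D₁) < finrank K (riemannRochSpace D₂) := by
    have : (finrank K (riemannRochSpace D₁) : ℤ) < finrank K (riemannRochSpace D₂) := by
      push_cast at hrr₁ hrr₂
      linarith
    exact_mod_cast this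
  have hle : riemannRochSpace D₁ ≤ riemannRochSpace D₂ := by
    apply RR.L_mono
    rw [hD₁, hD₂, Finsupp.le_def]
    intro v
    simp only [Finsupp.add_apply]
    have : (0 : ℤ) ≤ (Finsupp.single P (1 : ℤ)) v := by
      by_cases hv : v = P
      · subst hv; simp
      · rw [Finsupp.single_apply, if_neg (Ne.symm hv)]
    linarith
  have := h.finite_L D₂
  have := h.finite_L D₁
  -- a function with an actual pole at `P`
  obtain ⟨φ, hφ₂, hφ₁⟩ : ∃ φ : F, φ ∈ riemannRochSpace D₂ ∧ φ ∉ riemannRochSpace D₁ := by
    by_contra hcon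
    push Not at hcon
    have : riemannRochSpace D₂ ≤ riemannRochSpace D₁ := fun φ hφ => hcon φ hφ
    have := Submodule.finrank_mono (le_antisymm this hle).le
    omega
  -- valuation of `φ` at `P`
  have hvP : P.adicValuation φ = exp (1 : ℤ) := by
    have h2 := hφ₂ P
    rw [hD₂] at h2
    simp only [Finsupp.add_apply, Finsupp.single_eq_same, Finsupp.single_apply, if_neg hne.symm,
      hWP] at h2
    refine le_antisymm (by simpa using h2) ?_
    by_contra hcon
    apply hφ₁
    intro v
    by_cases hv : v = P
    · subst hv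
      rw [hD₁]
      simp only [Finsupp.add_apply, Finsupp.single_apply, if_neg hne.symm, hWP, add_zero]
      have hlt1 : v.adicValuation φ < exp (1 : ℤ) := not_le.mp hcon
      rcases eq_or_ne (v.adicValuation φ) 0 with h0 | h0
      · rw [h0]; exact zero_le
      · rw [← log_le_iff_le_exp h0]
        have : log (v.adicValuation φ) < 1 := by
          rw [log_lt_iff_lt_exp h0]; exact hlt1
        omega
    · have h3 := hφ₂ v
      rw [hD₂] at h3
      rw [hD₁]
      simp only [Finsupp.add_apply, Finsupp.single_apply, if_neg (Ne.symm hv), add_zero] at h3 ⊢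
      exact h3
  have hvP' : P'.adicValuation φ ≤ exp (1 : ℤ) := by
    have h2 := hφ₂ P'
    rw [hD₂] at h2
    simp only [Finsupp.add_apply, Finsupp.single_eq_same, Finsupp.single_apply, if_neg hne,
      hWP'] at h2
    simpa using h2
  -- leading coefficients
  have hu : P.adicValuation (φ * (x - algebraMap K F c)) = 1 := by
    rw [map_mul, hvP, hc, ← exp_add]; simp
  have hu' : P'.adicValuation (φ * (x - algebraMap K F c')) ≤ 1 := by
    rw [map_mul, hc']
    calc P'.adicValuation φ * exp (-1 : ℤ) ≤ exp (1 : ℤ) * exp (-1 : ℤ) := mul_le_mul_left hvP' _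
      _ = 1 := by rw [← exp_add]; simp
  obtain ⟨r, hr⟩ := RR.exists_const_sub P (h.resK P) (n := 0) (t := 1) (by rw [map_one, exp_zero])
    (by rw [exp_zero]; exact hu.le)
  obtain ⟨r', hr'⟩ := RR.exists_const_sub P' (h.resK P') (n := 0) (t := 1)
    (by rw [map_one, exp_zero]) (by rw [exp_zero]; exact hu')
  rw [Algebra.smul_def, mul_one] at hr hr'
  have hr1 : P.adicValuation (φ * (x - algebraMap K F c) - algebraMap K F r) < 1 :=
    lt_of_le_of_lt hr exp_neg_one_lt_one
  have hr1' : P'.adicValuation (φ * (x - algebraMap K F c') - algebraMap K F r') < 1 :=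
    lt_of_le_of_lt hr' exp_neg_one_lt_one
  have hr0 : r ≠ 0 := by
    rintro rfl
    rw [map_zero, sub_zero, hu] at hr1
    exact lt_irrefl _ hr1
  -- the residue theorem
  have hres := resPair_add_resPair_eq_zero h hW hne hφ₂
  rw [← D_sub_algebraMap x c, resPair_single_one_smul_D h.resK P hc hr1, D_sub_algebraMap x c,
    ← D_sub_algebraMap x c', resPair_single_one_smul_D h.resK P' hc' hr1'] at hres
  have hr'eq : r' = -r := by linear_combination hres
  -- normalisation
  have hrr : algebraMap K F r⁻¹ * algebraMap K F r = 1 := by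
    rw [← map_mul, inv_mul_cancel₀ hr0, map_one]
  refine ⟨algebraMap K F r⁻¹ * φ, ?_, ?_, ?_⟩
  · intro v hv hv'
    have h3 := hφ₂ v
    rw [hD₂] at h3
    simp only [Finsupp.add_apply, Finsupp.single_apply, if_neg (Ne.symm hv),
      if_neg (Ne.symm hv'), add_zero] at h3
    rw [map_mul]
    exact (mul_le_of_le_one_left' (v.adicValuation_algebraMap_le_one r⁻¹)).trans h3
  · have e : algebraMap K F r⁻¹ * φ * (x - algebraMap K F c) - 1 =
        algebraMap K F r⁻¹ * (φ * (x - algebraMap K F c) - algebraMap K F r) := by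
      linear_combination hrr
    rw [e, map_mul]
    exact lt_of_le_of_lt (mul_le_of_le_one_left' (P.adicValuation_algebraMap_le_one r⁻¹)) hr1
  · have e : algebraMap K F r⁻¹ * φ * (x - algebraMap K F c') + 1 =
        algebraMap K F r⁻¹ * (φ * (x - algebraMap K F c') - algebraMap K F r') := by
      rw [hr'eq, map_neg]
      linear_combination -hrr
    rw [e, map_mul]
    exact lt_of_le_of_lt (mul_le_of_le_one_left' (P'.adicValuation_algebraMap_le_one r⁻¹)) hr1'

/-- **Differential of the third kind with prescribed residues.**  `S` a finite set of places at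
which `x - c v` is a uniformizer, `r v ∈ K` residues with sum `0`: there is `φ : F` such that
`φ dx` is regular outside `S` and `φ (x - c v) ≡ r v` at every `v ∈ S` (simple pole with residue
`r v`, or regular if `r v = 0`). -/
theorem exists_thirdKind (h : IsFF1 K F x₀) {x : F} {W : Divisor K F}
    (hW : IsDivisorOf (D K F x) W) (S : Finset (Place K F)) (c : Place K F → K)
    (hc : ∀ v ∈ S, v.adicValuation (x - algebraMap K F (c v)) = exp (-1 : ℤ))
    (r : Place K F → K) (hr : ∑ v ∈ S, r v = 0) :
    ∃ φ : F, (∀ v : Place K F, v ∉ S → v.adicValuation φ ≤ exp (W v)) ∧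
      ∀ v ∈ S, v.adicValuation (φ * (x - algebraMap K F (c v)) - algebraMap K F (r v)) < 1 := by
  have := h.hasPrincipalDivisors
  classical
  rcases S.eq_empty_or_nonempty with rfl | ⟨v₀, hv₀⟩
  · exact ⟨0, fun v _ => by rw [map_zero]; exact zero_le,
      fun v hv => absurd hv (Finset.notMem_empty v)⟩
  have hpair : ∀ v : Place K F, v ∈ S.erase v₀ → ∃ φ : F,
      (∀ w : Place K F, w ≠ v → w ≠ v₀ → w.adicValuation φ ≤ exp (W w)) ∧
      v.adicValuation (φ * (x - algebraMap K F (c v)) - 1) < 1 ∧
      v₀.adicValuation (φ * (x - algebraMap K F (c v₀)) + 1) < 1 := by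
    intro v hv
    exact exists_thirdKind_pair h hW (Finset.ne_of_mem_erase hv)
      (hc v (Finset.mem_of_mem_erase hv)) (hc v₀ hv₀)
  choose! ψ hψ using hpair
  have hone : (1 : ℤᵐ⁰) ≠ 0 := one_ne_zero
  have hsmul : ∀ (w : Place K F) (a : K) (f : F), w.adicValuation f < 1 →
      w.adicValuation (algebraMap K F a * f) < 1 := by
    intro w a f hf
    rw [map_mul]
    exact lt_of_le_of_lt (mul_le_of_le_one_left' (w.adicValuation_algebraMap_le_one a)) hf
  refine ⟨∑ v ∈ S.erase v₀, algebraMap K F (r v) * ψ v, ?_, ?_⟩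
  · intro w hw
    refine Valuation.map_sum_le _ fun v hv => ?_
    have hvS : v ∈ S := Finset.mem_of_mem_erase hv
    have hwv : w ≠ v := fun e => hw (e ▸ hvS)
    have hwv₀ : w ≠ v₀ := fun e => hw (e ▸ hv₀)
    rw [map_mul]
    exact (mul_le_of_le_one_left' (w.adicValuation_algebraMap_le_one (r v))).trans
      ((hψ v hv).1 w hwv hwv₀)
  · intro w hw
    by_cases hwv₀ : w = v₀
    · -- at the base place
      subst hwv₀
      have hr' : r w = -∑ v ∈ S.erase w, r v := by
        rw [← Finset.add_sum_erase S r hv₀] at hr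
        linear_combination hr
      have e : (∑ v ∈ S.erase w, algebraMap K F (r v) * ψ v) * (x - algebraMap K F (c w)) -
          algebraMap K F (r w) =
          ∑ v ∈ S.erase w, algebraMap K F (r v) * (ψ v * (x - algebraMap K F (c w)) + 1) := by
        rw [hr', map_neg, map_sum, Finset.sum_mul, sub_neg_eq_add, ← Finset.sum_add_distrib]
        refine Finset.sum_congr rfl fun v _ => ?_
        ring
      rw [e]
      refine Valuation.map_sum_lt _ hone fun v hv => ?_
      exact hsmul _ _ _ (hψ v hv).2.2
    · -- at another place of `S`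
      have hwE : w ∈ S.erase v₀ := Finset.mem_erase.mpr ⟨hwv₀, hw⟩
      have hWw : W w = 0 := isDivisorOf_apply_eq_zero h.resK hW w (hc w hw)
      have e : (∑ v ∈ S.erase v₀, algebraMap K F (r v) * ψ v) * (x - algebraMap K F (c w)) -
          algebraMap K F (r w) =
          ∑ v ∈ S.erase v₀, (algebraMap K F (r v) * ψ v * (x - algebraMap K F (c w)) -
            if v = w then algebraMap K F (r w) else 0) := by
        rw [Finset.sum_sub_distrib, Finset.sum_mul, Finset.sum_ite_eq' (S.erase v₀) w, if_pos hwE]
      rw [e]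
      refine Valuation.map_sum_lt _ hone fun v hv => ?_
      by_cases hvw : v = w
      · subst hvw
        rw [if_pos rfl]
        have e2 : algebraMap K F (r v) * ψ v * (x - algebraMap K F (c v)) - algebraMap K F (r v) =
            algebraMap K F (r v) * (ψ v * (x - algebraMap K F (c v)) - 1) := by ring
        rw [e2]
        exact hsmul _ _ _ (hψ v hv).2.1
      · rw [if_neg hvw, sub_zero, mul_assoc]
        refine hsmul _ _ _ ?_
        have h1 := (hψ v hv).1 w (Ne.symm hvw) hwv₀
        rw [hWw, exp_zero] at h1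
        rw [map_mul, hc w hw]
        exact lt_of_le_of_lt (mul_le_of_le_one_left' h1) exp_neg_one_lt_one

end global

end Fermat.Agent.MW.DivA.ThirdKind
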