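/-
MW / DIV-A, row 409 (DIVA-2), literal `Place.ord` form of the differential of the third kind.

`exists_thirdKind` is `ThirdKind.exists_thirdKind_pair` (RR-duality + residue theorem, proved in
`MW/DivA/ThirdKind.lean`) specialised to the characteristic-zero setting `isFF1_of_charZero`, with
the regularity of `φ dx` spelled out through `Place.ord` at the zeros of `x - a` and at the poles
of `x`.
-/
import Fermat.Agent.MW.DivA.ThirdKind

set_option autoImplicit false

namespace Fermat.Agent.MW.DivA

open AlgebraicCurve WithZero Module KaehlerDifferential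
open Fermat.Agent.Lib.FF Fermat.Agent.Lib.FF.Res Fermat.Agent.Lib.FF.Res.Adele
open scoped IntermediateField

section aux

variable {K F : Type*} [Field K] [Field F] [Algebra K F]

/-- the valuation of a nonzero constant is `1` -/
theorem adicValuation_const_eq_one (v : Place K F) {a : K} (ha : a ≠ 0) :
    v.adicValuation (algebraMap K F a) = 1 := by
  refine le_antisymm (v.adicValuation_algebraMap_le_one a) ?_
  have h1 := v.adicValuation_algebraMap_le_one a⁻¹
  have h2 : v.adicValuation (algebraMap K F a) * v.adicValuation (algebraMap K F a⁻¹) = 1 := by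
    rw [← map_mul, ← map_mul, mul_inv_cancel₀ ha, map_one, map_one]
  calc (1 : ℤᵐ⁰) = v.adicValuation (algebraMap K F a) * v.adicValuation (algebraMap K F a⁻¹) :=
        h2.symm
    _ ≤ v.adicValuation (algebraMap K F a) * 1 := mul_le_mul_right h1 _
    _ = v.adicValuation (algebraMap K F a) := mul_one _

/-- `ord = 1` means valuation `exp (-1)` -/
theorem adicValuation_eq_exp_neg_one_of_ord (v : Place K F) {t : F} (ht : v.ord t = 1) :
    v.adicValuation t = exp (-1 : ℤ) := by
  have ht0 : t ≠ 0 := by
    rintro rfl
    rw [Place.ord_zero] at ht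
    exact zero_ne_one ht
  rw [v.adicValuation_eq_exp_neg_ord ht0, ht]

/-- valuation `< 1` of a nonzero element means positive order -/
theorem ord_pos_of_adicValuation_lt_one (v : Place K F) {u : F} (hu0 : u ≠ 0)
    (hu : v.adicValuation u < 1) : 0 < v.ord u := by
  rw [v.adicValuation_eq_exp_neg_ord hu0, ← exp_zero, exp_lt_exp] at hu
  omega

/-- The non-degeneracy used for the `ord` form: if `φ s = e` exactly (`e` a nonzero constant,
`s = t + d`, `d` constant, `t` a uniformizer at `v`), then `φ t + e` is a unit at `v`. -/
theorem not_adicValuation_lt_one_of_mul_eq [CharZero K] (v : Place K F) {t s φ : F} {d e : K}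
    (he : e ≠ 0) (hs : s = t + algebraMap K F d) (ht : v.adicValuation t = exp (-1 : ℤ))
    (hφ : φ * s = algebraMap K F e) :
    ¬ v.adicValuation (φ * t + algebraMap K F e) < 1 := by
  intro hu
  have ht1 : v.adicValuation t < 1 := ht ▸ ThirdKind.exp_neg_one_lt_one
  have ht0 : t ≠ 0 := by
    rintro rfl
    rw [map_zero] at ht
    exact exp_ne_zero ht.symm
  have h2 : (2 : K) ≠ 0 := two_ne_zero
  have key : (φ * t + algebraMap K F e) * s
      = algebraMap K F e * (algebraMap K F 2 * t + algebraMap K F d) := by
    have : (φ * t + algebraMap K F e) * s = (φ * s) * t + algebraMap K F e * s := by ring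
    rw [this, hφ, hs, map_ofNat]
    ring
  have hve : v.adicValuation (algebraMap K F e) = 1 := adicValuation_const_eq_one v he
  have hv2t : v.adicValuation (algebraMap K F 2 * t) < 1 := by
    rw [map_mul, adicValuation_const_eq_one v h2, one_mul]
    exact ht1
  rcases eq_or_ne d 0 with rfl | hd
  · -- `s = t`
    rw [map_zero, add_zero] at hs key
    subst hs
    have h3 : φ * s + algebraMap K F e = algebraMap K F e * algebraMap K F 2 := by
      have h4 : (φ * s + algebraMap K F e) * s = (algebraMap K F e * algebraMap K F 2) * s := by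
        rw [key]; ring
      exact mul_right_cancel₀ ht0 h4
    rw [h3, map_mul, hve, adicValuation_const_eq_one v h2, one_mul] at hu
    exact lt_irrefl _ hu
  · have hvd : v.adicValuation (algebraMap K F d) = 1 := adicValuation_const_eq_one v hd
    have hvs : v.adicValuation s ≤ 1 := by
      rw [hs]
      refine (v.adicValuation.map_add _ _).trans (max_le ht1.le hvd.le)
    have hR : v.adicValuation (algebraMap K F 2 * t + algebraMap K F d) = 1 := by
      rw [add_comm, v.adicValuation.map_add_eq_of_lt_left (by rw [hvd]; exact hv2t), hvd]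
    have hL : v.adicValuation ((φ * t + algebraMap K F e) * s) < 1 := by
      rw [map_mul]
      exact lt_of_le_of_lt (mul_le_of_le_one_right' hvs) hu
    rw [key, map_mul, hve, hR, one_mul] at hL
    exact lt_irrefl _ hL

end aux

/-- **Row 409 (DIVA-2): the differential of the third kind, `Place.ord` form.**  For good places
`P ≠ P'` of `x` (`x - c`, `x - c'` uniformizers) there is `φ ≠ 0` such that `φ dx` is regular
outside `{P, P'}` and has simple poles with residues `+1` at `P`, `-1` at `P'`. -/
theorem exists_thirdKind {K F : Type*} [Field K] [Field F] [Algebra K F] [IsAlgClosed K]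
    [CharZero K] (x : F) (hx : Transcendental K x) [FiniteDimensional K⟮x⟯ F]
    (P P' : Place K F) (hPP' : P ≠ P') (c c' : K)
    (hP : P.ord (x - algebraMap K F c) = 1) (hP' : P'.ord (x - algebraMap K F c') = 1) :
    ∃ φ : F, φ ≠ 0 ∧
      (∀ v : Place K F, v ≠ P → v ≠ P' → ∀ a : K, 0 < v.ord (x - algebraMap K F a) →
        0 ≤ v.ord φ + v.ord (x - algebraMap K F a) - 1) ∧
      (∀ v : Place K F, v.ord x < 0 → 0 ≤ v.ord φ + v.ord x - 1) ∧
      0 < P.ord (φ * (x - algebraMap K F c) - 1) ∧
      0 < P'.ord (φ * (x - algebraMap K F c') + 1) := by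
  have h : IsFF1 K F x := isFF1_of_charZero x hx
  have : CharZero F := charZero_of_injective_algebraMap (algebraMap K F).injective
  have : CharZero K⟮x⟯ := charZero_of_injective_algebraMap (algebraMap K K⟮x⟯).injective
  have : Algebra.IsAlgebraic K⟮x⟯ F := Algebra.IsAlgebraic.of_finite _ _
  have : Algebra.IsSeparable K⟮x⟯ F := inferInstance
  obtain ⟨W, hW, -, -, heq⟩ := exists_divisor_D_of_isSeparable h x
  have hc : P.adicValuation (x - algebraMap K F c) = exp (-1 : ℤ) :=
    adicValuation_eq_exp_neg_one_of_ord P hP
  have hc' : P'.adicValuation (x - algebraMap K F c') = exp (-1 : ℤ) :=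
    adicValuation_eq_exp_neg_one_of_ord P' hP'
  obtain ⟨φ, hreg, h1, h2⟩ := ThirdKind.exists_thirdKind_pair h hW hPP' hc hc'
  have hφ0 : φ ≠ 0 := by
    rintro rfl
    rw [zero_mul, zero_sub, Valuation.map_neg, map_one] at h1
    exact lt_irrefl _ h1
  have hcast : ∀ n : ℤ, n ≠ 0 → ((n : ℤ) : K) ≠ 0 := fun n hn => Int.cast_ne_zero.mpr hn
  -- no pole of `x` at `P`, `P'`
  have hnonneg : ∀ (v : Place K F) (a : K), v.ord (x - algebraMap K F a) = 1 → 0 ≤ v.ord x := by
    intro v a hv
    have hv1 : v.adicValuation (x - algebraMap K F a) ≤ 1 := by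
      rw [adicValuation_eq_exp_neg_one_of_ord v hv]
      exact ThirdKind.exp_neg_one_lt_one.le
    have hx1 : v.adicValuation x ≤ 1 := by
      have : x = (x - algebraMap K F a) + algebraMap K F a := by ring
      rw [this]
      exact (v.adicValuation.map_add _ _).trans
        (max_le hv1 (v.adicValuation_algebraMap_le_one a))
    rcases v.adicValuation_le_one_iff.mp hx1 with h0 | h0
    · rw [h0, Place.ord_zero]
    · exact h0
  refine ⟨φ, hφ0, ?_, ?_, ?_, ?_⟩
  · intro v hvP hvP' a ha
    have hW1 : W v = v.ord (x - algebraMap K F a) - 1 := heq a v (hcast _ ha.ne')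
    have h3 := hreg v hvP hvP'
    rw [v.adicValuation_le_exp_iff, or_iff_right hφ0, hW1] at h3
    omega
  · intro v hv
    have hvP : v ≠ P := by
      rintro rfl
      exact absurd (hnonneg v c hP) (not_le.mpr hv)
    have hvP' : v ≠ P' := by
      rintro rfl
      exact absurd (hnonneg v c' hP') (not_le.mpr hv)
    have hW1 : W v = v.ord x - 1 := by
      have := heq 0 v
      rw [map_zero, sub_zero] at this
      exact this (hcast _ hv.ne)
    have h3 := hreg v hvP hvP'
    rw [v.adicValuation_le_exp_iff, or_iff_right hφ0, hW1] at h3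
    omega
  · refine ord_pos_of_adicValuation_lt_one P ?_ h1
    intro h0
    -- `φ (x - c) = 1` exactly: contradiction at `P'`
    have hφs : φ * (x - algebraMap K F c) = algebraMap K F 1 := by
      rw [map_one]; exact sub_eq_zero.mp h0
    have hs : x - algebraMap K F c = (x - algebraMap K F c') + algebraMap K F (c' - c) := by
      rw [map_sub]; ring
    have := not_adicValuation_lt_one_of_mul_eq P' (one_ne_zero) hs hc' hφs
    rw [map_one] at this
    exact this h2
  · refine ord_pos_of_adicValuation_lt_one P' ?_ h2
    intro h0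
    have hφs : φ * (x - algebraMap K F c') = algebraMap K F (-1) := by
      rw [map_neg, map_one]; exact eq_neg_of_add_eq_zero_left h0
    have hs : x - algebraMap K F c' = (x - algebraMap K F c) + algebraMap K F (c - c') := by
      rw [map_sub]; ring
    have := not_adicValuation_lt_one_of_mul_eq P (neg_ne_zero.mpr one_ne_zero) hs hc hφs
    rw [map_neg, map_one, ← sub_eq_add_neg] at this
    exact this h1

end Fermat.Agent.MW.DivA
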