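import Mathlib
import Fermat.Agent.MW.DivA.ThirdKindOrd
import Fermat.Agent.MW.DivA.Defs
import Fermat.Agent.S24C.Cx
import Fermat.Agent.ESJ.Dict.Defs
import Fermat.Agent.ESJ.Jac.Kummer
import Fermat.Agent.ESJ.Jac.LevelOneMer

/-!
# MW / DIV-A, row 410 (DIVA-3): the analytic avatar of the differential of the third kind

For good points `τ, τ'` of `ℍ` with distinct images on `X₀(N)` there is a meromorphic function
`g` on the upper half plane ("weight 2 for `Γ₀(N)`", i.e. `g(γ z) γ'(z) = g(z)`), whose only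
singularities are simple poles at the `Γ₀(N)`-translates of `τ` (residue `1`) and of `τ'`
(residue `-1`), and which decays exponentially at every cusp.

`g` is the normal form of `merK φ · J'`, where `φ dx` (`x = j`) is the algebraic differential of
the third kind of `MW/DivA/ThirdKindOrd.lean`.
-/

set_option autoImplicit false

open UpperHalfPlane Filter Topology AlgebraicCurve CongruenceSubgroup
open scoped MatrixGroups IntermediateField
open Fermat.Agent.ESJ.Jac Fermat.Agent.S24C Fermat.Agent.MW.DivA.LogPrim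

noncomputable section

namespace Fermat.Agent.MW.DivA

namespace Avatar

/-! ### Local analysis -/

/-- positive order: divisible by `z - x` on a punctured neighbourhood -/
theorem exists_eq_sub_mul_of_one_le_order {f : ℂ → ℂ} {x : ℂ} (hf : MeromorphicAt f x)
    (h : 1 ≤ meromorphicOrderAt f x) :
    ∃ k : ℂ → ℂ, AnalyticAt ℂ k x ∧ f =ᶠ[𝓝[≠] x] fun z => (z - x) * k z := by
  cases hn : meromorphicOrderAt f x with
  | top =>
    refine ⟨0, analyticAt_const, ?_⟩
    filter_upwards [meromorphicOrderAt_eq_top_iff.mp hn] with z hz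
    simp [hz]
  | coe n =>
    rw [hn] at h
    have hn1 : (1 : ℤ) ≤ n := by exact_mod_cast h
    obtain ⟨g, hg, -, hfg⟩ := (meromorphicOrderAt_eq_int_iff hf).mp hn
    obtain ⟨m, rfl⟩ : ∃ m : ℕ, n = m + 1 := ⟨(n - 1).toNat, by omega⟩
    refine ⟨fun z => (z - x) ^ m * g z, by fun_prop, ?_⟩
    filter_upwards [hfg, self_mem_nhdsWithin] with z hz hzx
    have hzx' : z - x ≠ 0 := sub_ne_zero.mpr hzx
    rw [hz, zpow_add_one₀ hzx', zpow_natCast, smul_eq_mul]
    ring

/-- **The residue computation.**  If `j - c` has a simple zero at `σ` and `f (j - c) - m` has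
positive order at `σ`, then `f j'` has at `σ` a simple pole with residue `m`. -/
theorem hasIntRes_mul_deriv {f j w : ℂ → ℂ} {σ c : ℂ} {m : ℤ}
    (hj : AnalyticAt ℂ j σ) (hord : meromorphicOrderAt (fun z => j z - c) σ = 1)
    (hw : MeromorphicAt w σ) (hw1 : 1 ≤ meromorphicOrderAt w σ)
    (hfw : w =ᶠ[𝓝[≠] σ] fun z => f z * (j z - c) - m) :
    HasIntRes (fun z => f z * deriv j z) σ m := by
  have hjc : AnalyticAt ℂ (fun z => j z - c) σ := hj.sub analyticAt_const
  have hord' : meromorphicOrderAt (fun z => j z - c) σ = ((1 : ℤ) : WithTop ℤ) := by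
    rw [hord]; rfl
  obtain ⟨h, hh, hh0, hjh⟩ := (meromorphicOrderAt_eq_int_iff hjc.meromorphicAt).mp hord'
  have hcont : ContinuousAt (fun z => (z - σ) * h z) σ := by
    have : AnalyticAt ℂ (fun z => (z - σ) * h z) σ := by fun_prop
    exact this.continuousAt
  have hj2 : (fun z => j z - c) =ᶠ[𝓝 σ] fun z => (z - σ) * h z := by
    rw [← hjc.continuousAt.eventuallyEq_nhds_iff_eventuallyEq_nhdsNE hcont]
    filter_upwards [hjh] with z hz
    rw [hz, zpow_one, smul_eq_mul]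
  have hderiv : ∀ᶠ z in 𝓝 σ, deriv j z = h z + (z - σ) * deriv h z := by
    filter_upwards [hj2.eventually_nhds, hh.eventually_analyticAt] with z hz hhz
    have e : j =ᶠ[𝓝 z] fun y => (y - σ) * h y + c := by
      filter_upwards [hz] with y hy
      rw [← hy]; ring
    rw [e.deriv_eq]
    have hd : HasDerivAt (fun y => (y - σ) * h y + c) (1 * h z + (z - σ) * deriv h z) z :=
      (((hasDerivAt_id z).sub_const σ).mul hhz.differentiableAt.hasDerivAt).add_const c
    rw [hd.deriv, one_mul]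
  obtain ⟨k, hk, hwk⟩ := exists_eq_sub_mul_of_one_le_order hw hw1
  have hne : ∀ᶠ z in 𝓝 σ, h z ≠ 0 := hh.continuousAt.eventually_ne hh0
  refine ⟨fun z => k z + ((m : ℂ) + (z - σ) * k z) * (deriv h z / h z), ?_, ?_⟩
  · have h1 : AnalyticAt ℂ (deriv h) σ := hh.deriv
    have h2 : AnalyticAt ℂ (fun z => deriv h z / h z) σ := h1.div hh hh0
    fun_prop
  · filter_upwards [hwk, hfw, hj2.filter_mono nhdsWithin_le_nhds,
      hderiv.filter_mono nhdsWithin_le_nhds, hne.filter_mono nhdsWithin_le_nhds,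
      self_mem_nhdsWithin] with z e1 e2 e3 e4 e5 hz
    have hzσ : z - σ ≠ 0 := sub_ne_zero.mpr hz
    have e6 : f z * ((z - σ) * h z) = (m : ℂ) + (z - σ) * k z := by
      rw [← e3]
      linear_combination e1.symm.trans e2 |>.symm
    have e7 : f z = ((m : ℂ) + (z - σ) * k z) / ((z - σ) * h z) :=
      eq_div_of_mul_eq (mul_ne_zero hzσ e5) e6
    rw [e7, e4]
    field_simp
    ring


/-- local shape at `i∞`: analyticity and the growth bound -/
theorem cusp_shape_bound {f ψ : ℂ → ℂ} {k : ℤ} {h : ℝ} (hh : 0 < h) (hψ : AnalyticAt ℂ ψ 0)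
    (hf : ∀ z ∈ U, f z = Function.Periodic.qParam h z ^ k * ψ (Function.Periodic.qParam h z)) :
    ∃ Y M : ℝ, 0 ≤ Y ∧ 0 ≤ M ∧ ∀ z : ℂ, Y < z.im →
      AnalyticAt ℂ f z ∧ ‖f z‖ ≤ M * Real.exp (-2 * Real.pi * z.im / h * k) := by
  have h1 : ∀ᶠ q in 𝓝 (0 : ℂ), AnalyticAt ℂ ψ q ∧ ‖ψ q‖ < ‖ψ 0‖ + 1 :=
    hψ.eventually_analyticAt.and
      (hψ.continuousAt.norm.eventually (Iio_mem_nhds (lt_add_one _)))
  have h2 := (Function.Periodic.qParam_tendsto hh).eventually
    (h1.filter_mono nhdsWithin_le_nhds)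
  rw [Filter.eventually_comap, Filter.eventually_atTop] at h2
  obtain ⟨Y, hY⟩ := h2
  refine ⟨max Y 0, ‖ψ 0‖ + 1, le_max_right _ _, by positivity, fun z hz => ?_⟩
  have hzY : Y ≤ z.im := (le_max_left _ _).trans hz.le
  have hzU : z ∈ U := (le_max_right Y 0).trans_lt hz
  obtain ⟨ha, hb⟩ := hY z.im hzY z rfl
  have hq : AnalyticAt ℂ (Function.Periodic.qParam h) z :=
    Function.Periodic.differentiable_qParam.analyticAt z
  constructor
  · have e : (fun w => Function.Periodic.qParam h w ^ k * ψ (Function.Periodic.qParam h w))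
        =ᶠ[𝓝 z] f := by
      filter_upwards [Kummer.isOpen_U.mem_nhds hzU] with w hw
      exact (hf w hw).symm
    refine AnalyticAt.congr ?_ e
    exact (hq.fun_zpow (Function.Periodic.qParam_ne_zero z)).mul (ha.comp hq)
  · rw [hf z hzU, norm_mul, norm_zpow, Function.Periodic.norm_qParam, mul_comm]
    have e2 : Real.exp (-2 * Real.pi * z.im / h) ^ k
        = Real.exp (-2 * Real.pi * z.im / h * k) := by
      rw [← Real.rpow_intCast, ← Real.exp_mul]
    rw [e2]
    exact mul_le_mul_of_nonneg_right hb.le (Real.exp_pos _).le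

/-! ### The dictionary for `j` -/

section Dict

open Fermat.Agent.ESJ.Dict

variable (N : ℕ) [NeZero N]

/-- `merK (j - c) = J - c` off a discrete set -/
theorem merK_jBar_sub_ae (c : ℂ) :
    merK (RingHom.id ℂ) N (jBar N - algebraMap ℂ (FN N) c) =ᶠ[codiscreteWithin U]
      fun z => LevelOneMer.Jc z - c := by
  have h := (Cx.isDict_id N).merK_eq_div_ae _ _ _ (Fermat.Agent.S24C.JPt.isRep_jBar_sub N c)
  filter_upwards [h] with z hz
  rw [hz]
  have e1 := congrFun (Fermat.Agent.S24C.JPt.ev_X_d1_sub_C N c) (ofComplex z)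
  have e2 : evK (RingHom.id ℂ) N (1 : MvPolynomial (Fermat.Agent.S24.Dv N) ℂ) (ofComplex z)
      = 1 := by
    rw [map_one]; rfl
  rw [e2, div_one]
  exact e1

/-- the order of `J - c` at `σ` is the point valuation of `j - c` -/
theorem order_Jc_sub (c : ℂ) (σ : ℍ) :
    meromorphicOrderAt (fun z => LevelOneMer.Jc z - c) (σ : ℂ)
      = ((valPt N σ (jBar N - algebraMap ℂ (FN N) c) : ℤ) : WithTop ℤ) := by
  have h := (Cx.isDict_id N).meromorphicOrderAt_merK _ (PtTop.jBar_sub_ne_zero N c) σ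
  rw [← meromorphicOrderAt_congr (Kummer.eventuallyEq_nhdsNE_of_codiscreteWithin
    (merK_jBar_sub_ae N c) (coe_mem_U σ))]
  exact h

theorem analyticAt_deriv_Jc {z : ℂ} (hz : z ∈ U) : AnalyticAt ℂ (deriv LevelOneMer.Jc) z :=
  (LevelOneMer.analyticAt_Jc hz).deriv

/-- the order of `J'` at `σ` -/
theorem order_deriv_Jc (σ : ℍ) :
    meromorphicOrderAt (deriv LevelOneMer.Jc) (σ : ℂ)
      = ((valPt N σ (jBar N - algebraMap ℂ (FN N) (Fermat.Agent.S24.Jfun σ)) - 1 : ℤ) :
          WithTop ℤ) := by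
  have hJ : AnalyticAt ℂ LevelOneMer.Jc (σ : ℂ) := LevelOneMer.analyticAt_Jc (coe_mem_U σ)
  have h1 := hJ.analyticOrderAt_deriv_add_one
  rw [LevelOneMer.Jc_coe] at h1
  have h2 := order_Jc_sub N (Fermat.Agent.S24.Jfun σ) σ
  have hJc : AnalyticAt ℂ (fun z => LevelOneMer.Jc z - Fermat.Agent.S24.Jfun σ) (σ : ℂ) :=
    hJ.sub analyticAt_const
  rw [hJc.meromorphicOrderAt_eq, ← h1] at h2
  rw [(analyticAt_deriv_Jc (coe_mem_U σ)).meromorphicOrderAt_eq]
  cases hn : analyticOrderAt (deriv LevelOneMer.Jc) (σ : ℂ) with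
  | top =>
    rw [hn] at h2
    simp at h2
  | coe n =>
    rw [hn] at h2
    have h3 : ((n : ℕ∞) + 1) = ((n + 1 : ℕ) : ℕ∞) := by norm_cast
    rw [h3, ENat.map_natCast] at h2
    rw [ENat.map_natCast]
    have h4 : ((n + 1 : ℕ) : ℤ) = valPt N σ (jBar N - algebraMap ℂ (FN N)
        (Fermat.Agent.S24.Jfun σ)) := by exact_mod_cast h2
    have h5 : ((n : ℕ) : ℤ) = valPt N σ (jBar N - algebraMap ℂ (FN N)
        (Fermat.Agent.S24.Jfun σ)) - 1 := by
      rw [← h4]; push_cast; ring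
    rw [← h5]

/-- chain rule for the `SL(2, ℤ)`-invariant function `J` -/
theorem deriv_Jc_mob (s : SL(2, ℤ)) {y : ℂ} (hy : y ∈ U) :
    deriv LevelOneMer.Jc (mob s y) * deriv (mob s) y = deriv LevelOneMer.Jc y := by
  have e : (LevelOneMer.Jc ∘ mob s) =ᶠ[𝓝 y] LevelOneMer.Jc := by
    filter_upwards [Kummer.isOpen_U.mem_nhds hy] with w hw
    exact LevelOneMer.Jc_mob s hw
  rw [← e.deriv_eq, deriv_comp y
    (LevelOneMer.analyticAt_Jc (mob_mem_U s hy)).differentiableAt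
    (analyticAt_mob s hy).differentiableAt]


/-- at a good point, `j - j(σ)` is a uniformizer at the point place and the multiplier is `1` -/
theorem good_point (σ : ℍ) (hσ : IsGood σ) :
    valPt N σ (jBar N - algebraMap ℂ (FN N) (Fermat.Agent.S24.Jfun σ)) = 1 ∧
    Cx.mulPt N σ = 1 ∧
    (Cx.placePt N σ).ord (jBar N - algebraMap ℂ (FN N) (Fermat.Agent.S24.Jfun σ)) = 1 := by
  have hv : valPt N σ (jBar N - algebraMap ℂ (FN N) (Fermat.Agent.S24.Jfun σ)) = 1 :=
    valPt_jBar_sub_generic N (Fermat.Agent.S24.Jfun σ) hσ.1 hσ.2 σ rfl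
  have hm := Cx.valPt_eq_mul_ord N σ (PtTop.jBar_sub_ne_zero N (Fermat.Agent.S24.Jfun σ))
  rw [hv] at hm
  have h1 := Int.eq_one_or_neg_one_of_mul_eq_one hm.symm
  have h2 : (Cx.mulPt N σ : ℤ) = 1 := by omega
  refine ⟨hv, by exact_mod_cast h2, ?_⟩
  rw [h2, one_mul] at hm
  exact hm.symm

/-- regularity of `merK φ · J'` at the points where `φ dj` is regular -/
theorem order_g0_nonneg {φ : FN N} (hφ0 : φ ≠ 0) (σ : ℍ)
    (hreg : ∀ a : ℂ, 0 < (Cx.placePt N σ).ord (jBar N - algebraMap ℂ (FN N) a) →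
      0 ≤ (Cx.placePt N σ).ord φ + (Cx.placePt N σ).ord (jBar N - algebraMap ℂ (FN N) a) - 1) :
    0 ≤ meromorphicOrderAt
      (fun z => merK (RingHom.id ℂ) N φ z * deriv LevelOneMer.Jc z) (σ : ℂ) := by
  have hD := Cx.isDict_id N
  have e : (fun z => merK (RingHom.id ℂ) N φ z * deriv LevelOneMer.Jc z)
      = merK (RingHom.id ℂ) N φ * deriv LevelOneMer.Jc := rfl
  rw [e, meromorphicOrderAt_mul (hD.meromorphicOn_merK φ _ (coe_mem_U σ))
    (analyticAt_deriv_Jc (coe_mem_U σ)).meromorphicAt, hD.meromorphicOrderAt_merK φ hφ0 σ,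
    order_deriv_Jc N σ, ← WithTop.coe_add]
  have hf := PtTop.jBar_sub_ne_zero N (Fermat.Agent.S24.Jfun σ)
  have h1 : valPt N σ φ = Cx.mulPt N σ * (Cx.placePt N σ).ord φ :=
    Cx.valPt_eq_mul_ord N σ hφ0
  have h2 := Cx.valPt_eq_mul_ord N σ hf
  have h3 : 0 < valPt N σ (jBar N - algebraMap ℂ (FN N) (Fermat.Agent.S24.Jfun σ)) :=
    (PtTop.valPt_jBar_sub_pos_iff N σ _).mpr rfl
  have he : 0 < (Cx.mulPt N σ : ℤ) := by
    rcases Cx.mulPt_cases N σ with h | ⟨h, -⟩ | ⟨h, -⟩ <;> rw [h] <;> norm_num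
  have hm : 0 < (Cx.placePt N σ).ord
      (jBar N - algebraMap ℂ (FN N) (Fermat.Agent.S24.Jfun σ)) := by
    rw [h2] at h3
    exact (pos_iff_pos_of_mul_pos h3).mp he
  have h4 := hreg _ hm
  have h5 : (0 : ℤ) ≤ valPt N σ φ
      + (valPt N σ (jBar N - algebraMap ℂ (FN N) (Fermat.Agent.S24.Jfun σ)) - 1) := by
    rw [h1, h2]
    nlinarith [mul_nonneg he.le h4]
  exact_mod_cast h5

/-- the simple poles of `merK φ · J'` -/
theorem hasIntRes_g0 {φ : FN N} (σ : ℍ) (hσ : IsGood σ) (m : ℤ)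
    (hres : 0 < (Cx.placePt N σ).ord
      (φ * (jBar N - algebraMap ℂ (FN N) (Fermat.Agent.S24.Jfun σ))
        + algebraMap ℂ (FN N) (-(m : ℂ)))) :
    HasIntRes (fun z => merK (RingHom.id ℂ) N φ z * deriv LevelOneMer.Jc z) (σ : ℂ) m := by
  have hD := Cx.isDict_id N
  obtain ⟨hv, hmul, -⟩ := good_point N σ hσ
  generalize hc : Fermat.Agent.S24.Jfun σ = c at hres hv
  generalize hu : φ * (jBar N - algebraMap ℂ (FN N) c) + algebraMap ℂ (FN N) (-(m : ℂ)) = u
    at hres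
  have hu0 : u ≠ 0 := by
    intro h0
    rw [h0, Place.ord_zero] at hres
    exact lt_irrefl _ hres
  have hvu : valPt N σ u = (Cx.placePt N σ).ord u := by
    rw [Cx.valPt_eq_mul_ord N σ hu0, hmul]
    simp
  have hw : MeromorphicAt (merK (RingHom.id ℂ) N u) (σ : ℂ) :=
    hD.meromorphicOn_merK u _ (coe_mem_U σ)
  have hw1 : 1 ≤ meromorphicOrderAt (merK (RingHom.id ℂ) N u) (σ : ℂ) := by
    rw [hD.meromorphicOrderAt_merK u hu0 σ]
    have h1 : (1 : ℤ) ≤ valPt N σ u := by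
      rw [hvu]; omega
    exact_mod_cast h1
  have hfw : merK (RingHom.id ℂ) N u =ᶠ[𝓝[≠] (σ : ℂ)]
      fun z => merK (RingHom.id ℂ) N φ z * (LevelOneMer.Jc z - c) - m := by
    refine Kummer.eventuallyEq_nhdsNE_of_codiscreteWithin ?_ (coe_mem_U σ)
    filter_upwards [hD.merK_add (φ * (jBar N - algebraMap ℂ (FN N) c))
        (algebraMap ℂ (FN N) (-(m : ℂ))),
      hD.merK_mul φ (jBar N - algebraMap ℂ (FN N) c), hD.merK_algebraMap (-(m : ℂ)),
      merK_jBar_sub_ae N c] with z a1 a2 a3 a4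
    rw [← hu, a1, a2, a3, a4]
    simp only [RingHom.id_apply]
    ring
  have hord : meromorphicOrderAt (fun z => LevelOneMer.Jc z - c) (σ : ℂ) = 1 := by
    rw [order_Jc_sub N c σ, hv]
    rfl
  exact hasIntRes_mul_deriv (LevelOneMer.analyticAt_Jc (coe_mem_U σ)) hord hw hw1 hfw

/-- `|J'(z)| ≤ C exp(2π Im z)` near `i∞` -/
theorem exists_deriv_Jc_bound (N : ℕ) [NeZero N] : ∃ Y C : ℝ, 0 ≤ C ∧ ∀ z : ℂ, Y < z.im →
    ‖deriv LevelOneMer.Jc z‖ ≤ C * Real.exp (2 * Real.pi * z.im) := by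
  have hD := Cx.isDict_id N
  have hj0 : jBar N ≠ 0 := PlaceDict.jBar_ne_zero N
  obtain ⟨ψ, hψ, -, hshape⟩ := hD.merK_cusp_shape (jBar N) hj0 1
  have hval : valCusp N 1 (jBar N) = -(N : ℤ) := by
    have h1 := PlaceDict.valCusp_eq_mul_ord N 1 hj0
    have h2 := PlaceDict.valCusp_eq_mul_ord N 1 (inv_ne_zero hj0)
    rw [valCusp_jBar_inv, Place.ord_inv] at h2
    rw [h1]
    linarith
  have hN : (0 : ℝ) < N := by exact_mod_cast Nat.pos_of_ne_zero (NeZero.ne N)
  have hshape' : ∀ z ∈ U, merK (RingHom.id ℂ) N (jBar N) z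
      = Function.Periodic.qParam (N : ℝ) z ^ (-(N : ℤ))
        * ψ (Function.Periodic.qParam (N : ℝ) z) := by
    intro z hz
    have h1 := hshape z hz
    rw [inv_one, mob_one] at h1
    rw [h1, ← hval]
    rfl
  obtain ⟨Y, M, hY, hM, hb⟩ := cusp_shape_bound hN hψ hshape'
  have hae : merK (RingHom.id ℂ) N (jBar N) =ᶠ[codiscreteWithin U] LevelOneMer.Jc := by
    have h1 := merK_jBar_sub_ae N 0
    simpa only [map_zero, sub_zero] using h1
  have heq : ∀ z : ℂ, Y < z.im → LevelOneMer.Jc z = merK (RingHom.id ℂ) N (jBar N) z := by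
    intro z hz
    have hzU : z ∈ U := hY.trans_lt hz
    have h1 := Kummer.eventuallyEq_nhdsNE_of_codiscreteWithin hae hzU
    have h2 := ((hb z hz).1.continuousAt.eventuallyEq_nhds_iff_eventuallyEq_nhdsNE
      (LevelOneMer.analyticAt_Jc hzU).continuousAt).mp h1
    exact h2.eq_of_nhds.symm
  refine ⟨Y + 1, M * Real.exp (2 * Real.pi), by positivity, fun z hz => ?_⟩
  have him : ∀ w : ℂ, ‖w - z‖ ≤ 1 → z.im - 1 ≤ w.im ∧ w.im ≤ z.im + 1 := by
    intro w hw
    have h1 : |(w - z).im| ≤ 1 := (Complex.abs_im_le_norm _).trans hw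
    rw [Complex.sub_im, abs_le] at h1
    constructor <;> linarith [h1.1, h1.2]
  have hsub : Metric.closedBall z 1 ⊆ U := by
    intro w hw
    rw [Metric.mem_closedBall, dist_eq_norm] at hw
    have h1 := (him w hw).1
    show 0 < w.im
    linarith
  have hdiff : DifferentiableOn ℂ LevelOneMer.Jc U := fun w hw =>
    (LevelOneMer.analyticAt_Jc hw).differentiableAt.differentiableWithinAt
  have hC : ∀ w ∈ Metric.sphere z 1,
      ‖LevelOneMer.Jc w‖ ≤ M * Real.exp (2 * Real.pi * (z.im + 1)) := by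
    intro w hw
    rw [mem_sphere_iff_norm] at hw
    obtain ⟨h1, h2⟩ := him w hw.le
    have hwY : Y < w.im := by linarith
    rw [heq w hwY]
    refine (hb w hwY).2.trans ?_
    apply mul_le_mul_of_nonneg_left _ hM
    rw [Real.exp_le_exp]
    have e1 : -2 * Real.pi * w.im / (N : ℝ) * ((-(N : ℤ) : ℤ) : ℝ) = 2 * Real.pi * w.im := by
      push_cast
      field_simp
    rw [e1]
    nlinarith [Real.pi_pos]
  have h3 := Complex.norm_deriv_le_of_forall_mem_sphere_norm_le one_pos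
    (hdiff.diffContOnCl_ball hsub) hC
  rw [div_one] at h3
  refine h3.trans (le_of_eq ?_)
  rw [mul_add, mul_one, Real.exp_add]
  ring

end Dict

end Avatar

open Fermat.Agent.ESJ.Dict in
/-- **Row 410 (DIVA-3): the analytic avatar of the differential of the third kind.**  For good
points `τ, τ'` with distinct images on `X₀(N)` there is a meromorphic `g` on the upper half plane
with `g(γ z) γ'(z) = g(z)` for `γ ∈ Γ₀(N)`, simple poles with residue `1` (resp. `-1`) at the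
translates of `τ` (resp. `τ'`), no other singularity, and exponential decay at all cusps. -/
theorem exists_thirdKind_avatar (N : ℕ) [NeZero N] (τ τ' : ℍ) (hτ : IsGood τ) (hτ' : IsGood τ')
    (hne : Cx.placePt N τ ≠ Cx.placePt N τ') :
    ∃ g : ℂ → ℂ,
      (∀ σ : ℍ, HasIntRes g (σ : ℂ) (resPair N τ τ' σ)) ∧
      (∀ γ ∈ Gamma0 N, ∀ z ∈ U, (fun y => g (mob γ y) * deriv (mob γ) y) =ᶠ[𝓝[≠] z] g) ∧
      (∀ s : SL(2, ℤ), ∃ Y C c : ℝ, 0 < c ∧ ∀ z : ℂ, Y < z.im →
        AnalyticAt ℂ g (mob s z) ∧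
          ‖g (mob s z) * deriv (mob s) z‖ ≤ C * Real.exp (-c * z.im)) := by
  have hD := Cx.isDict_id N
  have : FiniteDimensional ℂ⟮jBar N⟯ (FN N) := hD.finiteDimensional_jBarK
  have hx : Transcendental ℂ (jBar N) := hD.transcendental_jBarK
  obtain ⟨-, -, hP⟩ := Avatar.good_point N τ hτ
  obtain ⟨-, -, hP'⟩ := Avatar.good_point N τ' hτ'
  obtain ⟨φ, hφ0, hreg, hpole, hres, hres'⟩ :=
    exists_thirdKind (jBar N) hx (Cx.placePt N τ) (Cx.placePt N τ') hne _ _ hP hP'
  obtain ⟨g₀, hg₀⟩ : ∃ g₀ : ℂ → ℂ,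
      g₀ = fun z => merK (RingHom.id ℂ) N φ z * deriv LevelOneMer.Jc z := ⟨_, rfl⟩
  have hmer : MeromorphicOn g₀ U := by
    intro z hz
    rw [hg₀]
    exact (hD.meromorphicOn_merK φ z hz).mul (Avatar.analyticAt_deriv_Jc hz).meromorphicAt
  have hNF : MeromorphicNFOn (toMeromorphicNFOn g₀ U) U := meromorphicNFOn_toMeromorphicNFOn _ _
  refine ⟨toMeromorphicNFOn g₀ U, ?_, ?_, ?_⟩
  · -- the residues
    intro σ
    have hgg := hmer.toMeromorphicNFOn_eq_self_on_nhdsNE (coe_mem_U σ)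
    by_cases h1 : Cx.placePt N σ = Cx.placePt N τ
    · have h2 : Cx.placePt N σ ≠ Cx.placePt N τ' := fun h => hne (h1.symm.trans h)
      have hr : resPair N τ τ' σ = 1 := by
        unfold resPair
        rw [if_pos h1, if_neg h2, sub_zero]
      rw [hr]
      obtain ⟨γ, -, hγσ⟩ := (Cx.placePt_eq_iff N σ τ).mp h1
      have hJ : Fermat.Agent.S24.Jfun σ = Fermat.Agent.S24.Jfun τ := by
        rw [← hγσ, Fermat.Agent.S24.JPt.Jfun_smul]
      have hσ : IsGood σ := by
        unfold IsGood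
        rw [hJ]
        exact hτ
      refine HasIntRes.congr ?_ hgg
      rw [hg₀]
      apply Avatar.hasIntRes_g0 N σ hσ 1
      rw [h1, hJ]
      have e : φ * (jBar N - algebraMap ℂ (FN N) (Fermat.Agent.S24.Jfun τ))
          + algebraMap ℂ (FN N) (-((1 : ℤ) : ℂ))
          = φ * (jBar N - algebraMap ℂ (FN N) (Fermat.Agent.S24.Jfun τ)) - 1 := by
        rw [Int.cast_one, map_neg, map_one]
        ring
      rw [e]
      exact hres
    · by_cases h2 : Cx.placePt N σ = Cx.placePt N τ'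
      · have hr : resPair N τ τ' σ = -1 := by
          unfold resPair
          rw [if_neg h1, if_pos h2, zero_sub]
        rw [hr]
        obtain ⟨γ, -, hγσ⟩ := (Cx.placePt_eq_iff N σ τ').mp h2
        have hJ : Fermat.Agent.S24.Jfun σ = Fermat.Agent.S24.Jfun τ' := by
          rw [← hγσ, Fermat.Agent.S24.JPt.Jfun_smul]
        have hσ : IsGood σ := by
          unfold IsGood
          rw [hJ]
          exact hτ'
        refine HasIntRes.congr ?_ hgg
        rw [hg₀]
        apply Avatar.hasIntRes_g0 N σ hσ (-1)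
        rw [h2, hJ]
        have e : φ * (jBar N - algebraMap ℂ (FN N) (Fermat.Agent.S24.Jfun τ'))
            + algebraMap ℂ (FN N) (-((-1 : ℤ) : ℂ))
            = φ * (jBar N - algebraMap ℂ (FN N) (Fermat.Agent.S24.Jfun τ')) + 1 := by
          rw [Int.cast_neg, Int.cast_one, neg_neg, map_one]
        rw [e]
        exact hres'
      · have hr : resPair N τ τ' σ = 0 := by
          unfold resPair
          rw [if_neg h1, if_neg h2, sub_zero]
        rw [hr]
        apply hasIntRes_of_analyticAt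
        rw [← (hNF (coe_mem_U σ)).meromorphicOrderAt_nonneg_iff_analyticAt,
          meromorphicOrderAt_toMeromorphicNFOn hmer (coe_mem_U σ), hg₀]
        exact Avatar.order_g0_nonneg N hφ0 σ (fun a ha => hreg (Cx.placePt N σ) h1 h2 a ha)
  · -- the invariance
    intro γ hγ z hz
    have e0 := hmer.toMeromorphicNFOn_eq_self_on_nhdsNE hz
    have e1 := (tendsto_mob_nhdsNE γ hz).eventually
      (hmer.toMeromorphicNFOn_eq_self_on_nhdsNE (mob_mem_U γ hz))
    filter_upwards [e0, e1,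
      eventually_nhdsWithin_of_eventually_nhds (Kummer.isOpen_U.mem_nhds hz)] with y h0 h1 hyU
    rw [h1, h0, hg₀]
    show merK (RingHom.id ℂ) N φ (mob γ y) * deriv LevelOneMer.Jc (mob γ y) * deriv (mob γ) y
      = merK (RingHom.id ℂ) N φ y * deriv LevelOneMer.Jc y
    rw [hD.merK_mob φ γ hγ y hyU, mul_assoc, Avatar.deriv_Jc_mob γ hyU]
  · -- the cusps
    intro s
    have hkN : (N : ℤ) + 1 ≤ valCusp N s⁻¹ φ := by
      have h1 := PlaceDict.valCusp_eq_mul_ord N s⁻¹ hφ0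
      have hj0 : (jBar N)⁻¹ ≠ 0 := inv_ne_zero (PlaceDict.jBar_ne_zero N)
      have h2 := PlaceDict.valCusp_eq_mul_ord N s⁻¹ hj0
      rw [valCusp_jBar_inv, Place.ord_inv] at h2
      have h3 := PlaceDict.ord_jBar_placeCusp_neg N s⁻¹
      have h4 := hpole (PlaceDict.placeCusp N s⁻¹) h3
      have h5 : (0 : ℤ) < PlaceDict.mulCusp N s⁻¹ := by
        exact_mod_cast PlaceDict.mulCusp_pos N s⁻¹
      rw [h1]
      nlinarith [mul_nonneg h5.le h4]
    obtain ⟨ψ, hψ, -, hshape⟩ := hD.merK_cusp_shape φ hφ0 s⁻¹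
    rw [inv_inv] at hshape
    have hN : (0 : ℝ) < N := by exact_mod_cast Nat.pos_of_ne_zero (NeZero.ne N)
    obtain ⟨Y₁, M₁, hY₁, hM₁, hb₁⟩ := Avatar.cusp_shape_bound
      (f := fun z => merK (RingHom.id ℂ) N φ (mob s z)) hN hψ hshape
    obtain ⟨Y₂, C₂, hC₂, hb₂⟩ := Avatar.exists_deriv_Jc_bound N
    refine ⟨max Y₁ Y₂, M₁ * C₂, 2 * Real.pi / N, by positivity, fun z hz => ?_⟩
    have hz1 : Y₁ < z.im := (le_max_left _ _).trans_lt hz
    have hz2 : Y₂ < z.im := (le_max_right _ _).trans_lt hz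
    have hzU : z ∈ U := hY₁.trans_lt hz1
    have hwU : mob s z ∈ U := mob_mem_U s hzU
    obtain ⟨hFa, hFb⟩ := hb₁ z hz1
    have hinv : mob s⁻¹ (mob s z) = z := by
      rw [← mob_mul _ _ hzU, inv_mul_cancel, mob_one]
    have hφa : AnalyticAt ℂ (merK (RingHom.id ℂ) N φ) (mob s z) := by
      have h1 : AnalyticAt ℂ ((fun z => merK (RingHom.id ℂ) N φ (mob s z)) ∘ mob s⁻¹)
          (mob s z) := hFa.comp_of_eq (analyticAt_mob s⁻¹ hwU) hinv
      refine h1.congr ?_
      filter_upwards [Kummer.isOpen_U.mem_nhds hwU] with y hy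
      show merK (RingHom.id ℂ) N φ (mob s (mob s⁻¹ y)) = _
      rw [← mob_mul _ _ hy, mul_inv_cancel, mob_one]
    have hg₀a : AnalyticAt ℂ g₀ (mob s z) := by
      rw [hg₀]
      exact hφa.mul (Avatar.analyticAt_deriv_Jc hwU)
    have heq : toMeromorphicNFOn g₀ U =ᶠ[𝓝 (mob s z)] g₀ :=
      ((hNF hwU).eventuallyEq_nhdsNE_iff_eventuallyEq_nhds hg₀a.meromorphicNFAt).mp
        (hmer.toMeromorphicNFOn_eq_self_on_nhdsNE hwU)
    refine ⟨hg₀a.congr heq.symm, ?_⟩
    rw [heq.eq_of_nhds]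
    have e : g₀ (mob s z) * deriv (mob s) z
        = merK (RingHom.id ℂ) N φ (mob s z) * deriv LevelOneMer.Jc z := by
      rw [hg₀]
      show merK (RingHom.id ℂ) N φ (mob s z) * deriv LevelOneMer.Jc (mob s z) * deriv (mob s) z
        = _
      rw [mul_assoc, Avatar.deriv_Jc_mob s hzU]
    rw [e, norm_mul]
    have hb2 := hb₂ z hz2
    have hy : 0 ≤ z.im := le_of_lt hzU
    have hk' : (N : ℝ) + 1 ≤ ((valCusp N s⁻¹ φ : ℤ) : ℝ) := by exact_mod_cast hkN
    calc ‖merK (RingHom.id ℂ) N φ (mob s z)‖ * ‖deriv LevelOneMer.Jc z‖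
        ≤ (M₁ * Real.exp (-2 * Real.pi * z.im / N * ((valCusp N s⁻¹ φ : ℤ) : ℝ)))
            * (C₂ * Real.exp (2 * Real.pi * z.im)) :=
          mul_le_mul hFb hb2 (norm_nonneg _) (by positivity)
      _ = M₁ * C₂ * Real.exp (-2 * Real.pi * z.im / N * ((valCusp N s⁻¹ φ : ℤ) : ℝ)
            + 2 * Real.pi * z.im) := by
          rw [Real.exp_add]
          ring
      _ ≤ M₁ * C₂ * Real.exp (-(2 * Real.pi / N) * z.im) := by
          apply mul_le_mul_of_nonneg_left _ (mul_nonneg hM₁ hC₂)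
          rw [Real.exp_le_exp]
          have e3 : -2 * Real.pi * z.im / N * ((valCusp N s⁻¹ φ : ℤ) : ℝ) + 2 * Real.pi * z.im
              - (-(2 * Real.pi / N) * z.im)
              = -(2 * Real.pi * z.im / N) * (((valCusp N s⁻¹ φ : ℤ) : ℝ) - N - 1) := by
            field_simp
            ring
          have h6 : 0 ≤ 2 * Real.pi * z.im / N := by positivity
          nlinarith [mul_nonneg h6 (sub_nonneg.mpr hk')]

end Fermat.Agent.MW.DivA
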