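import Mathlib
import Fermat.Agent.MW.DivA.Defs
import Fermat.Agent.ESJ.Jac.LevelOneMer

/-!
# MW / DIV-A : the weight-2 avatar of a differential `φ · dj` on `X₀(N)`

`avatar N φ z = merK φ z * J'(z)` (`merK` the meromorphic function of `φ ∈ F_ℂ`, `J = Jc`).
`avatar_inv` : `avatar (γ z) · γ'(z) = avatar z` for `γ ∈ Γ₀(N)`, `z ∈ U`.
-/

set_option autoImplicit false

open UpperHalfPlane Filter Topology CongruenceSubgroup
open scoped MatrixGroups

noncomputable section

namespace Fermat.Agent.MW.DivA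

open Fermat.Agent.ESJ.Jac Fermat.Agent.ESJ.Jac.LevelOneMer Fermat.Agent.S24C

/-- The weight-2 avatar of the differential `φ · dj`. -/
def avatar (N : ℕ) [NeZero N] (φ : FN N) : ℂ → ℂ :=
  fun z => merK (RingHom.id ℂ) N φ z * deriv Jc z

theorem avatar_apply (N : ℕ) [NeZero N] (φ : FN N) (z : ℂ) :
    avatar N φ z = merK (RingHom.id ℂ) N φ z * deriv Jc z := rfl

/-- Chain rule for the invariant function `J`. -/
theorem deriv_Jc_mob (g : SL(2, ℤ)) {z : ℂ} (hz : z ∈ U) :
    deriv Jc (mob g z) * deriv (mob g) z = deriv Jc z := by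
  have h1 : (fun y => Jc (mob g y)) =ᶠ[𝓝 z] Jc := by
    filter_upwards [isOpen_U.mem_nhds hz] with y hy using Jc_mob g hy
  have h2 : deriv (fun y => Jc (mob g y)) z = deriv Jc z := h1.deriv_eq
  have h3 : HasDerivAt (fun y => Jc (mob g y)) (deriv Jc (mob g z) * deriv (mob g) z) z :=
    ((analyticAt_Jc (mob_mem_U g hz)).differentiableAt.hasDerivAt).comp z
      ((analyticAt_mob g hz).differentiableAt.hasDerivAt)
  rw [← h2, h3.deriv]

/-- Weight-2 invariance of the avatar, at every point of `U`. -/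
theorem avatar_mob (N : ℕ) [NeZero N] (φ : FN N) (γ : SL(2, ℤ)) (hγ : γ ∈ Gamma0 N) {z : ℂ}
    (hz : z ∈ U) : avatar N φ (mob γ z) * deriv (mob γ) z = avatar N φ z := by
  rw [avatar_apply, avatar_apply, (Cx.isDict_id N).merK_mob φ γ hγ z hz, mul_assoc,
    deriv_Jc_mob γ hz]

/-- Weight-2 invariance of the avatar (the form consumed by `exists_multFn`). -/
theorem avatar_inv (N : ℕ) [NeZero N] (φ : FN N) (γ : SL(2, ℤ)) (hγ : γ ∈ Gamma0 N) (z : ℂ)
    (hz : z ∈ U) : (fun y => avatar N φ (mob γ y) * deriv (mob γ) y) =ᶠ[𝓝[≠] z] avatar N φ := by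
  have h : ∀ᶠ y in 𝓝 z, avatar N φ (mob γ y) * deriv (mob γ) y = avatar N φ y := by
    filter_upwards [isOpen_U.mem_nhds hz] with y hy using avatar_mob N φ γ hγ hy
  exact h.filter_mono nhdsWithin_le_nhds

end Fermat.Agent.MW.DivA
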