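import Mathlib
import Fermat.Agent.MW.DivA.AvatarDefs
import Fermat.Agent.S24C.Cx
import Fermat.Agent.ESJ.Jac.Kummer

/-!
# MW / DIV-A (row 433, AV-CUSP): exponential decay of the avatar at the cusps

`avatar_cusp` : if the differential `φ · dj` is regular at all cusp places (`hreg`), then for every
`s ∈ SL(2, ℤ)` the function `z ↦ avatar N φ (s z) · s'(z)` is analytic and exponentially small on
a half plane `Im z > Y`.

Ingredients: the local shape `merK φ (s z) = q_N(z)^k · ψ(q_N z)` at the cusp (`merK_cusp_shape`),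
with `k = e · ord_v φ ≥ e + N` from `hreg`, and a Cauchy estimate `‖J'(z)‖ ≤ C · exp(2π Im z)`
from the cusp shape of `j` itself.
-/

set_option autoImplicit false

open UpperHalfPlane Filter Topology AlgebraicCurve CongruenceSubgroup
open scoped MatrixGroups

noncomputable section

namespace Fermat.Agent.MW.DivA

open Fermat.Agent.ESJ.Jac Fermat.Agent.ESJ.Jac.LevelOneMer Fermat.Agent.S24C
open Fermat.Agent.S24 (Jfun)

namespace AvatarCusp

/-- The norm of an integer power of `q_N`. -/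
theorem norm_qParam_zpow (N : ℕ) (z : ℂ) (k : ℤ) :
    ‖Function.Periodic.qParam (N : ℝ) z ^ k‖ = Real.exp (k * (-2 * Real.pi * z.im / N)) := by
  rw [norm_zpow, Function.Periodic.norm_qParam, ← Real.rpow_intCast, ← Real.exp_mul]
  congr 1
  ring

/-- `q_N` is small on a half plane. -/
theorem exists_norm_qParam_lt (N : ℕ) [NeZero N] {δ : ℝ} (hδ : 0 < δ) :
    ∃ Y : ℝ, 0 ≤ Y ∧ ∀ z : ℂ, Y < z.im → ‖Function.Periodic.qParam (N : ℝ) z‖ < δ := by
  have hNr : (0 : ℝ) < N := by exact_mod_cast Nat.pos_of_ne_zero (NeZero.ne N)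
  have hpi := Real.pi_pos
  refine ⟨max 0 (-(N : ℝ) * Real.log δ / (2 * Real.pi)), le_max_left _ _, fun z hz => ?_⟩
  have hz1 : -(N : ℝ) * Real.log δ / (2 * Real.pi) < z.im := lt_of_le_of_lt (le_max_right _ _) hz
  rw [Function.Periodic.norm_qParam]
  have h2 : -2 * Real.pi * z.im / N < Real.log δ := by
    rw [div_lt_iff₀ hNr]
    rw [div_lt_iff₀ (by positivity)] at hz1
    linarith
  calc Real.exp (-2 * Real.pi * z.im / N) < Real.exp (Real.log δ) := Real.exp_lt_exp.mpr h2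
    _ = δ := Real.exp_log hδ

/-- A function analytic at `0` is analytic and bounded on a small disc. -/
theorem exists_analytic_bound {ψ : ℂ → ℂ} (hψ : AnalyticAt ℂ ψ 0) :
    ∃ δ : ℝ, 0 < δ ∧ ∀ q : ℂ, ‖q‖ < δ → AnalyticAt ℂ ψ q ∧ ‖ψ q‖ ≤ ‖ψ 0‖ + 1 := by
  have h1 : ∀ᶠ q in 𝓝 (0 : ℂ), AnalyticAt ℂ ψ q := hψ.eventually_analyticAt
  have h2 : ∀ᶠ q in 𝓝 (0 : ℂ), ‖ψ q‖ < ‖ψ 0‖ + 1 :=
    (hψ.continuousAt.norm).eventually_lt
      (continuousAt_const : ContinuousAt (fun _ : ℂ => ‖ψ 0‖ + 1) 0) (by simp)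
  obtain ⟨δ, hδ, h⟩ := Metric.eventually_nhds_iff.mp (h1.and h2)
  refine ⟨δ, hδ, fun q hq => ?_⟩
  have h3 := @h q (by simpa [dist_eq_norm] using hq)
  exact ⟨h3.1, h3.2.le⟩

/-- `valCusp N g j = -N` at every cusp, in the form `e · ord_v j = -N`. -/
theorem mulCusp_mul_ord_jBar (N : ℕ) [NeZero N] (g : SL(2, ℤ)) :
    (PlaceDict.mulCusp N g : ℤ) * (PlaceDict.placeCusp N g).ord (jBar N) = -(N : ℤ) := by
  have h2 := PlaceDict.valCusp_eq_mul_ord N g (inv_ne_zero (PlaceDict.jBar_ne_zero N))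
  rw [valCusp_jBar_inv N g, AlgebraicCurve.Place.ord_inv] at h2
  linarith

theorem valCusp_jBar_eq_neg (N : ℕ) [NeZero N] (g : SL(2, ℤ)) :
    valCuspK (RingHom.id ℂ) N g (jBar N) = -(N : ℤ) := by
  have h1 : valCuspK (RingHom.id ℂ) N g (jBar N)
      = PlaceDict.mulCusp N g * (PlaceDict.placeCusp N g).ord (jBar N) :=
    PlaceDict.valCusp_eq_mul_ord N g (PlaceDict.jBar_ne_zero N)
  rw [h1, mulCusp_mul_ord_jBar]

/-- Off a discrete subset of `U`, the meromorphic function of `j ∈ F` is `J`. -/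
theorem merK_jBar_ae (N : ℕ) [NeZero N] :
    merK (RingHom.id ℂ) N (jBar N) =ᶠ[Filter.codiscreteWithin U] Jc := by
  have hrep : IsRep N (jBar N) (MvPolynomial.X (Fermat.Agent.S24.JPt.d1 N) - MvPolynomial.C 0) 1 := by
    have h := JPt.isRep_jBar_sub N (0 : ℂ)
    rwa [map_zero, sub_zero] at h
  have hae := (Cx.isDict_id N).merK_eq_div_ae (jBar N) _ _ hrep
  have hev : (fun z : ℂ => evK (RingHom.id ℂ) N
        (MvPolynomial.X (Fermat.Agent.S24.JPt.d1 N) - MvPolynomial.C 0) (ofComplex z) /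
      evK (RingHom.id ℂ) N (1 : MvPolynomial (Fermat.Agent.S24.Dv N) ℂ) (ofComplex z)) = Jc := by
    funext z
    have h2 : evK (RingHom.id ℂ) N (MvPolynomial.X (Fermat.Agent.S24.JPt.d1 N) - MvPolynomial.C 0)
        = fun z => Jfun z - iotaK 0 := JPt.ev_X_d1_sub_C N (0 : ℂ)
    rw [h2, map_one]
    simp [Jc]
  rw [hev] at hae
  exact hae

/-- Growth of `J` at `i∞`: `‖J(w)‖ ≤ C · exp(2π Im w)` on a half plane. -/
theorem exists_Jc_bound :
    ∃ Y C : ℝ, 0 ≤ Y ∧ 0 ≤ C ∧ ∀ w : ℂ, Y < w.im → ‖Jc w‖ ≤ C * Real.exp (2 * Real.pi * w.im) := by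
  obtain ⟨ψ, hψ, -, hsh⟩ :=
    (Cx.isDict_id 1).merK_cusp_shape (jBar 1) (PlaceDict.jBar_ne_zero 1) 1
  obtain ⟨δ, hδ, hδb⟩ := exists_analytic_bound hψ
  obtain ⟨Y, hY0, hY⟩ := exists_norm_qParam_lt 1 hδ
  have hmer : ∀ w : ℂ, Y < w.im →
      ‖merK (RingHom.id ℂ) 1 (jBar 1) w‖ ≤ (‖ψ 0‖ + 1) * Real.exp (2 * Real.pi * w.im) := by
    intro w hw
    have hwU : w ∈ U := lt_of_le_of_lt hY0 hw
    have h1 := hsh w hwU
    rw [inv_one, mob_one, valCusp_jBar_eq_neg] at h1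
    rw [h1, norm_mul, norm_qParam_zpow]
    have e1 : ((-((1 : ℕ) : ℤ) : ℤ) : ℝ) * (-2 * Real.pi * w.im / ((1 : ℕ) : ℝ))
        = 2 * Real.pi * w.im := by
      push_cast
      ring
    rw [e1, mul_comm (Real.exp (2 * Real.pi * w.im))]
    exact mul_le_mul_of_nonneg_right (hδb _ (hY w hw)).2 (Real.exp_pos _).le
  refine ⟨Y, ‖ψ 0‖ + 1, hY0, by positivity, fun w hw => ?_⟩
  have hwU : w ∈ U := lt_of_le_of_lt hY0 hw
  have h1 : Jc =ᶠ[𝓝[≠] w] merK (RingHom.id ℂ) 1 (jBar 1) :=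
    (Kummer.eventuallyEq_nhdsNE_of_codiscreteWithin (merK_jBar_ae 1) hwU).symm
  have h2 : ∀ᶠ y in 𝓝[≠] w, ‖Jc y‖ ≤ (‖ψ 0‖ + 1) * Real.exp (2 * Real.pi * y.im) := by
    have hopen : ∀ᶠ y in 𝓝 w, Y < y.im :=
      (isOpen_lt continuous_const Complex.continuous_im).mem_nhds hw
    filter_upwards [h1, hopen.filter_mono nhdsWithin_le_nhds] with y hy hyY
    rw [hy]
    exact hmer y hyY
  have hc1 : Tendsto (fun y => ‖Jc y‖) (𝓝[≠] w) (𝓝 ‖Jc w‖) :=
    ((analyticAt_Jc hwU).continuousAt.norm).tendsto.mono_left nhdsWithin_le_nhds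
  have hc2 : Tendsto (fun y : ℂ => (‖ψ 0‖ + 1) * Real.exp (2 * Real.pi * y.im)) (𝓝[≠] w)
      (𝓝 ((‖ψ 0‖ + 1) * Real.exp (2 * Real.pi * w.im))) :=
    (Continuous.tendsto (by fun_prop) w).mono_left nhdsWithin_le_nhds
  exact le_of_tendsto_of_tendsto hc1 hc2 h2

/-- Cauchy estimate: `‖J'(z)‖ ≤ C · exp(2π Im z)` on a half plane. -/
theorem exists_deriv_Jc_bound :
    ∃ Y C : ℝ, 0 ≤ Y ∧ 0 ≤ C ∧
      ∀ z : ℂ, Y < z.im → ‖deriv Jc z‖ ≤ C * Real.exp (2 * Real.pi * z.im) := by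
  obtain ⟨Y, C, hY0, hC0, h⟩ := exists_Jc_bound
  refine ⟨Y + 1, C * Real.exp (2 * Real.pi), by linarith, by positivity, fun z hz => ?_⟩
  have him : ∀ w ∈ Metric.closedBall z 1, |w.im - z.im| ≤ 1 := by
    intro w hw
    have h1 := Complex.abs_im_le_norm (w - z)
    rw [Complex.sub_im] at h1
    have h2 : ‖w - z‖ ≤ 1 := by simpa [dist_eq_norm] using hw
    exact h1.trans h2
  have hball : ∀ w ∈ Metric.closedBall z 1, Y < w.im := by
    intro w hw
    have := abs_le.mp (him w hw)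
    linarith
  have hd : DiffContOnCl ℂ Jc (Metric.ball z 1) := by
    refine DifferentiableOn.diffContOnCl ?_
    rw [closure_ball z one_ne_zero]
    intro w hw
    exact ((analyticAt_Jc (show w ∈ U from lt_of_le_of_lt hY0 (hball w hw))).differentiableAt).differentiableWithinAt
  have hCs : ∀ w ∈ Metric.sphere z 1,
      ‖Jc w‖ ≤ C * Real.exp (2 * Real.pi) * Real.exp (2 * Real.pi * z.im) := by
    intro w hw
    have hwb : w ∈ Metric.closedBall z 1 := Metric.sphere_subset_closedBall hw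
    have h1 := h w (hball w hwb)
    have h2 : w.im ≤ z.im + 1 := by
      have := abs_le.mp (him w hwb)
      linarith
    have hpi := Real.pi_pos
    calc ‖Jc w‖ ≤ C * Real.exp (2 * Real.pi * w.im) := h1
      _ ≤ C * Real.exp (2 * Real.pi * (z.im + 1)) := by
          apply mul_le_mul_of_nonneg_left _ hC0
          apply Real.exp_le_exp.mpr
          nlinarith
      _ = C * Real.exp (2 * Real.pi) * Real.exp (2 * Real.pi * z.im) := by
          rw [mul_add, mul_one, Real.exp_add]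
          ring
  have h3 := Complex.norm_deriv_le_of_forall_mem_sphere_norm_le one_pos hd hCs
  rwa [div_one] at h3

end AvatarCusp

open AvatarCusp in
/-- **AV-CUSP**: exponential decay of the avatar of a differential regular at the cusp places. -/
theorem avatar_cusp (N : ℕ) [NeZero N] (φ : FN N) (hφ : φ ≠ 0)
    (hreg : ∀ v : Place ℂ (FN N), v.ord (jBar N) < 0 → 0 ≤ v.ord φ + v.ord (jBar N) - 1)
    (s : SL(2, ℤ)) :
    ∃ Y C c : ℝ, 0 < c ∧ ∀ z : ℂ, Y < z.im →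
      AnalyticAt ℂ (avatar N φ) (mob s z) ∧
        ‖avatar N φ (mob s z) * deriv (mob s) z‖ ≤ C * Real.exp (-c * z.im) := by
  have hN : 0 < N := Nat.pos_of_ne_zero (NeZero.ne N)
  have hNr : (0 : ℝ) < N := by exact_mod_cast hN
  have hpi := Real.pi_pos
  obtain ⟨ψ, hψ, -, hsh⟩ := (Cx.isDict_id N).merK_cusp_shape φ hφ s⁻¹
  simp only [inv_inv] at hsh
  -- the exponent is at least `N + 1`
  have hkN : (N : ℤ) + 1 ≤ valCuspK (RingHom.id ℂ) N s⁻¹ φ := by
    have h1 : valCuspK (RingHom.id ℂ) N s⁻¹ φ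
        = PlaceDict.mulCusp N s⁻¹ * (PlaceDict.placeCusp N s⁻¹).ord φ :=
      PlaceDict.valCusp_eq_mul_ord N s⁻¹ hφ
    have h2 := hreg (PlaceDict.placeCusp N s⁻¹) (PlaceDict.ord_jBar_placeCusp_neg N s⁻¹)
    have h3 := mulCusp_mul_ord_jBar N s⁻¹
    have h5 : (1 : ℤ) ≤ PlaceDict.mulCusp N s⁻¹ := by
      exact_mod_cast PlaceDict.mulCusp_pos N s⁻¹
    rw [h1]
    nlinarith
  obtain ⟨δ, hδ, hδb⟩ := exists_analytic_bound hψ
  obtain ⟨Y₁, hY₁0, hY₁⟩ := exists_norm_qParam_lt N (lt_min hδ one_pos)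
  obtain ⟨Y₂, C₂, hY₂0, hC₂0, hJ⟩ := exists_deriv_Jc_bound
  refine ⟨max Y₁ Y₂, (‖ψ 0‖ + 1) * C₂, 2 * Real.pi / N, by positivity, fun z hz => ?_⟩
  have hz1 : Y₁ < z.im := lt_of_le_of_lt (le_max_left _ _) hz
  have hz2 : Y₂ < z.im := lt_of_le_of_lt (le_max_right _ _) hz
  have hzU : z ∈ U := lt_of_le_of_lt hY₁0 hz1
  have hq := hY₁ z hz1
  have hqδ : ‖Function.Periodic.qParam (N : ℝ) z‖ < δ := lt_of_lt_of_le hq (min_le_left _ _)
  have hq1 : ‖Function.Periodic.qParam (N : ℝ) z‖ ≤ 1 := (lt_of_lt_of_le hq (min_le_right _ _)).le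
  have hq0 : Function.Periodic.qParam (N : ℝ) z ≠ 0 := Complex.exp_ne_zero _
  have hw0U : mob s z ∈ U := mob_mem_U s hzU
  have hinv : ∀ w ∈ U, mob s (mob s⁻¹ w) = w := fun w hw => by
    rw [← mob_mul s s⁻¹ hw, mul_inv_cancel, mob_one]
  have hinv' : mob s⁻¹ (mob s z) = z := by
    rw [← mob_mul s⁻¹ s hzU, inv_mul_cancel, mob_one]
  constructor
  · -- analyticity
    have heq : (fun w => Function.Periodic.qParam (N : ℝ) (mob s⁻¹ w) ^
          (valCuspK (RingHom.id ℂ) N s⁻¹ φ) * ψ (Function.Periodic.qParam (N : ℝ) (mob s⁻¹ w)))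
        =ᶠ[𝓝 (mob s z)] merK (RingHom.id ℂ) N φ := by
      filter_upwards [isOpen_U.mem_nhds hw0U] with w hw
      have h1 := hsh (mob s⁻¹ w) (mob_mem_U s⁻¹ hw)
      rw [hinv w hw] at h1
      exact h1.symm
    have hmob : AnalyticAt ℂ (mob s⁻¹) (mob s z) := analyticAt_mob s⁻¹ hw0U
    have hqan : AnalyticAt ℂ (fun w => Function.Periodic.qParam (N : ℝ) (mob s⁻¹ w)) (mob s z) := by
      have hq' : AnalyticAt ℂ (Function.Periodic.qParam (N : ℝ)) (mob s⁻¹ (mob s z)) :=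
        (Function.Periodic.differentiable_qParam).analyticAt _
      exact hq'.comp hmob
    have hψan : AnalyticAt ℂ (fun w => ψ (Function.Periodic.qParam (N : ℝ) (mob s⁻¹ w)))
        (mob s z) := by
      have hψ' : AnalyticAt ℂ ψ (Function.Periodic.qParam (N : ℝ) z) := (hδb _ hqδ).1
      exact hψ'.comp_of_eq hqan (by rw [hinv'])
    have hpow : AnalyticAt ℂ (fun w => Function.Periodic.qParam (N : ℝ) (mob s⁻¹ w) ^
        (valCuspK (RingHom.id ℂ) N s⁻¹ φ)) (mob s z) := by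
      apply AnalyticAt.zpow hqan
      rw [hinv']
      exact hq0
    have hmer : AnalyticAt ℂ (merK (RingHom.id ℂ) N φ) (mob s z) := (hpow.mul hψan).congr heq
    have hJ' : AnalyticAt ℂ (deriv Jc) (mob s z) := (analyticAt_Jc hw0U).deriv
    exact hmer.mul hJ'
  · -- the bound
    have e1 : avatar N φ (mob s z) * deriv (mob s) z
        = merK (RingHom.id ℂ) N φ (mob s z) * deriv Jc z := by
      rw [avatar_apply, mul_assoc, deriv_Jc_mob s hzU]
    rw [e1, hsh z hzU, norm_mul, norm_mul, norm_zpow]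
    have hqpos : 0 < ‖Function.Periodic.qParam (N : ℝ) z‖ := norm_pos_iff.mpr hq0
    have b1 : ‖Function.Periodic.qParam (N : ℝ) z‖ ^ (valCuspK (RingHom.id ℂ) N s⁻¹ φ)
        ≤ ‖Function.Periodic.qParam (N : ℝ) z‖ ^ ((N : ℤ) + 1) :=
      zpow_le_zpow_right_of_le_one₀ hqpos hq1 hkN
    have b2 : ‖Function.Periodic.qParam (N : ℝ) z‖ ^ ((N : ℤ) + 1)
        = Real.exp (-(2 * Real.pi / N) * z.im) * Real.exp (-(2 * Real.pi * z.im)) := by
      rw [Function.Periodic.norm_qParam, ← Real.rpow_intCast, ← Real.exp_mul, ← Real.exp_add]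
      congr 1
      push_cast
      field_simp
      ring
    have b3 := (hδb _ hqδ).2
    have b4 := hJ z hz2
    calc ‖Function.Periodic.qParam (N : ℝ) z‖ ^ (valCuspK (RingHom.id ℂ) N s⁻¹ φ)
          * ‖ψ (Function.Periodic.qParam (N : ℝ) z)‖ * ‖deriv Jc z‖
        ≤ (Real.exp (-(2 * Real.pi / N) * z.im) * Real.exp (-(2 * Real.pi * z.im)))
          * (‖ψ 0‖ + 1) * (C₂ * Real.exp (2 * Real.pi * z.im)) := by
          rw [← b2]
          gcongr
      _ = (‖ψ 0‖ + 1) * C₂ * Real.exp (-(2 * Real.pi / N) * z.im)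
          * (Real.exp (-(2 * Real.pi * z.im)) * Real.exp (2 * Real.pi * z.im)) := by ring
      _ = (‖ψ 0‖ + 1) * C₂ * Real.exp (-(2 * Real.pi / N) * z.im) := by
          rw [← Real.exp_add, neg_add_cancel, Real.exp_zero, mul_one]

end Fermat.Agent.MW.DivA
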