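import Mathlib
import Fermat.Agent.MW.DivA.AvatarDefs
import Fermat.Agent.MW.DivA.LogPrim
import Fermat.Agent.S24C.Cx
import Fermat.Agent.S24C.PlaceDict
import Fermat.Agent.ESJ.Jac.LevelOneMer
import Fermat.Agent.ESJ.Jac.Kummer

/-!
# MW / DIV-A : the avatar of `φ · dj` at a good point with `φ · (j - j(σ)) ≡ m`

`avatar_hasIntRes_int` : if `σ` is a good point (`j(σ) ∉ {0, 1728}`) and the element
`φ * (j - j(σ)) - m` of the function field vanishes at the place of `σ`, then the avatar
`merK φ · J'` has at `σ` (at most) a simple pole, with residue `m`.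

The analytic core is `hasIntRes_mul_deriv_of_simple_zero` : if `J - c` has a simple zero at `z`
and `f · (J - c) - m` has positive order at `z`, then `f · J'` has residue `m` at `z`.
-/

set_option autoImplicit false

open UpperHalfPlane Filter Topology AlgebraicCurve CongruenceSubgroup
open scoped MatrixGroups

noncomputable section

namespace Fermat.Agent.MW.DivA

open Fermat.Agent.ESJ.Jac Fermat.Agent.ESJ.Jac.LevelOneMer Fermat.Agent.S24C
open Fermat.Agent.MW.DivA.LogPrim
open Fermat.Agent.S24 (Jfun)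

/-- A function of positive meromorphic order at `z` is `(y - z) * b y` on a punctured
neighbourhood, with `b` analytic at `z`. -/
theorem exists_eq_sub_mul_of_order_pos {B : ℂ → ℂ} {z : ℂ} (hB : 0 < meromorphicOrderAt B z) :
    ∃ b : ℂ → ℂ, AnalyticAt ℂ b z ∧ B =ᶠ[𝓝[≠] z] fun y => (y - z) * b y := by
  by_cases hmer : MeromorphicAt B z
  · by_cases htop : meromorphicOrderAt B z = ⊤
    · refine ⟨fun _ => 0, analyticAt_const, ?_⟩
      have h0 := meromorphicOrderAt_eq_top_iff.1 htop
      filter_upwards [h0] with y hy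
      rw [hy, mul_zero]
    · lift meromorphicOrderAt B z to ℤ using htop with k hk
      have hk0 : 0 < k := by exact_mod_cast hB
      obtain ⟨g, hg, -, hBg⟩ := (meromorphicOrderAt_eq_int_iff hmer).1 hk.symm
      obtain ⟨n, rfl⟩ : ∃ n : ℕ, k = (n : ℤ) + 1 := ⟨(k - 1).toNat, by omega⟩
      refine ⟨fun y => (y - z) ^ n * g y, by fun_prop, ?_⟩
      filter_upwards [hBg] with y hy
      rw [hy, smul_eq_mul, show ((n : ℤ) + 1) = ((n + 1 : ℕ) : ℤ) by push_cast; ring,
        zpow_natCast, pow_succ]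
      ring
  · rw [meromorphicOrderAt_of_not_meromorphicAt hmer] at hB
    exact absurd hB (lt_irrefl _)

/-- **Local computation.**  If `J - c` has a simple zero at `z` and `f · (J - c) - m` has positive
order at `z`, then `f · J'` has at `z` at most a simple pole, with residue `m`. -/
theorem hasIntRes_mul_deriv_of_simple_zero {f J : ℂ → ℂ} {z c : ℂ} {m : ℤ}
    (hJ : AnalyticAt ℂ J z) (hord : analyticOrderAt (fun y => J y - c) z = 1)
    (hB : 0 < meromorphicOrderAt (fun y => f y * (J y - c) - (m : ℂ)) z) :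
    HasIntRes (fun y => f y * deriv J y) z m := by
  have hJc : AnalyticAt ℂ (fun y => J y - c) z := hJ.sub analyticAt_const
  obtain ⟨u, hu, hu0, hJu⟩ := (hJc.analyticOrderAt_eq_natCast (n := 1)).1 (by exact_mod_cast hord)
  obtain ⟨b, hb, hBb⟩ := exists_eq_sub_mul_of_order_pos hB
  have hJu' : ∀ᶠ y in 𝓝 z, J y - c = (y - z) * u y := by
    filter_upwards [hJu] with y hy
    rw [hy, pow_one, smul_eq_mul]
  -- the derivative of `J` near `z`
  have hderiv : ∀ᶠ y in 𝓝 z, deriv J y = u y + (y - z) * deriv u y := by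
    filter_upwards [hJu'.eventually_nhds, hu.eventually_analyticAt] with y hy huy
    have h1 : (fun w => J w - c) =ᶠ[𝓝 y] fun w => (w - z) * u w := hy
    have h2 : deriv (fun w => J w - c) y = deriv J y := deriv_sub_const (f := J) (x := y) c
    have h3 : HasDerivAt (fun w => (w - z) * u w) (1 * u y + (y - z) * deriv u y) y :=
      ((hasDerivAt_id y).sub_const z).mul huy.differentiableAt.hasDerivAt
    rw [← h2, h1.deriv_eq, h3.deriv, one_mul]
  have hune : ∀ᶠ y in 𝓝 z, u y ≠ 0 := hu.continuousAt.eventually_ne hu0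
  refine ⟨fun y => b y + ((m : ℂ) + (y - z) * b y) * deriv u y / u y, ?_, ?_⟩
  · have h1 : AnalyticAt ℂ (fun y => ((m : ℂ) + (y - z) * b y) * deriv u y) z := by
      have hd : AnalyticAt ℂ (deriv u) z := hu.deriv
      fun_prop
    exact hb.add (h1.div hu hu0)
  · filter_upwards [hBb, hJu'.filter_mono nhdsWithin_le_nhds,
      hderiv.filter_mono nhdsWithin_le_nhds, hune.filter_mono nhdsWithin_le_nhds,
      eventually_mem_nhdsWithin] with y hy1 hy2 hy3 hy4 hyne
    have hyz : y - z ≠ 0 := sub_ne_zero.mpr hyne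
    have hfy : f y * ((y - z) * u y) - (m : ℂ) = (y - z) * b y := by
      rw [← hy2]
      exact hy1
    rw [hy3]
    field_simp
    linear_combination (u y + (y - z) * deriv u y) * hfy

/-- **AV-POLE.**  At a good point `σ` where `φ · (j - j(σ)) - m` vanishes, the avatar of `φ · dj`
has (at most) a simple pole with residue `m`. -/
theorem avatar_hasIntRes_int (N : ℕ) [NeZero N] (φ : FN N) (σ : ℍ) (hσ : IsGood σ) (m : ℤ)
    (h : 0 < (Cx.placePt N σ).ord
      (φ * (jBar N - algebraMap ℂ (FN N) (Jfun σ)) - algebraMap ℂ (FN N) (m : ℂ))) :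
    HasIntRes (avatar N φ) (σ : ℂ) m := by
  have hD := Cx.isDict_id N
  have hσU : (σ : ℂ) ∈ U := σ.2
  set c : ℂ := Jfun σ with hc
  set x : FN N := jBar N - algebraMap ℂ (FN N) c with hx
  set y : FN N := φ * x - algebraMap ℂ (FN N) (m : ℂ) with hy
  have hy0 : y ≠ 0 := by
    intro h0
    rw [h0, Place.ord_zero] at h
    exact lt_irrefl _ h
  have hx0 : x ≠ 0 := PtTop.jBar_sub_ne_zero N c
  have hvx : valPt N σ x = 1 := valPt_jBar_sub_generic N c hσ.1 hσ.2 σ rfl
  -- the multiplier at a good point is `1`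
  have hmul : Cx.mulPt N σ = 1 := by
    have h1 := Cx.valPt_eq_mul_ord N σ hx0
    rw [hvx] at h1
    have h2 : ((Cx.mulPt N σ : ℕ) : ℤ) ∣ 1 := ⟨_, h1⟩
    have h3 := Int.eq_one_of_dvd_one (Int.natCast_nonneg _) h2
    exact_mod_cast h3
  have hvy : 0 < valPt N σ y := by
    rw [Cx.valPt_eq_mul_ord N σ hy0, hmul, Nat.cast_one, one_mul]
    exact h
  -- the analytic function of `y`
  have hordy : meromorphicOrderAt (merK (RingHom.id ℂ) N y) (σ : ℂ)
      = ((valPt N σ y : ℤ) : WithTop ℤ) := hD.meromorphicOrderAt_merK y hy0 σ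
  have e1 : merK (RingHom.id ℂ) N y =ᶠ[codiscreteWithin U]
      fun z => merK (RingHom.id ℂ) N φ z * (Jc z - c) - (m : ℂ) := by
    have hyadd : y = φ * x + algebraMap ℂ (FN N) (-(m : ℂ)) := by
      rw [hy, map_neg, sub_eq_add_neg]
    have a1 := hD.merK_add (φ * x) (algebraMap ℂ (FN N) (-(m : ℂ)))
    have a2 := hD.merK_mul φ x
    have a3 := hD.merK_algebraMap (-(m : ℂ))
    have a4 := hD.merK_eq_div_ae x _ _ (JPt.isRep_jBar_sub N c)
    rw [hyadd]
    filter_upwards [a1, a2, a3, a4] with z h1 h2 h3 h4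
    have h5 : evK (RingHom.id ℂ) N (MvPolynomial.X (Fermat.Agent.S24.JPt.d1 N) - MvPolynomial.C c) (ofComplex z)
        = Jc z - c := by
      have := congrFun (JPt.ev_X_d1_sub_C N c) (ofComplex z)
      exact this
    have h6 : evK (RingHom.id ℂ) N (1 : MvPolynomial (Fermat.Agent.S24.Dv N) ℂ) (ofComplex z)
        = 1 := by
      rw [map_one]
      rfl
    rw [h1, h2, h3, h4, h5, h6, div_one, RingHom.id_apply]
    ring
  have e2 := Kummer.eventuallyEq_nhdsNE_of_codiscreteWithin e1 hσU
  have hB : 0 < meromorphicOrderAt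
      (fun z => merK (RingHom.id ℂ) N φ z * (Jc z - c) - (m : ℂ)) (σ : ℂ) := by
    rw [← meromorphicOrderAt_congr e2, hordy]
    exact_mod_cast hvy
  -- `J - c` has a simple zero at `σ`
  have hJord : analyticOrderAt (fun z => Jc z - c) (σ : ℂ) = 1 := by
    have h1 := Fermat.Agent.S24.JPt.ordAt_Jfun_sub σ c
    rw [if_pos rfl, Fermat.Agent.S24.JPt.ellOrder_of_generic σ hσ.1 hσ.2] at h1
    have h2 : (analyticOrderAt (fun z => Jc z - c) (σ : ℂ)).toNat = 1 := by
      have h3 : ((analyticOrderAt (fun z => Jc z - c) (σ : ℂ)).toNat : ℤ) = ((1 : ℕ) : ℤ) := h1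
      exact_mod_cast h3
    exact (ENat.toNat_eq_iff one_ne_zero).1 h2
  exact hasIntRes_mul_deriv_of_simple_zero (analyticAt_Jc hσU) hJord hB

end Fermat.Agent.MW.DivA
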