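import Mathlib
import Fermat.Agent.MW.DivA.AvatarDefs
import Fermat.Agent.MW.DivA.LogPrim
import Fermat.Agent.S24C.Cx
import Fermat.Agent.ESJ.Jac.Kummer

/-!
# MW / DIV-A (row 431, AV-REG): the avatar of a differential regular at a point place

`avatar N φ = merK φ · J'`.  If the differential `φ · dj` is regular at the point place of
`σ ∈ ℍ`, i.e. `ord_v φ + ord_v (j - j(σ)) - 1 ≥ 0`, then the avatar is analytic at `σ` (up to a
removable singularity): `HasIntRes (avatar N φ) σ 0`.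

(helper lemmas in the namespace `Fermat.Agent.MW.DivA.AvatarReg`)

* `merK_jBar_sub_eventuallyEq` : `merK (j - c) = J - c` off a discrete subset of `U`;
* `meromorphicOrderAt_Jc_sub` : the order of `J - J(σ)` at `σ` is `e · ord_v (j - j(σ)) ≥ 1`;
* `meromorphicOrderAt_deriv_Jc` : the order of `J'` at `σ` is `e · ord_v (j - j(σ)) - 1`;
* `meromorphicOrderAt_avatar` : the order of the avatar at `σ`;
* `hasIntRes_zero_of_meromorphicOrderAt_nonneg` : a meromorphic function of order `≥ 0` has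
  `HasIntRes · z 0`;
* `avatar_hasIntRes_zero` : the row's literal target.
-/

set_option autoImplicit false

open UpperHalfPlane Filter Topology AlgebraicCurve CongruenceSubgroup
open scoped MatrixGroups

noncomputable section

namespace Fermat.Agent.MW.DivA

open Fermat.Agent.ESJ.Jac Fermat.Agent.ESJ.Jac.LevelOneMer Fermat.Agent.S24C
open Fermat.Agent.MW.DivA.LogPrim
open Fermat.Agent.S24 (Jfun)

namespace AvatarReg

/-- A point of `ℍ` lies in `U`. -/
theorem coe_mem_U' (σ : ℍ) : (σ : ℂ) ∈ U := σ.im_pos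

/-- A meromorphic function of nonnegative order has (at most) a removable singularity. -/
theorem hasIntRes_zero_of_meromorphicOrderAt_nonneg {g : ℂ → ℂ} {z : ℂ} (hg : MeromorphicAt g z)
    (h0 : 0 ≤ meromorphicOrderAt g z) : HasIntRes g z 0 := by
  have hNF : MeromorphicNFAt (toMeromorphicNFAt g z) z := meromorphicNFAt_toMeromorphicNFAt
  have heq : g =ᶠ[𝓝[≠] z] toMeromorphicNFAt g z := hg.eq_nhdsNE_toMeromorphicNFAt
  have hord : 0 ≤ meromorphicOrderAt (toMeromorphicNFAt g z) z := by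
    rw [← meromorphicOrderAt_congr heq]
    exact h0
  exact (hasIntRes_of_analyticAt (hNF.meromorphicOrderAt_nonneg_iff_analyticAt.mp hord)).congr heq

variable (N : ℕ) [NeZero N]

/-- `merK (j - c) = J - c` off a discrete subset of `U`. -/
theorem merK_jBar_sub_eventuallyEq (c : ℂ) :
    merK (RingHom.id ℂ) N (jBar N - algebraMap ℂ (FN N) c) =ᶠ[codiscreteWithin U]
      fun z => Jc z - c := by
  have h := (Cx.isDict_id N).merK_eq_div_ae _ _ _ (JPt.isRep_jBar_sub N c)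
  refine h.trans (Eventually.of_forall fun z => ?_)
  have e1 : evK (RingHom.id ℂ) N
      (MvPolynomial.X (Fermat.Agent.S24.JPt.d1 N) - MvPolynomial.C c) =
      fun z => Jfun z - c := JPt.ev_X_d1_sub_C N c
  show evK (RingHom.id ℂ) N (MvPolynomial.X (Fermat.Agent.S24.JPt.d1 N) - MvPolynomial.C c)
      (ofComplex z) / evK (RingHom.id ℂ) N 1 (ofComplex z) = Jc z - c
  rw [e1, map_one, Pi.one_apply, div_one]
  rfl

/-- The order of `J - J(σ)` at `σ` is `e · ord_v (j - j(σ))`, `e` the multiplier of the point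
place `v` of `σ`. -/
theorem meromorphicOrderAt_Jc_sub (σ : ℍ) :
    meromorphicOrderAt (fun z => Jc z - Jfun σ) (σ : ℂ) =
      (((Cx.mulPt N σ : ℤ) * (Cx.placePt N σ).ord (jBar N - algebraMap ℂ (FN N) (Jfun σ)) : ℤ) :
        WithTop ℤ) := by
  have hne : jBar N - algebraMap ℂ (FN N) (Jfun σ) ≠ 0 := PtTop.jBar_sub_ne_zero N (Jfun σ)
  have h1 := (Cx.isDict_id N).meromorphicOrderAt_merK _ hne σ
  have h2 := meromorphicOrderAt_congr (Fermat.Agent.ESJ.Jac.Kummer.eventuallyEq_nhdsNE_of_codiscreteWithin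
    (merK_jBar_sub_eventuallyEq N (Jfun σ)) (coe_mem_U' σ))
  rw [← h2, h1]
  have h3 : valPtK (RingHom.id ℂ) N σ (jBar N - algebraMap ℂ (FN N) (Jfun σ)) =
      (Cx.mulPt N σ : ℤ) * (Cx.placePt N σ).ord (jBar N - algebraMap ℂ (FN N) (Jfun σ)) :=
    Cx.valPt_eq_mul_ord N σ hne
  rw [h3]

/-- `e · ord_v (j - j(σ)) ≥ 1`. -/
theorem one_le_mulPt_mul_ord_jBar_sub (σ : ℍ) :
    1 ≤ (Cx.mulPt N σ : ℤ) * (Cx.placePt N σ).ord (jBar N - algebraMap ℂ (FN N) (Jfun σ)) := by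
  have hne : jBar N - algebraMap ℂ (FN N) (Jfun σ) ≠ 0 := PtTop.jBar_sub_ne_zero N (Jfun σ)
  have h3 : valPt N σ (jBar N - algebraMap ℂ (FN N) (Jfun σ)) =
      (Cx.mulPt N σ : ℤ) * (Cx.placePt N σ).ord (jBar N - algebraMap ℂ (FN N) (Jfun σ)) :=
    Cx.valPt_eq_mul_ord N σ hne
  have h4 : 0 < valPt N σ (jBar N - algebraMap ℂ (FN N) (Jfun σ)) :=
    (PtTop.valPt_jBar_sub_pos_iff N σ (Jfun σ)).mpr rfl
  rw [h3] at h4
  exact h4

/-- The order of `J'` at `σ` is `e · ord_v (j - j(σ)) - 1`. -/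
theorem meromorphicOrderAt_deriv_Jc (σ : ℍ) :
    meromorphicOrderAt (deriv Jc) (σ : ℂ) =
      (((Cx.mulPt N σ : ℤ) * (Cx.placePt N σ).ord (jBar N - algebraMap ℂ (FN N) (Jfun σ)) - 1 : ℤ) :
        WithTop ℤ) := by
  have hk := one_le_mulPt_mul_ord_jBar_sub N σ
  have hk0 : (((Cx.mulPt N σ : ℤ) *
      (Cx.placePt N σ).ord (jBar N - algebraMap ℂ (FN N) (Jfun σ)) : ℤ) : ℂ) ≠ 0 := by
    exact_mod_cast (by omega : (Cx.mulPt N σ : ℤ) *
      (Cx.placePt N σ).ord (jBar N - algebraMap ℂ (FN N) (Jfun σ)) ≠ 0)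
  have h := meromorphicOrderAt_deriv_eq_sub_one hk0 (meromorphicOrderAt_Jc_sub N σ)
  have hd : deriv (fun z => Jc z - Jfun σ) = deriv Jc := by
    funext z
    exact deriv_sub_const (Jfun σ)
  rw [hd] at h
  exact h

/-- The order of the avatar at `σ`: `e · (ord_v φ + ord_v (j - j(σ))) - 1`. -/
theorem meromorphicOrderAt_avatar (φ : FN N) (hφ : φ ≠ 0) (σ : ℍ) :
    meromorphicOrderAt (avatar N φ) (σ : ℂ) =
      (((Cx.mulPt N σ : ℤ) * ((Cx.placePt N σ).ord φ +
        (Cx.placePt N σ).ord (jBar N - algebraMap ℂ (FN N) (Jfun σ))) - 1 : ℤ) : WithTop ℤ) := by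
  have hm1 : MeromorphicAt (merK (RingHom.id ℂ) N φ) (σ : ℂ) :=
    (Cx.isDict_id N).meromorphicOn_merK φ (σ : ℂ) (coe_mem_U' σ)
  have hm2 : MeromorphicAt (deriv Jc) (σ : ℂ) :=
    (analyticAt_Jc (coe_mem_U' σ)).deriv.meromorphicAt
  have h1 := (Cx.isDict_id N).meromorphicOrderAt_merK φ hφ σ
  have h3 : valPtK (RingHom.id ℂ) N σ φ = (Cx.mulPt N σ : ℤ) * (Cx.placePt N σ).ord φ :=
    Cx.valPt_eq_mul_ord N σ hφ
  have h4 : avatar N φ = merK (RingHom.id ℂ) N φ * deriv Jc := rfl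
  rw [h4, meromorphicOrderAt_mul hm1 hm2, h1, h3, meromorphicOrderAt_deriv_Jc N σ,
    ← WithTop.coe_add]
  congr 1
  ring

/-- Meromorphy of the avatar at every point of `ℍ`. -/
theorem meromorphicAt_avatar (φ : FN N) (σ : ℍ) : MeromorphicAt (avatar N φ) (σ : ℂ) :=
  ((Cx.isDict_id N).meromorphicOn_merK φ (σ : ℂ) (coe_mem_U' σ)).mul
    (analyticAt_Jc (coe_mem_U' σ)).deriv.meromorphicAt

end AvatarReg

open AvatarReg in
/-- **AV-REG.**  The avatar of a differential `φ · dj` which is regular at the point place of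
`σ` has a removable singularity at `σ`. -/
theorem avatar_hasIntRes_zero (N : ℕ) [NeZero N] (φ : FN N) (hφ : φ ≠ 0) (σ : ℍ)
    (h : 0 ≤ (Cx.placePt N σ).ord φ +
      (Cx.placePt N σ).ord (jBar N - algebraMap ℂ (FN N) (Jfun σ)) - 1) :
    HasIntRes (avatar N φ) (σ : ℂ) 0 := by
  refine hasIntRes_zero_of_meromorphicOrderAt_nonneg (meromorphicAt_avatar N φ σ) ?_
  rw [meromorphicOrderAt_avatar N φ hφ σ]
  have he : (1 : ℤ) ≤ (Cx.mulPt N σ : ℤ) := by
    have := PlaceDict.mulPt_pos N σ (Cx.isAlgPt σ)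
    have h' : 0 < Cx.mulPt N σ := this
    exact_mod_cast h'
  have hnn : (0 : ℤ) ≤ (Cx.mulPt N σ : ℤ) * ((Cx.placePt N σ).ord φ +
      (Cx.placePt N σ).ord (jBar N - algebraMap ℂ (FN N) (Jfun σ))) - 1 := by
    nlinarith
  exact_mod_cast hnn

end Fermat.Agent.MW.DivA
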