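import Mathlib
import Fermat.Agent.MW.DivA.Defs
import Fermat.Agent.ESJ.Jac.Kummer

/-!
# MW / DIV-A : the cusp half of `MultFn` (row 411)

* `exists_limit_of_logDeriv_decay` (pure analysis): a nowhere vanishing holomorphic function `H`
  on a half plane `{Y < Im z}` whose logarithmic derivative decays exponentially and which
  satisfies `H (z + w) = ε * H z` has `ε = 1` and a nonzero limit as `Im z → ∞`.
* `isPE_cuspLim` : a logarithmic primitive `h` on the upper half plane of a function `g` with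
  exponential decay at the cusps, with a multiplier `χ` on `Γ₀(N)`, has `χ` trivial on `±1`, on
  the elliptic and on the parabolic elements, and `h` has a nonzero limit at every cusp.
* `exists_multiplier_of_isLogPrim` : the multiplier character of a logarithmic primitive of a
  `Γ`-invariant differential.
* `exists_multFn'` : the resulting statement of row 411.
-/

set_option autoImplicit false

open Complex Filter Topology Set MeasureTheory UpperHalfPlane CongruenceSubgroup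
open scoped MatrixGroups

noncomputable section

namespace Fermat.Agent.MW.DivA.CuspHalf

open Fermat.Agent.ESJ.Jac Fermat.Agent.MW.DivA.LogPrim

/-! ### Part 1: pure analysis -/

/-- The linear ODE `f' = a f` on an open interval of the real line. -/
theorem ode_exp {f a : ℝ → ℂ} {S : Set ℝ} (hS : IsOpen S) (hSc : S.OrdConnected)
    (ha : ContinuousOn a S) (hf : ∀ t ∈ S, HasDerivAt f (a t * f t) t) {t₁ t₂ : ℝ}
    (h1 : t₁ ∈ S) (h2 : t₂ ∈ S) :
    f t₂ = f t₁ * Complex.exp (∫ t in t₁..t₂, a t) := by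
  have hint : ∀ t ∈ S, HasDerivAt (fun u => ∫ x in t₁..u, a x) (a t) t := by
    intro t ht
    have huIcc : Set.uIcc t₁ t ⊆ S := hSc.uIcc_subset h1 ht
    exact intervalIntegral.integral_hasDerivAt_right ((ha.mono huIcc).intervalIntegrable)
      (ha.stronglyMeasurableAtFilter hS t ht) (ha.continuousAt (hS.mem_nhds ht))
  set u : ℝ → ℂ := fun t => f t * Complex.exp (-(∫ x in t₁..t, a x)) with hu
  have hud : ∀ t ∈ S, HasDerivAt u 0 t := by
    intro t ht
    have h3 := (hf t ht).mul ((hint t ht).neg.cexp)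
    refine h3.congr_deriv ?_
    ring
  have hconst : u t₂ = u t₁ :=
    hS.is_const_of_deriv_eq_zero hSc.isPreconnected
      (fun t ht => (hud t ht).differentiableAt.differentiableWithinAt)
      (fun t ht => (hud t ht).deriv) h2 h1
  have h4 : u t₁ = f t₁ := by simp [hu]
  rw [h4] at hconst
  rw [← hconst, hu]
  simp only
  rw [mul_assoc, ← Complex.exp_add, neg_add_cancel, Complex.exp_zero, mul_one]

section Analysis

variable {H : ℂ → ℂ} {Y C c : ℝ}

theorem continuousAt_logDeriv {z : ℂ} (hH : AnalyticAt ℂ H z) (h0 : H z ≠ 0) :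
    ContinuousAt (logDeriv H) z := by
  have : logDeriv H = fun w => deriv H w / H w := by
    ext w
    rw [logDeriv_apply]
  rw [this]
  exact (hH.deriv.div hH h0).continuousAt

theorem hasDerivAt_of_logDeriv {z : ℂ} (hH : AnalyticAt ℂ H z) (h0 : H z ≠ 0) :
    HasDerivAt H (logDeriv H z * H z) z := by
  rw [logDeriv_apply, div_mul_cancel₀ _ h0]
  exact hH.differentiableAt.hasDerivAt

/-- Horizontal transport: `H (z + x) = H z * exp κ` with `κ` small. -/
theorem horizontal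
    (hH : ∀ z : ℂ, Y < z.im →
      AnalyticAt ℂ H z ∧ H z ≠ 0 ∧ ‖logDeriv H z‖ ≤ C * Real.exp (-c * z.im))
    {z : ℂ} (hz : Y < z.im) (x : ℝ) :
    ∃ κ : ℂ, ‖κ‖ ≤ C * Real.exp (-c * z.im) * |x| ∧ H (z + x) = H z * Complex.exp κ := by
  have him : ∀ t : ℝ, (z + (t : ℂ)).im = z.im := fun t => by simp
  have hode := ode_exp (f := fun t : ℝ => H (z + (t : ℂ)))
    (a := fun t : ℝ => logDeriv H (z + (t : ℂ))) (S := Set.univ) isOpen_univ
    Set.ordConnected_univ ?_ ?_ (Set.mem_univ 0) (Set.mem_univ x)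
  · refine ⟨∫ t in (0 : ℝ)..x, logDeriv H (z + (t : ℂ)), ?_, ?_⟩
    · have := intervalIntegral.norm_integral_le_of_norm_le_const (a := 0) (b := x)
        (C := C * Real.exp (-c * z.im)) (f := fun t : ℝ => logDeriv H (z + (t : ℂ)))
        (fun t _ => by
          have := (hH (z + (t : ℂ)) (by rw [him]; exact hz)).2.2
          rwa [him] at this)
      simpa using this
    · simpa using hode
  · refine continuousOn_univ.mpr (continuous_iff_continuousAt.mpr fun t => ?_)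
    have h1 := hH (z + (t : ℂ)) (by rw [him]; exact hz)
    have h2 : ContinuousAt (fun t : ℝ => z + (t : ℂ)) t := by fun_prop
    exact ContinuousAt.comp (g := logDeriv H) (continuousAt_logDeriv h1.1 h1.2.1) h2
  · intro t _
    have h1 := hH (z + (t : ℂ)) (by rw [him]; exact hz)
    have h2 := hasDerivAt_of_logDeriv h1.1 h1.2.1
    exact (HasDerivAt.comp_const_add z (t : ℂ) h2).comp_ofReal

/-- Vertical limit: `H (x + i y)` has a nonzero limit as `y → ∞`. -/
theorem vertical (hc : 0 < c)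
    (hH : ∀ z : ℂ, Y < z.im →
      AnalyticAt ℂ H z ∧ H z ≠ 0 ∧ ‖logDeriv H z‖ ≤ C * Real.exp (-c * z.im))
    (x : ℝ) :
    ∃ L : ℂ, L ≠ 0 ∧ Tendsto (fun y : ℝ => H ((x : ℂ) + (y : ℂ) * Complex.I)) atTop (𝓝 L) := by
  have him : ∀ t : ℝ, ((x : ℂ) + (t : ℂ) * Complex.I).im = t := fun t => by simp
  set a : ℝ → ℂ := fun t => Complex.I * logDeriv H ((x : ℂ) + (t : ℂ) * Complex.I) with ha
  have hacont : ContinuousOn a (Set.Ioi Y) := by
    intro t ht
    have h1 := hH ((x : ℂ) + (t : ℂ) * Complex.I) (by rw [him]; exact ht)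
    have h2 : ContinuousAt (fun t : ℝ => (x : ℂ) + (t : ℂ) * Complex.I) t := by fun_prop
    have h3 : ContinuousAt (fun t : ℝ => logDeriv H ((x : ℂ) + (t : ℂ) * Complex.I)) t :=
      ContinuousAt.comp (g := logDeriv H) (continuousAt_logDeriv h1.1 h1.2.1) h2
    exact (continuousAt_const.mul h3).continuousWithinAt
  have hode : ∀ t₁ ∈ Set.Ioi Y, ∀ t₂ ∈ Set.Ioi Y,
      H ((x : ℂ) + (t₂ : ℂ) * Complex.I)
        = H ((x : ℂ) + (t₁ : ℂ) * Complex.I) * Complex.exp (∫ t in t₁..t₂, a t) := by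
    intro t₁ h1 t₂ h2
    refine ode_exp (f := fun t : ℝ => H ((x : ℂ) + (t : ℂ) * Complex.I)) (a := a)
      isOpen_Ioi Set.ordConnected_Ioi hacont ?_ h1 h2
    intro t ht
    have h1 := hH ((x : ℂ) + (t : ℂ) * Complex.I) (by rw [him]; exact ht)
    have h2 := hasDerivAt_of_logDeriv h1.1 h1.2.1
    have h3 : HasDerivAt (fun w : ℂ => (x : ℂ) + w * Complex.I) Complex.I (t : ℂ) := by
      simpa using ((hasDerivAt_id (t : ℂ)).mul_const Complex.I).const_add (x : ℂ)
    have h4 := (HasDerivAt.comp (t : ℂ) h2 h3).comp_ofReal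
    refine h4.congr_deriv ?_
    ring
  set y₀ : ℝ := Y + 1 with hy₀
  have hy₀Y : Y < y₀ := by rw [hy₀]; linarith
  have hinteg : IntegrableOn a (Set.Ioi y₀) := by
    have hg : IntegrableOn (fun t : ℝ => C * Real.exp (-c * t)) (Set.Ioi y₀) :=
      (exp_neg_integrableOn_Ioi y₀ hc).const_mul C
    refine Integrable.mono' hg ?_ ?_
    · exact (hacont.mono (Set.Ioi_subset_Ioi hy₀Y.le)).aestronglyMeasurable measurableSet_Ioi
    · refine (ae_restrict_iff' measurableSet_Ioi).mpr (Eventually.of_forall fun t ht => ?_)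
      have h1 := (hH ((x : ℂ) + (t : ℂ) * Complex.I)
        (by rw [him]; exact hy₀Y.trans ht)).2.2
      rw [him] at h1
      simpa [ha] using h1
  have hlim := intervalIntegral_tendsto_integral_Ioi y₀ hinteg tendsto_id
  refine ⟨H ((x : ℂ) + (y₀ : ℂ) * Complex.I) * Complex.exp (∫ t in Set.Ioi y₀, a t), ?_, ?_⟩
  · exact mul_ne_zero (hH _ (by rw [him]; exact hy₀Y)).2.1 (Complex.exp_ne_zero _)
  · have h5 : Tendsto (fun y : ℝ => H ((x : ℂ) + (y₀ : ℂ) * Complex.I)
        * Complex.exp (∫ t in y₀..y, a t)) atTop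
        (𝓝 (H ((x : ℂ) + (y₀ : ℂ) * Complex.I) * Complex.exp (∫ t in Set.Ioi y₀, a t))) :=
      tendsto_const_nhds.mul ((Complex.continuous_exp.tendsto _).comp hlim)
    refine h5.congr' ?_
    filter_upwards [eventually_gt_atTop Y] with y hy
    exact (hode y₀ hy₀Y y hy).symm

/-- **Cusp limit.** A nowhere vanishing holomorphic function on a half plane whose logarithmic
derivative decays exponentially and which is periodic up to a constant `ε` is periodic (`ε = 1`)
and has a nonzero limit as `Im z → ∞`. -/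
theorem exists_limit_of_logDeriv_decay {w : ℝ} {ε : ℂ} (hc : 0 < c) (hw : w ≠ 0)
    (hH : ∀ z : ℂ, Y < z.im →
      AnalyticAt ℂ H z ∧ H z ≠ 0 ∧ ‖logDeriv H z‖ ≤ C * Real.exp (-c * z.im))
    (hper : ∀ z : ℂ, Y < z.im → H (z + w) = ε * H z) :
    ε = 1 ∧ ∃ L : ℂ, L ≠ 0 ∧ Tendsto H (comap Complex.im atTop) (𝓝 L) := by
  -- the decaying bound
  set b : ℝ → ℝ := fun y => 2 * (C * Real.exp (-c * y) * |w|) with hb
  have hb0 : Tendsto b atTop (𝓝 0) := by
    have h1 : Tendsto (fun y : ℝ => Real.exp (-c * y)) atTop (𝓝 0) := by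
      have h2 : Tendsto (fun y : ℝ => -c * y) atTop atBot := by
        have := tendsto_id.const_mul_atTop_of_neg (neg_neg_of_pos hc) (f := fun y : ℝ => y)
        simpa using this
      exact Real.tendsto_exp_atBot.comp h2
    have h3 := ((h1.const_mul C).mul_const |w|).const_mul 2
    simpa [hb] using h3
  have hC : 0 ≤ C := by
    have h1 := (hH ((Y + 1 : ℝ) * Complex.I) (by simp)).2.2
    have h2 := (norm_nonneg _).trans h1
    exact nonneg_of_mul_nonneg_left h2 (Real.exp_pos _)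
  -- `H z = H (i Im z) * exp κ` with `κ` small, for horizontal displacements of size `≤ |w|`
  have hstep : ∀ z : ℂ, Y < z.im → ∀ x : ℝ, |x| ≤ |w| → C * Real.exp (-c * z.im) * |w| ≤ 1 →
      ‖H (z + x) / H z - 1‖ ≤ b z.im := by
    intro z hz x hx hsmall
    obtain ⟨κ, hκ, hκe⟩ := horizontal hH hz x
    have h1 : ‖κ‖ ≤ C * Real.exp (-c * z.im) * |w| :=
      hκ.trans (mul_le_mul_of_nonneg_left hx (mul_nonneg hC (Real.exp_pos _).le))
    rw [hκe, mul_div_cancel_left₀ _ (hH z hz).2.1]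
    calc ‖Complex.exp κ - 1‖ ≤ 2 * ‖κ‖ := Complex.norm_exp_sub_one_le (h1.trans hsmall)
      _ ≤ b z.im := by
        rw [hb]
        exact mul_le_mul_of_nonneg_left h1 (by norm_num)
  have hsmall_ev : ∀ᶠ y : ℝ in atTop, C * Real.exp (-c * y) * |w| ≤ 1 ∧ Y < y := by
    have h1 : ∀ᶠ y : ℝ in atTop, b y < 2 := hb0.eventually (gt_mem_nhds (by norm_num))
    filter_upwards [h1, eventually_gt_atTop Y] with y hy hy2
    refine ⟨?_, hy2⟩
    simp only [hb] at hy
    linarith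
  -- `ε = 1`
  have hε : ε = 1 := by
    have h1 : ‖ε - 1‖ ≤ 0 := by
      refine ge_of_tendsto hb0 ?_
      filter_upwards [hsmall_ev] with y hy
      have hz : Y < ((y : ℂ) * Complex.I).im := by simpa using hy.2
      have h2 := hstep ((y : ℂ) * Complex.I) hz w le_rfl (by simpa using hy.1)
      rw [hper _ hz, mul_div_cancel_right₀ _ (hH _ hz).2.1] at h2
      simpa using h2
    exact sub_eq_zero.mp (norm_le_zero_iff.mp h1)
  refine ⟨hε, ?_⟩
  rw [hε] at hper
  -- periodicity under integer multiples of `w`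
  have hperN : ∀ n : ℕ, ∀ z : ℂ, Y < z.im → H (z + (n : ℂ) * (w : ℂ)) = H z := by
    intro n
    induction n with
    | zero => intro z _; simp
    | succ n ih =>
      intro z hz
      have h1 : z + ((n + 1 : ℕ) : ℂ) * (w : ℂ) = (z + (n : ℂ) * (w : ℂ)) + (w : ℂ) := by
        push_cast
        ring
      have h2 : Y < (z + (n : ℂ) * (w : ℂ)).im := by simpa using hz
      rw [h1, hper _ h2, one_mul, ih z hz]
  have hperZ : ∀ k : ℤ, ∀ z : ℂ, Y < z.im → H (z + (k : ℂ) * (w : ℂ)) = H z := by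
    intro k z hz
    obtain ⟨n, rfl | rfl⟩ := Int.eq_nat_or_neg k
    · simpa using hperN n z hz
    · have h2 : Y < (z + ((-(n : ℤ) : ℤ) : ℂ) * (w : ℂ)).im := by simpa using hz
      have h3 := hperN n _ h2
      have h1 : z + ((-(n : ℤ) : ℤ) : ℂ) * (w : ℂ) + (n : ℂ) * (w : ℂ) = z := by
        push_cast
        ring
      rw [h1] at h3
      exact h3.symm
  obtain ⟨L, hL0, hL⟩ := vertical hc hH 0
  refine ⟨L, hL0, ?_⟩
  -- `H z / H (i Im z) → 1`
  have hE : Tendsto (fun z : ℂ => H z / H ((z.im : ℂ) * Complex.I)) (comap Complex.im atTop)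
      (𝓝 1) := by
    rw [tendsto_iff_norm_sub_tendsto_zero]
    refine squeeze_zero' (Eventually.of_forall fun z => norm_nonneg _)
      ?_ (hb0.comp tendsto_comap)
    filter_upwards [tendsto_comap.eventually hsmall_ev] with z hz
    set k : ℤ := ⌊z.re / w⌋ with hk
    set x : ℝ := w * Int.fract (z.re / w) with hx
    have hxw : |x| ≤ |w| := by
      rw [hx, abs_mul]
      have h1 : |Int.fract (z.re / w)| ≤ 1 := by
        rw [abs_of_nonneg (Int.fract_nonneg _)]
        exact (Int.fract_lt_one _).le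
      calc |w| * |Int.fract (z.re / w)| ≤ |w| * 1 := mul_le_mul_of_nonneg_left h1 (abs_nonneg _)
        _ = |w| := mul_one _
    have hz0 : Y < ((z.im : ℂ) * Complex.I).im := by simpa using hz.2
    have hdecomp : z = ((z.im : ℂ) * Complex.I + (x : ℂ)) + (k : ℂ) * (w : ℂ) := by
      have h1 : z.re = x + k * w := by
        have h7 := Int.fract_add_floor (z.re / w)
        calc z.re = w * (z.re / w) := by field_simp
          _ = w * (Int.fract (z.re / w) + (⌊z.re / w⌋ : ℝ)) := by rw [h7]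
          _ = x + k * w := by rw [hx, hk]; ring
      apply Complex.ext
      · simp [h1]
      · simp
    have h2 : H z = H ((z.im : ℂ) * Complex.I + (x : ℂ)) := by
      conv_lhs => rw [hdecomp]
      exact hperZ k _ (by simpa using hz.2)
    have h3 := hstep ((z.im : ℂ) * Complex.I) hz0 x hxw (by simpa using hz.1)
    rw [← h2] at h3
    simpa using h3
  have h6 : Tendsto (fun z : ℂ => H ((z.im : ℂ) * Complex.I) * (H z / H ((z.im : ℂ) * Complex.I)))
      (comap Complex.im atTop) (𝓝 (L * 1)) := by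
    refine Tendsto.mul ?_ hE
    have := hL.comp (tendsto_comap (f := Complex.im) (x := atTop))
    simpa [Function.comp_def] using this
  rw [mul_one] at h6
  refine h6.congr' ?_
  filter_upwards [tendsto_comap.eventually (eventually_gt_atTop Y)] with z hz
  have hz0 : Y < ((z.im : ℂ) * Complex.I).im := by simpa using hz
  rw [mul_div_cancel₀ _ (hH _ hz0).2.1]

end Analysis

/-! ### Part 2: logarithmic primitives along Möbius maps -/

/-- At a point `mob s z` where `g` is analytic, a logarithmic primitive `h` of `g` is analytic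
and does not vanish, and the logarithmic derivative of `h ∘ mob s` at `z` is the pull-back
of `g`. -/
theorem comp_mob_facts {g h : ℂ → ℂ} (hlog : IsLogPrim g h U) (s : SL(2, ℤ)) {z : ℂ}
    (hz : z ∈ U) (hg : AnalyticAt ℂ g (mob s z)) :
    AnalyticAt ℂ (fun w => h (mob s w)) z ∧ h (mob s z) ≠ 0 ∧
      logDeriv (fun w => h (mob s w)) z = g (mob s z) * deriv (mob s) z := by
  have hp : mob s z ∈ U := mob_mem_U s hz
  have hord : meromorphicOrderAt h (mob s z) = ((0 : ℤ) : WithTop ℤ) :=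
    hlog.order_eq hp (hasIntRes_of_analyticAt hg)
  have hNF : MeromorphicNFAt h (mob s z) := hlog.1 hp
  have han : AnalyticAt ℂ h (mob s z) := by
    rw [← hNF.meromorphicOrderAt_nonneg_iff_analyticAt, hord]
    exact le_rfl
  have hne : h (mob s z) ≠ 0 := by
    rw [← hNF.meromorphicOrderAt_eq_zero_iff, hord]
    rfl
  have hlogd : logDeriv h (mob s z) = g (mob s z) := by
    have h1 := hlog.2.2 (mob s z) hp
    have h2 := (ContinuousAt.eventuallyEq_nhds_iff_eventuallyEq_nhdsNE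
      (continuousAt_logDeriv han hne) hg.continuousAt).mp h1
    exact h2.eq_of_nhds
  refine ⟨?_, hne, ?_⟩
  · exact AnalyticAt.comp (g := h) han (analyticAt_mob s hz)
  · have h3 := logDeriv_comp (f := h) (g := mob s) (x := z) han.differentiableAt
      (analyticAt_mob s hz).differentiableAt
    rw [← hlogd, ← h3]
    rfl

theorem mob_T_zpow (k : ℤ) (z : ℂ) : mob (ModularGroup.T ^ k) z = z + (k : ℂ) := by
  simp [mob, ModularGroup.coe_T_zpow]

theorem exists_ne_zero {g h : ℂ → ℂ} (hlog : IsLogPrim g h U) : ∃ z ∈ U, h z ≠ 0 := by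
  have h1 := hlog.eventually I_mem_U
  have h2 : ∀ᶠ y in 𝓝[≠] Complex.I, y ∈ U :=
    eventually_nhdsWithin_of_eventually_nhds (isOpen_U.mem_nhds I_mem_U)
  obtain ⟨y, hy, hyU⟩ := (h1.and h2).exists
  exact ⟨y, hyU, hy.1⟩

/-- Nonzero limits at the cusps and analyticity near the cusps give meromorphy at the cusps. -/
theorem merAtCusps_of_cuspLim {h : ℂ → ℂ} (hlim : CuspLim h)
    (han : ∀ s : SL(2, ℤ), ∃ Y : ℝ, ∀ z : ℂ, Y < z.im →
      AnalyticAt ℂ (fun w => h (mob s w)) z) : MerAtCusps h := by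
  intro s
  obtain ⟨L, -, hL⟩ := hlim s
  obtain ⟨Y, hY⟩ := han s
  have h1 : ∀ᶠ z in comap Complex.im atTop, ‖h (mob s z)‖ < ‖L‖ + 1 :=
    hL.norm.eventually (eventually_lt_nhds (lt_add_one ‖L‖))
  rw [Filter.eventually_comap, eventually_atTop] at h1
  obtain ⟨Y₁, hY₁⟩ := h1
  refine ⟨max (max Y Y₁) 1, ‖L‖ + 1, fun z hz => ⟨hY z ?_, ?_⟩⟩
  · exact lt_of_le_of_lt ((le_max_left Y Y₁).trans (le_max_left _ _)) hz
  · have h2 : Y₁ ≤ z.im := ((le_max_right Y Y₁).trans (le_max_left _ _)).trans hz.le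
    have h3 : (1 : ℝ) ≤ z.im := (le_max_right _ _).trans hz.le
    have h4 := hY₁ z.im h2 z rfl
    have h5 : ‖L‖ + 1 ≤ (‖L‖ + 1) * z.im :=
      le_mul_of_one_le_right (by positivity) h3
    have h6 := Real.add_one_le_exp ((‖L‖ + 1) * z.im)
    linarith

/-! ### Part 3: the character is parabolic-elliptic, and the cusp limits -/

section Main

variable (N : ℕ) [NeZero N] {g h : ℂ → ℂ} {χ : Gamma0 N →* ℂˣ}

omit [NeZero N] in
/-- The local statement at a cusp `s ∞`. -/
theorem cusp_step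
    (hcusp : ∀ s : SL(2, ℤ), ∃ Y C c : ℝ, 0 < c ∧ ∀ z : ℂ, Y < z.im →
        AnalyticAt ℂ g (mob s z) ∧ ‖g (mob s z) * deriv (mob s) z‖ ≤ C * Real.exp (-c * z.im))
    (hlog : IsLogPrim g h U) (hmult : HasMultiplier (Gamma0 N) h χ)
    (s : SL(2, ℤ)) (k : ℤ) (hk : k ≠ 0) (γ : Gamma0 N)
    (hγ : (γ : SL(2, ℤ)) * s = s * ModularGroup.T ^ k) :
    χ γ = 1 ∧ (∃ L : ℂ, L ≠ 0 ∧
      Tendsto (fun z => h (mob s z)) (comap Complex.im atTop) (𝓝 L)) ∧
      ∃ Y : ℝ, ∀ z : ℂ, Y < z.im → AnalyticAt ℂ (fun w => h (mob s w)) z := by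
  obtain ⟨Y, C, c, hc, hY⟩ := hcusp s
  have hU : ∀ z : ℂ, max Y 0 < z.im → z ∈ U := fun z hz => lt_of_le_of_lt (le_max_right Y 0) hz
  have hH : ∀ z : ℂ, max Y 0 < z.im →
      AnalyticAt ℂ (fun w => h (mob s w)) z ∧ (fun w => h (mob s w)) z ≠ 0 ∧
        ‖logDeriv (fun w => h (mob s w)) z‖ ≤ C * Real.exp (-c * z.im) := by
    intro z hz
    have hzY : Y < z.im := lt_of_le_of_lt (le_max_left Y 0) hz
    obtain ⟨h1, h2, h3⟩ := comp_mob_facts hlog s (hU z hz) (hY z hzY).1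
    exact ⟨h1, h2, by rw [h3]; exact (hY z hzY).2⟩
  have hper : ∀ z : ℂ, max Y 0 < z.im →
      (fun w => h (mob s w)) (z + ((k : ℝ) : ℂ)) = (χ γ : ℂ) * (fun w => h (mob s w)) z := by
    intro z hz
    have hzU := hU z hz
    show h (mob s (z + ((k : ℝ) : ℂ))) = (χ γ : ℂ) * h (mob s z)
    rw [Complex.ofReal_intCast, ← mob_T_zpow k z, ← mob_mul s _ hzU, ← hγ, mob_mul _ s hzU]
    exact hmult γ _ (mob_mem_U s hzU)
  obtain ⟨hε, L, hL0, hL⟩ := exists_limit_of_logDeriv_decay hc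
    (w := (k : ℝ)) (Int.cast_ne_zero.mpr hk) hH hper
  exact ⟨Units.ext hε, ⟨L, hL0, hL⟩, max Y 0, fun z hz => (hH z hz).1⟩

/-- **The cusp half of row 411.** -/
theorem isPE_cuspLim (m : ℍ → ℤ)
    (hres : ∀ σ : ℍ, HasIntRes g (σ : ℂ) (m σ))
    (hcusp : ∀ s : SL(2, ℤ), ∃ Y C c : ℝ, 0 < c ∧ ∀ z : ℂ, Y < z.im →
        AnalyticAt ℂ g (mob s z) ∧ ‖g (mob s z) * deriv (mob s) z‖ ≤ C * Real.exp (-c * z.im))
    (hell : ∀ (σ : ℍ) (δ : SL(2, ℤ)), δ ∈ Gamma0 N → δ • σ = σ → δ ≠ 1 → δ ≠ -1 → m σ = 0)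
    (hlog : IsLogPrim g h U) (hmult : HasMultiplier (Gamma0 N) h χ) :
    IsPE (Gamma0 N) χ ∧ CuspLim h ∧ MerAtCusps h := by
  obtain ⟨z₀, hz₀, hz₀ne⟩ := exists_ne_zero hlog
  -- trace `2`
  have htwo : ∀ γ : Gamma0 N, ((γ : SL(2, ℤ)) : Matrix (Fin 2) (Fin 2) ℤ).trace = 2 →
      χ γ = 1 := by
    intro γ ht
    obtain ⟨g₀, k, hγ⟩ := Kummer.exists_eq_conj_T_zpow (γ : SL(2, ℤ)) ht
    by_cases hk : k = 0
    · have h1 : (γ : SL(2, ℤ)) = 1 := by
        rw [hγ, hk]
        simp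
      have h2 : γ = 1 := Subtype.ext h1
      rw [h2, map_one]
    · refine (cusp_step N hcusp hlog hmult g₀⁻¹ k hk γ ?_).1
      rw [hγ]
      group
  have hcs : ∀ s : SL(2, ℤ), (∃ L : ℂ, L ≠ 0 ∧
      Tendsto (fun z => h (mob s z)) (comap Complex.im atTop) (𝓝 L)) ∧
      ∃ Y : ℝ, ∀ z : ℂ, Y < z.im → AnalyticAt ℂ (fun w => h (mob s w)) z := by
    intro s
    have hmem : (s⁻¹)⁻¹ * ModularGroup.T ^ (N : ℤ) * s⁻¹ ∈ Gamma0 N :=
      (Kummer.conj_T_zpow_mem_Gamma0_iff N s⁻¹ (N : ℤ)).mpr (dvd_mul_right _ _)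
    have hN : (N : ℤ) ≠ 0 := Int.natCast_ne_zero.mpr (NeZero.ne N)
    exact (cusp_step N hcusp hlog hmult s (N : ℤ) hN ⟨_, hmem⟩ (by
      show (s⁻¹)⁻¹ * ModularGroup.T ^ (N : ℤ) * s⁻¹ * s = s * ModularGroup.T ^ (N : ℤ)
      group)).2
  refine ⟨?_, fun s => (hcs s).1, merAtCusps_of_cuspLim (fun s => (hcs s).1)
    (fun s => (hcs s).2)⟩
  · intro γ ht
    have hlt : ((γ : SL(2, ℤ)) : Matrix (Fin 2) (Fin 2) ℤ).trace ^ 2 < 4 ∨
        ((γ : SL(2, ℤ)) : Matrix (Fin 2) (Fin 2) ℤ).trace = 2 ∨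
        ((γ : SL(2, ℤ)) : Matrix (Fin 2) (Fin 2) ℤ).trace = -2 := by
      set t := ((γ : SL(2, ℤ)) : Matrix (Fin 2) (Fin 2) ℤ).trace with htdef
      have h1 : t ≤ 2 := by nlinarith
      have h2 : -2 ≤ t := by nlinarith
      by_cases h3 : t = 2
      · exact Or.inr (Or.inl h3)
      by_cases h4 : t = -2
      · exact Or.inr (Or.inr h4)
      left
      have h5 : t ≤ 1 := by omega
      have h6 : -1 ≤ t := by omega
      nlinarith
    rcases hlt with hlt | h2 | h2
    · -- elliptic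
      obtain ⟨τ, hτ⟩ := Kummer.exists_fixed_of_trace_sq_lt (γ : SL(2, ℤ)) hlt
      have hne1 : (γ : SL(2, ℤ)) ≠ 1 := by
        intro h1
        rw [h1, Kummer.trace_one] at hlt
        norm_num at hlt
      have hne2 : (γ : SL(2, ℤ)) ≠ -1 := by
        intro h1
        rw [h1, Kummer.trace_neg_one] at hlt
        norm_num at hlt
      have hm := hell τ γ γ.2 hτ hne1 hne2
      have hord : meromorphicOrderAt h (τ : ℂ) = ((0 : ℤ) : WithTop ℤ) := by
        have := hlog.order_eq (coe_mem_U τ) (hres τ)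
        rw [hm] at this
        exact this
      have hNF : MeromorphicNFAt h (τ : ℂ) := hlog.1 (coe_mem_U τ)
      have hne : h (τ : ℂ) ≠ 0 := by
        rw [← hNF.meromorphicOrderAt_eq_zero_iff, hord]
        rfl
      have h3 := hmult γ (τ : ℂ) (coe_mem_U τ)
      rw [mob_coe, hτ] at h3
      have h4 : (χ γ : ℂ) = 1 := by
        have h5 : (χ γ : ℂ) * h (τ : ℂ) = 1 * h (τ : ℂ) := by rw [one_mul]; exact h3.symm
        exact mul_right_cancel₀ hne h5
      exact Units.ext h4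
    · exact htwo γ h2
    · -- trace `-2`: pass to `-γ`
      have hmem : -(γ : SL(2, ℤ)) ∈ Gamma0 N := by
        have h3 := γ.2
        rw [Gamma0_mem] at h3 ⊢
        simp [h3]
      have h3 : χ ⟨-(γ : SL(2, ℤ)), hmem⟩ = 1 := by
        refine htwo ⟨-(γ : SL(2, ℤ)), hmem⟩ ?_
        show ((-(γ : SL(2, ℤ)) : SL(2, ℤ)) : Matrix (Fin 2) (Fin 2) ℤ).trace = 2
        rw [Kummer.trace_neg, h2]
        norm_num
      have h4 := hmult ⟨-(γ : SL(2, ℤ)), hmem⟩ z₀ hz₀
      have h5 := hmult γ z₀ hz₀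
      have h6 : mob (-(γ : SL(2, ℤ))) z₀ = mob (γ : SL(2, ℤ)) z₀ := Kummer.mob_neg _ _
      simp only at h4
      rw [h6, h5, h3] at h4
      have h7 : (χ γ : ℂ) = 1 := by
        have h8 : (χ γ : ℂ) * h z₀ = 1 * h z₀ := by simpa using h4
        exact mul_right_cancel₀ hz₀ne h8
      exact Units.ext h7

/-! ### Part 4: the multiplier of a logarithmic primitive -/

omit [NeZero N] in
/-- `h ∘ mob γ` is again a logarithmic primitive of `g` when `g(z) dz` is `γ`-invariant. -/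
theorem isLogPrim_comp_mob (hlog : IsLogPrim g h U) (γ : SL(2, ℤ))
    (hinv : ∀ z ∈ U, (fun y => g (mob γ y) * deriv (mob γ) y) =ᶠ[𝓝[≠] z] g) :
    IsLogPrim g (fun z => h (mob γ z)) U := by
  refine ⟨fun z hz => ?_, fun z hz => ?_, fun z hz => ?_⟩
  · exact (hlog.1 (mob_mem_U γ hz)).comp_analyticAt (analyticAt_mob γ hz)
  · have h1 := (tendsto_mob_nhdsNE γ hz).eventually (hlog.eventually (mob_mem_U γ hz))
    have hmer : MeromorphicAt (fun z => h (mob γ z)) z :=
      ((hlog.1 (mob_mem_U γ hz)).comp_analyticAt (analyticAt_mob γ hz)).meromorphicAt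
    rw [meromorphicOrderAt_ne_top_iff_eventually_ne_zero hmer]
    exact h1.mono fun y hy => hy.1
  · have h1 := (tendsto_mob_nhdsNE γ hz).eventually (hlog.eventually (mob_mem_U γ hz))
    have h2 := (tendsto_mob_nhdsNE γ hz).eventually (hlog.2.2 _ (mob_mem_U γ hz))
    have h3 : ∀ᶠ y in 𝓝[≠] z, y ∈ U :=
      eventually_nhdsWithin_of_eventually_nhds (isOpen_U.mem_nhds hz)
    filter_upwards [h1, h2, h3, hinv z hz] with y hy1 hy2 hy3 hy4
    have h4 := logDeriv_comp (f := h) (g := mob γ) (x := y) hy1.2.differentiableAt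
      (analyticAt_mob γ hy3).differentiableAt
    have h5 : logDeriv (fun z => h (mob γ z)) y = logDeriv h (mob γ y) * deriv (mob γ) y := h4
    rw [h5, hy2]
    exact hy4

omit [NeZero N] in
/-- **The multiplier character of a logarithmic primitive** of a `Γ`-invariant differential. -/
theorem exists_multiplier_of_isLogPrim (Γ : Subgroup SL(2, ℤ)) (hlog : IsLogPrim g h U)
    (hinv : ∀ γ ∈ Γ, ∀ z ∈ U, (fun y => g (mob γ y) * deriv (mob γ) y) =ᶠ[𝓝[≠] z] g) :
    ∃ χ : Γ →* ℂˣ, HasMultiplier Γ h χ := by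
  obtain ⟨z₀, hz₀, hz₀ne⟩ := exists_ne_zero hlog
  have hex : ∀ γ : Γ, ∃ c : ℂ, c ≠ 0 ∧ ∀ z ∈ U, h (mob (γ : SL(2, ℤ)) z) = c * h z := fun γ =>
    IsLogPrim.eq_const_mul isOpen_U isPreconnected_U
      (isLogPrim_comp_mob hlog (γ : SL(2, ℤ)) (hinv γ γ.2)) hlog
  choose c hc0 hc using hex
  have huniq : ∀ (γ : Γ) (d : ℂ), (∀ z ∈ U, h (mob (γ : SL(2, ℤ)) z) = d * h z) → c γ = d := by
    intro γ d hd
    have h1 := hc γ z₀ hz₀
    rw [hd z₀ hz₀] at h1
    exact (mul_right_cancel₀ hz₀ne h1).symm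
  refine ⟨{ toFun := fun γ => Units.mk0 (c γ) (hc0 γ), map_one' := ?_, map_mul' := ?_ }, ?_⟩
  · apply Units.ext
    show c 1 = 1
    refine huniq 1 1 fun z _ => ?_
    rw [one_mul]
    show h (mob 1 z) = h z
    rw [mob_one]
  · intro γ γ'
    apply Units.ext
    show c (γ * γ') = c γ * c γ'
    refine huniq (γ * γ') _ fun z hz => ?_
    show h (mob ((γ : SL(2, ℤ)) * (γ' : SL(2, ℤ))) z) = c γ * c γ' * h z
    rw [mob_mul _ _ hz, hc γ _ (mob_mem_U _ hz), hc γ' z hz, mul_assoc]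
  · intro γ z hz
    exact hc γ z hz

/-- **Row 411 (`MultFn`).** From a `Γ₀(N)`-invariant differential `g(z) dz` with integral
residues on the upper half plane, vanishing residues at the elliptic points and exponential
decay at the cusps, to a multiplicative function `h` with `dh / h = g dz`, whose character is
trivial on `±1`, on the elliptic and on the parabolic elements, and which has nonzero limits at
all cusps. -/
theorem exists_multFn' (g : ℂ → ℂ) (m : ℍ → ℤ)
    (hres : ∀ σ : ℍ, HasIntRes g (σ : ℂ) (m σ))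
    (hinv : ∀ γ ∈ Gamma0 N, ∀ z ∈ U, (fun y => g (mob γ y) * deriv (mob γ) y) =ᶠ[𝓝[≠] z] g)
    (hcusp : ∀ s : SL(2, ℤ), ∃ Y C c : ℝ, 0 < c ∧ ∀ z : ℂ, Y < z.im →
        AnalyticAt ℂ g (mob s z) ∧ ‖g (mob s z) * deriv (mob s) z‖ ≤ C * Real.exp (-c * z.im))
    (hell : ∀ (σ : ℍ) (δ : SL(2, ℤ)), δ ∈ Gamma0 N → δ • σ = σ → δ ≠ 1 → δ ≠ -1 → m σ = 0) :
    ∃ (h : ℂ → ℂ) (χ : Gamma0 N →* ℂˣ), IsLogPrim g h U ∧ HasMultiplier (Gamma0 N) h χ ∧
      IsPE (Gamma0 N) χ ∧ CuspLim h ∧ MerAtCusps h := by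
  obtain ⟨h, hlog⟩ := exists_isLogPrim_upperHalfPlane (g := g)
    (fun z hz => ⟨m ⟨z, hz⟩, hres ⟨z, hz⟩⟩)
  have hlog' : IsLogPrim g h U := hlog
  obtain ⟨χ, hmult⟩ := exists_multiplier_of_isLogPrim (Gamma0 N) hlog' hinv
  obtain ⟨hPE, hlim, hmer⟩ := isPE_cuspLim N m hres hcusp hell hlog' hmult
  exact ⟨h, χ, hlog', hmult, hPE, hlim, hmer⟩

end Main

end Fermat.Agent.MW.DivA.CuspHalf
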