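import Mathlib
import Fermat.Agent.MW.DivA.Defs
import Fermat.Agent.Lib.FF.ModLRed
import Fermat.Agent.Lib.FF.RRApprox
import Fermat.Agent.S24C.Cx

/-!
# MW / DIV-A : from pairs of good points to all divisors of degree zero

Suppose that for all good points `τ, τ'` of the upper half plane (`j ≠ 0, 1728`) with different
places there is `G ≠ 0` in `F_ℂ = FNK ℂ N` with `n ∣ ([τ] - [τ']) w - ord_w G` at every place
`w`.  Then the same holds for EVERY divisor of degree zero of `F_ℂ`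
(`exists_kummer_of_degree_zero`): move the divisor away from the cusps and from the places over
`j = 0, 1728` by a principal divisor (`IsFF1.exists_ord_eq'`), write the result as
`∑ a_i ([τ_i] - [τ₀])` and multiply.
-/

set_option autoImplicit false

open UpperHalfPlane AlgebraicCurve
open scoped MatrixGroups

noncomputable section

namespace Fermat.Agent.MW.DivA.Final

open Fermat.Agent.ESJ.Jac Fermat.Agent.S24C Fermat.Agent.Lib.FF

/-- Order of a finite product of integer powers. -/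
theorem ord_prod_zpow {K F : Type*} [Field K] [Field F] [Algebra K F] (w : Place K F)
    {ι : Type*} (s : Finset ι) (g : ι → F) (a : ι → ℤ) (hg : ∀ i ∈ s, g i ≠ 0) :
    w.ord (∏ i ∈ s, g i ^ a i) = ∑ i ∈ s, a i * w.ord (g i) := by
  classical
  induction s using Finset.induction_on with
  | empty => simp
  | insert i s hi ih =>
    have hgs : ∀ j ∈ s, g j ≠ 0 := fun j hj => hg j (Finset.mem_insert_of_mem hj)
    have hgi : g i ≠ 0 := hg i (Finset.mem_insert_self i s)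
    have hprod : ∏ j ∈ s, g j ^ a j ≠ 0 :=
      Finset.prod_ne_zero_iff.mpr fun j hj => zpow_ne_zero _ (hgs j hj)
    rw [Finset.prod_insert hi, Finset.sum_insert hi, w.ord_mul (zpow_ne_zero _ hgi) hprod,
      w.ord_zpow, ih hgs]

variable (N : ℕ) [NeZero N]

/-- The bad places: the cusps and the places over `j = 0` and `j = 1728`. -/
def bad : Set (Place ℂ (FN N)) :=
  {v | v.ord (jBar N) < 0 ∨ 0 < v.ord (jBar N - algebraMap ℂ (FN N) 0) ∨
    0 < v.ord (jBar N - algebraMap ℂ (FN N) 1728)}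

theorem isFF1 : IsFF1 ℂ (FN N) (Fermat.Agent.Lib.Red.xL ℂ N) := isFF1_xL ℂ N

theorem finite_ord_ne_zero {f : FN N} (hf : f ≠ 0) : {v : Place ℂ (FN N) | v.ord f ≠ 0}.Finite := by
  obtain ⟨D, hD, -⟩ := (isFF1 N).hasPrincipalDivisors.exists_divisor f hf
  refine D.support.finite_toSet.subset fun v hv => ?_
  rw [Finset.mem_coe, Finsupp.mem_support_iff, hD v]
  exact hv

theorem finite_bad : (bad N).Finite := by
  have h1 := finite_ord_ne_zero N (PlaceDict.jBar_ne_zero N)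
  have h2 := finite_ord_ne_zero N (PtTop.jBar_sub_ne_zero N 0)
  have h3 := finite_ord_ne_zero N (PtTop.jBar_sub_ne_zero N 1728)
  refine ((h1.union h2).union h3).subset fun v hv => ?_
  rcases hv with h | h | h
  · exact Or.inl (Or.inl (ne_of_lt h))
  · exact Or.inl (Or.inr (ne_of_gt h))
  · exact Or.inr (ne_of_gt h)

/-- A place which is not bad is the place of a good point. -/
theorem exists_good_of_notMem_bad {v : Place ℂ (FN N)} (hv : v ∉ bad N) :
    ∃ τ : ℍ, IsGood τ ∧ v = Cx.placePt N τ := by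
  rcases Cx.exists_placePt_or_placeCusp N v with ⟨τ, rfl⟩ | ⟨g, rfl⟩
  · refine ⟨τ, ⟨fun h0 => hv (Or.inr (Or.inl ?_)), fun h0 => hv (Or.inr (Or.inr ?_))⟩, rfl⟩
    · exact (PlaceDict.ord_jBar_sub_pos_iff N τ (Cx.isAlgPt τ) 0).mpr (by rw [h0]; simp [iotaK])
    · exact (PlaceDict.ord_jBar_sub_pos_iff N τ (Cx.isAlgPt τ) 1728).mpr
        (by rw [h0]; simp [iotaK])
  · exact absurd (Or.inl (PlaceDict.ord_jBar_placeCusp_neg N g)) hv

/-- **From pairs to divisors supported on good places.** -/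
theorem exists_kummer_of_good {n : ℕ}
    (hpair : ∀ τ τ' : ℍ, IsGood τ → IsGood τ' → Cx.placePt N τ ≠ Cx.placePt N τ' →
      ∃ G : FN N, G ≠ 0 ∧ ∀ w : Place ℂ (FN N), (n : ℤ) ∣ pairDiv N τ τ' w - w.ord G)
    (𝔇 : Divisor ℂ (FN N)) (hdeg : Divisor.degree 𝔇 = 0) (hbad : ∀ v ∈ bad N, 𝔇 v = 0) :
    ∃ G : FN N, G ≠ 0 ∧ ∀ w : Place ℂ (FN N), (n : ℤ) ∣ 𝔇 w - w.ord G := by
  classical
  have hF := isFF1 N
  have := hF.infinite_place
  obtain ⟨v₀, hv₀⟩ := Infinite.exists_notMem_finset (finite_bad N).toFinset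
  rw [Set.Finite.mem_toFinset] at hv₀
  obtain ⟨τ₀, hτ₀, rfl⟩ := exists_good_of_notMem_bad N hv₀
  -- the local solutions
  have hloc : ∀ v : Place ℂ (FN N), v ∉ bad N → ∃ G : FN N, G ≠ 0 ∧ ∀ w : Place ℂ (FN N),
      (n : ℤ) ∣ (Finsupp.single v (1 : ℤ) - Finsupp.single (Cx.placePt N τ₀) 1 :
        Divisor ℂ (FN N)) w - w.ord G := by
    intro v hv
    obtain ⟨τ, hτ, rfl⟩ := exists_good_of_notMem_bad N hv
    by_cases heq : Cx.placePt N τ = Cx.placePt N τ₀
    · refine ⟨1, one_ne_zero, fun w => ?_⟩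
      rw [heq, sub_self, Place.ord_one, Finsupp.zero_apply, sub_zero]
      exact dvd_zero _
    · exact hpair τ τ₀ hτ hτ₀ heq
  have hloc' : ∀ v : Place ℂ (FN N), ∃ G : FN N, G ≠ 0 ∧ (v ∉ bad N → ∀ w : Place ℂ (FN N),
      (n : ℤ) ∣ (Finsupp.single v (1 : ℤ) - Finsupp.single (Cx.placePt N τ₀) 1 :
        Divisor ℂ (FN N)) w - w.ord G) := by
    intro v
    by_cases hv : v ∈ bad N
    · exact ⟨1, one_ne_zero, fun h => absurd hv h⟩
    · obtain ⟨G, hG0, hG⟩ := hloc v hv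
      exact ⟨G, hG0, fun _ => hG⟩
  choose Gv hGv0 hGv using hloc'
  refine ⟨∏ v ∈ 𝔇.support, Gv v ^ 𝔇 v,
    Finset.prod_ne_zero_iff.mpr fun v _ => zpow_ne_zero _ (hGv0 v), fun w => ?_⟩
  rw [ord_prod_zpow w 𝔇.support Gv (fun v => 𝔇 v) (fun v _ => hGv0 v)]
  have hsum : ∑ v ∈ 𝔇.support, 𝔇 v = 0 := by
    rw [← hF.degree_eq_sum]
    exact hdeg
  have key : 𝔇 w - ∑ v ∈ 𝔇.support, 𝔇 v * w.ord (Gv v)
      = ∑ v ∈ 𝔇.support, 𝔇 v * ((Finsupp.single v (1 : ℤ) - Finsupp.single (Cx.placePt N τ₀) 1 :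
        Divisor ℂ (FN N)) w - w.ord (Gv v)) := by
    have e1 : ∑ v ∈ 𝔇.support, 𝔇 v * (Finsupp.single v (1 : ℤ) : Divisor ℂ (FN N)) w = 𝔇 w := by
      have e2 : ∀ v ∈ 𝔇.support, 𝔇 v * (Finsupp.single v (1 : ℤ) : Divisor ℂ (FN N)) w
          = if v = w then 𝔇 w else 0 := by
        intro v _
        rw [Finsupp.single_apply]
        split_ifs with h
        · rw [h, mul_one]
        · rw [mul_zero]
      rw [Finset.sum_congr rfl e2, Finset.sum_ite_eq' 𝔇.support w]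
      split_ifs with h
      · rfl
      · exact (Finsupp.notMem_support_iff.mp h).symm
    have e3 : ∑ v ∈ 𝔇.support, 𝔇 v * (Finsupp.single (Cx.placePt N τ₀) (1 : ℤ) :
        Divisor ℂ (FN N)) w = 0 := by
      rw [← Finset.sum_mul, hsum, zero_mul]
    simp only [Finsupp.sub_apply, mul_sub, Finset.sum_sub_distrib]
    rw [e1, e3, sub_zero]
  rw [key]
  refine Finset.dvd_sum fun v hv => Dvd.dvd.mul_left (hGv v ?_ w) _
  intro hvb
  exact (Finsupp.mem_support_iff.mp hv) (hbad v hvb)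

/-- **(DIV-C) from the pair statement**: every divisor of degree zero of `F_ℂ` is, modulo `n`,
the divisor of a function. -/
theorem exists_kummer_of_degree_zero {n : ℕ}
    (hpair : ∀ τ τ' : ℍ, IsGood τ → IsGood τ' → Cx.placePt N τ ≠ Cx.placePt N τ' →
      ∃ G : FN N, G ≠ 0 ∧ ∀ w : Place ℂ (FN N), (n : ℤ) ∣ pairDiv N τ τ' w - w.ord G)
    (𝔇 : Divisor ℂ (FNK ℂ N)) (hdeg : Divisor.degree 𝔇 = 0) :
    ∃ G : FNK ℂ N, G ≠ 0 ∧ ∀ w : Place ℂ (FNK ℂ N), (n : ℤ) ∣ 𝔇 w - w.ord G := by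
  classical
  have hF := isFF1 N
  obtain ⟨f, hf0, hf⟩ := hF.exists_ord_eq' (finite_bad N).toFinset (fun v => -𝔇 v)
  obtain ⟨Df, hDf, hDfdeg⟩ := hF.hasPrincipalDivisors.exists_divisor f hf0
  have hdeg' : Divisor.degree (𝔇 + Df) = 0 := by
    rw [map_add, hdeg, hDfdeg, add_zero]
  have hbad' : ∀ v ∈ bad N, (𝔇 + Df) v = 0 := by
    intro v hv
    rw [Finsupp.add_apply, hDf v, hf v ((finite_bad N).mem_toFinset.mpr hv)]
    ring
  obtain ⟨G, hG0, hG⟩ := exists_kummer_of_good N hpair (𝔇 + Df) hdeg' hbad'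
  refine ⟨G * f⁻¹, mul_ne_zero hG0 (inv_ne_zero hf0), fun w => ?_⟩
  have h1 := hG w
  rw [Finsupp.add_apply, hDf w] at h1
  rw [w.ord_mul hG0 (inv_ne_zero hf0), w.ord_inv]
  have e : 𝔇 w - (w.ord G + -w.ord f) = 𝔇 w + w.ord f - w.ord G := by ring
  rw [e]
  exact h1

end Fermat.Agent.MW.DivA.Final
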