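import Mathlib
import Fermat.Agent.MW.DivA.Final
import Fermat.Agent.MW.Div.Descent

/-!
# MW / DIV-A : divisibility of `J₀(N)(ℚ̄)` from the pair statement

`jZero_divisible_of_pair` : if for all good points `τ, τ'` with different places there is
`G ≠ 0` in `F_ℂ` with `n ∣ ([τ] - [τ']) w - ord_w G` at every place `w` (statement [PAIR] of the
analytic route), then `JZero N` is `n`-divisible.  (= `Final.exists_kummer_of_degree_zero`
followed by the descent `ℂ → ℚ̄` of `MW/Div/Descent.lean`.)
-/

set_option autoImplicit false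

open UpperHalfPlane AlgebraicCurve ModularCurve
open scoped MatrixGroups

noncomputable section

namespace Fermat.Agent.MW.DivA

open Fermat.Agent.ESJ.Jac Fermat.Agent.S24C

/-- The pair statement [PAIR] of the analytic route, for the exponent `n`. -/
def PairStatement (N : ℕ) [NeZero N] (n : ℕ) : Prop :=
  ∀ τ τ' : ℍ, IsGood τ → IsGood τ' → Cx.placePt N τ ≠ Cx.placePt N τ' →
    ∃ G : FN N, G ≠ 0 ∧ ∀ w : Place ℂ (FN N), (n : ℤ) ∣ pairDiv N τ τ' w - w.ord G

/-- **Divisibility of `J₀(N)(ℚ̄)` from the pair statement.** -/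
theorem jZero_divisible_of_pair (N : ℕ) [NeZero N] {n : ℕ} (hn : 0 < n)
    (hpair : PairStatement N n) (x : JZero N) : ∃ y : JZero N, n • y = x :=
  Fermat.Agent.MW.Div.jzero_divisible_of_complex N hn
    (fun D hD => Final.exists_kummer_of_degree_zero N hpair (Fermat.Agent.MW.Div.bcDiv N D)
      (by rw [Fermat.Agent.MW.Div.degree_bcDiv, hD])) x

end Fermat.Agent.MW.DivA
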