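import Mathlib
import Fermat.Agent.ESJ.Jac.LevelOneMer
import Fermat.Agent.S24.QExpJ
import Fermat.Agent.S24.QExpCusp

/-!
# MW / DIV-A : growth of `J` and of `J'` at `i∞`

* `exists_norm_Jc_le` : `‖J z‖ ≤ C · exp (2π · Im z)` for `Im z > Y`.
* `exists_norm_deriv_Jc_le` : `‖J' z‖ ≤ C · exp (2π · Im z)` for `Im z > Y` (Cauchy estimate on the
  unit disc).

`J = Jc` is the function of `ESJ/Jac/LevelOneMer.lean` (`Jc z = Jfun (ofComplex z)`).
-/

set_option autoImplicit false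

open UpperHalfPlane Filter Topology Metric

noncomputable section

namespace Fermat.Agent.MW.DivA.JcBound

open Fermat.Agent.ESJ.Jac Fermat.Agent.ESJ.Jac.LevelOneMer ModularCurve
open Fermat.Agent.S24 (Jfun)

/-- The `q`-expansion of `j` has order `≥ -1`. -/
theorem neg_one_le_order_jqC : -1 ≤ (coeffMap (algebraMap ℚ ℂ) jq).order := by
  by_contra hlt
  rw [not_le] at hlt
  have hne : coeffMap (algebraMap ℚ ℂ) jq ≠ 0 := by
    intro h0
    have h1 : (coeffMap (algebraMap ℚ ℂ) jq).coeff (-1) = 0 := by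
      rw [h0]
      rfl
    rw [coeffMap_coeff, coeff_jq_neg_one, map_one] at h1
    exact one_ne_zero h1
  apply HahnSeries.coeff_order_eq_zero.not.mpr hne
  rw [coeffMap_coeff, coeff_jq_of_lt hlt, map_zero]

/-- `‖q‖ ^ k ≤ exp (2π · Im z)` for `k ≥ -1` (`q = exp (2π i z)`, `Im z ≥ 0`). -/
theorem norm_qParam_zpow_le {z : ℂ} (hz : 0 ≤ z.im) {k : ℤ} (hk : -1 ≤ k) :
    ‖Function.Periodic.qParam (1 : ℝ) z‖ ^ k ≤ Real.exp (2 * Real.pi * z.im) := by
  have hq : ‖Function.Periodic.qParam (1 : ℝ) z‖ = Real.exp (-(2 * Real.pi * z.im)) := by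
    rw [Function.Periodic.norm_qParam]
    congr 1
    ring
  have hpos : 0 < ‖Function.Periodic.qParam (1 : ℝ) z‖ := by
    rw [hq]
    exact Real.exp_pos _
  have hle : ‖Function.Periodic.qParam (1 : ℝ) z‖ ≤ 1 := by
    rw [hq, Real.exp_le_one_iff]
    have : 0 ≤ 2 * Real.pi * z.im := by positivity
    linarith
  calc ‖Function.Periodic.qParam (1 : ℝ) z‖ ^ k
      ≤ ‖Function.Periodic.qParam (1 : ℝ) z‖ ^ (-1 : ℤ) :=
        zpow_le_zpow_right_of_le_one₀ hpos hle hk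
    _ = Real.exp (2 * Real.pi * z.im) := by
        rw [hq, zpow_neg_one, ← Real.exp_neg, neg_neg]

/-- **Growth of `J` at `i∞`.** -/
theorem exists_norm_Jc_le : ∃ C Y : ℝ, 0 ≤ C ∧ 0 ≤ Y ∧
    ∀ z : ℂ, Y < z.im → ‖Jc z‖ ≤ C * Real.exp (2 * Real.pi * z.im) := by
  set L := coeffMap (algebraMap ℚ ℂ) jq with hL
  have hexp : Fermat.Agent.S24.QExp.HasQExp 1 Jfun L := Fermat.Agent.S24.QExp.hasQExp_Jfun
  have ht := Fermat.Agent.S24.QExp.HasQExp.tendsto_atImInfty hexp
  have hev : ∀ᶠ τ : ℍ in atImInfty,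
      ‖Function.Periodic.qParam ((1 : ℕ) : ℝ) (τ : ℂ) ^ (-L.order) * Jfun τ‖
        < ‖L.coeff L.order‖ + 1 :=
    ht.norm.eventually (gt_mem_nhds (lt_add_one _))
  obtain ⟨A, hA⟩ := (UpperHalfPlane.atImInfty_mem _).1 hev
  refine ⟨‖L.coeff L.order‖ + 1, max A 0, by positivity, le_max_right _ _, fun z hz => ?_⟩
  have hz0 : 0 < z.im := lt_of_le_of_lt (le_max_right _ _) hz
  have hzA : A ≤ z.im := le_trans (le_max_left _ _) hz.le
  have hJ : Jc z = Jfun (⟨z, hz0⟩ : ℍ) := by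
    show Jfun (ofComplex z) = _
    rw [UpperHalfPlane.ofComplex_apply_of_im_pos hz0]
  have h1 := hA ⟨z, hz0⟩ hzA
  simp only [Set.mem_ofPred_eq, Nat.cast_one] at h1
  have hq0 : Function.Periodic.qParam (1 : ℝ) z ≠ 0 := Complex.exp_ne_zero _
  have h2 : Jc z = Function.Periodic.qParam (1 : ℝ) z ^ L.order *
      (Function.Periodic.qParam (1 : ℝ) z ^ (-L.order) * Jfun (⟨z, hz0⟩ : ℍ)) := by
    rw [← mul_assoc, ← zpow_add₀ hq0, add_neg_cancel, zpow_zero, one_mul, hJ]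
  have h3 : ‖Function.Periodic.qParam (1 : ℝ) z ^ (-L.order) * Jfun (⟨z, hz0⟩ : ℍ)‖
      < ‖L.coeff L.order‖ + 1 := h1
  rw [h2, norm_mul, norm_zpow, mul_comm]
  exact mul_le_mul h3.le (norm_qParam_zpow_le hz0.le neg_one_le_order_jqC)
    (zpow_nonneg (norm_nonneg _) _) (by positivity)

/-- **Growth of `J'` at `i∞`** (Cauchy estimate on the unit disc). -/
theorem exists_norm_deriv_Jc_le : ∃ C Y : ℝ, 0 ≤ C ∧ 0 ≤ Y ∧
    ∀ z : ℂ, Y < z.im → ‖deriv Jc z‖ ≤ C * Real.exp (2 * Real.pi * z.im) := by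
  obtain ⟨C, Y, hC, hY, hJ⟩ := exists_norm_Jc_le
  refine ⟨C * Real.exp (2 * Real.pi), Y + 1, by positivity, by linarith, fun z hz => ?_⟩
  have him : ∀ w ∈ closedBall z 1, z.im - 1 ≤ w.im ∧ w.im ≤ z.im + 1 := by
    intro w hw
    have h1 : ‖w - z‖ ≤ 1 := by
      rw [← dist_eq_norm]
      exact mem_closedBall.1 hw
    have h2 := le_trans (Complex.abs_im_le_norm (w - z)) h1
    rw [Complex.sub_im, abs_le] at h2
    constructor <;> linarith [h2.1, h2.2]
  have hsub : closedBall z 1 ⊆ U := by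
    intro w hw
    have := (him w hw).1
    show 0 < w.im
    linarith
  have hd : DifferentiableOn ℂ Jc U := fun w hw =>
    (analyticAt_Jc hw).differentiableAt.differentiableWithinAt
  have h1 := Complex.norm_deriv_le_of_forall_mem_sphere_norm_le (c := z) (R := 1)
    (C := C * Real.exp (2 * Real.pi * (z.im + 1))) (f := Jc) one_pos
    (hd.diffContOnCl_ball hsub) (fun w hw => by
      have hw' : w ∈ closedBall z 1 := sphere_subset_closedBall hw
      have hwim := him w hw'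
      have h2 := hJ w (by linarith [hwim.1])
      refine h2.trans (mul_le_mul_of_nonneg_left ?_ hC)
      apply Real.exp_le_exp.mpr
      have hpi : 0 < 2 * Real.pi := by positivity
      nlinarith [hwim.2])
  rw [div_one] at h1
  refine h1.trans (le_of_eq ?_)
  have e : Real.exp (2 * Real.pi * (z.im + 1))
      = Real.exp (2 * Real.pi) * Real.exp (2 * Real.pi * z.im) := by
    rw [← Real.exp_add]
    congr 1
    ring
  rw [e]
  ring

end Fermat.Agent.MW.DivA.JcBound
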