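import Mathlib
import Fermat.Agent.MW.DivA.AvatarDefs
import Fermat.Agent.S24.CuspTop

/-!
# MW / DIV-A : growth of `J` and `J'` at `i∞`

`exists_norm_Jc_le` : `‖J z‖ ≤ 2 · exp (2π · Im z)` above some height (from `q · J → 1`).
`exists_norm_deriv_Jc_le` : `‖J'(z)‖ ≤ M · exp (2π · Im z)` above some height (Cauchy estimate).
-/

set_option autoImplicit false

open UpperHalfPlane Filter Topology Metric
open scoped Real

noncomputable section

namespace Fermat.Agent.MW.DivA.JcDeriv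

open Fermat.Agent.ESJ.Jac Fermat.Agent.ESJ.Jac.LevelOneMer

/-- `‖J z‖ ≤ 2 · exp (2π · Im z)` above some positive height. -/
theorem exists_norm_Jc_le :
    ∃ Y : ℝ, 0 < Y ∧ ∀ z : ℂ, Y < z.im → ‖Jc z‖ ≤ 2 * Real.exp (2 * π * z.im) := by
  have h := Fermat.Agent.S24.CuspTop.tendsto_qParam_mul_Jfun
  have h1 : ∀ᶠ z : ℍ in atImInfty,
      ‖Function.Periodic.qParam 1 (z : ℂ) * Fermat.Agent.S24.Jfun z‖ < 2 := by
    have h2 := h.norm
    rw [norm_one] at h2
    exact h2.eventually (gt_mem_nhds (by norm_num : (1 : ℝ) < 2))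
  obtain ⟨A, hA⟩ := (UpperHalfPlane.atImInfty_mem _).1 h1
  refine ⟨max A 1, lt_of_lt_of_le one_pos (le_max_right _ _), fun z hz => ?_⟩
  have hz0 : 0 < z.im := lt_of_lt_of_le one_pos ((le_max_right _ _).trans hz.le)
  have hzA : A ≤ z.im := (le_max_left _ _).trans hz.le
  have h3 : ‖Function.Periodic.qParam 1 z * Fermat.Agent.S24.Jfun ⟨z, hz0⟩‖ < 2 :=
    hA ⟨z, hz0⟩ hzA
  have h4 : Jc z = Fermat.Agent.S24.Jfun ⟨z, hz0⟩ := Jc_coe ⟨z, hz0⟩
  rw [norm_mul, Function.Periodic.norm_qParam] at h3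
  rw [h4]
  have h5 : Real.exp (-2 * π * z.im / (1 : ℝ)) * Real.exp (2 * π * z.im) = 1 := by
    rw [← Real.exp_add]
    have : -2 * π * z.im / (1 : ℝ) + 2 * π * z.im = 0 := by ring
    rw [this, Real.exp_zero]
  have h6 : 0 < Real.exp (2 * π * z.im) := Real.exp_pos _
  have h7 : ‖Fermat.Agent.S24.Jfun ⟨z, hz0⟩‖
      = (Real.exp (-2 * π * z.im / (1 : ℝ)) * ‖Fermat.Agent.S24.Jfun ⟨z, hz0⟩‖)
        * Real.exp (2 * π * z.im) := by
    rw [mul_right_comm, h5, one_mul]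
  rw [h7]
  exact (mul_le_mul_of_nonneg_right h3.le h6.le)

/-- `‖J'(z)‖ ≤ M · exp (2π · Im z)` above some height. -/
theorem exists_norm_deriv_Jc_le :
    ∃ Y M : ℝ, 0 < Y ∧ 0 ≤ M ∧ ∀ z : ℂ, Y < z.im → ‖deriv Jc z‖ ≤ M * Real.exp (2 * π * z.im) := by
  obtain ⟨Y, hY, hb⟩ := exists_norm_Jc_le
  refine ⟨Y + 1, 2 * Real.exp (2 * π), by linarith, by positivity, fun z hz => ?_⟩
  have him : ∀ w ∈ closedBall z 1, Y < w.im := by
    intro w hw
    have h1 : |(w - z).im| ≤ ‖w - z‖ := Complex.abs_im_le_norm _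
    have h2 : ‖w - z‖ ≤ 1 := by rwa [← dist_eq_norm]
    have h3 : (w - z).im = w.im - z.im := Complex.sub_im _ _
    have h4 := abs_le.1 (h1.trans h2)
    rw [h3] at h4
    linarith [h4.1]
  have hd : DiffContOnCl ℂ Jc (ball z 1) := by
    refine DifferentiableOn.diffContOnCl_ball (U := closedBall z 1) ?_ subset_rfl
    intro w hw
    have hwU : w ∈ U := lt_trans hY (him w hw)
    exact (analyticAt_Jc hwU).differentiableAt.differentiableWithinAt
  have hC : ∀ w ∈ sphere z 1, ‖Jc w‖ ≤ 2 * Real.exp (2 * π) * Real.exp (2 * π * z.im) := by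
    intro w hw
    have hw' : w ∈ closedBall z 1 := sphere_subset_closedBall hw
    have h0 := hb w (him w hw')
    have h1 : |(w - z).im| ≤ ‖w - z‖ := Complex.abs_im_le_norm _
    have h2 : ‖w - z‖ ≤ 1 := by
      have : dist w z ≤ 1 := hw'
      rwa [dist_eq_norm] at this
    have h3 : (w - z).im = w.im - z.im := Complex.sub_im _ _
    have h4 := abs_le.1 (h1.trans h2)
    rw [h3] at h4
    have h5 : Real.exp (2 * π * w.im) ≤ Real.exp (2 * π) * Real.exp (2 * π * z.im) := by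
      rw [← Real.exp_add]
      apply Real.exp_le_exp.2
      nlinarith [Real.pi_pos, h4.2]
    calc ‖Jc w‖ ≤ 2 * Real.exp (2 * π * w.im) := h0
      _ ≤ 2 * (Real.exp (2 * π) * Real.exp (2 * π * z.im)) := by linarith
      _ = 2 * Real.exp (2 * π) * Real.exp (2 * π * z.im) := by ring
  have := Complex.norm_deriv_le_of_forall_mem_sphere_norm_le one_pos hd hC
  rwa [div_one] at this

end Fermat.Agent.MW.DivA.JcDeriv
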