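import Mathlib
import Fermat.Agent.MW.DivA.Assemble
import Fermat.Agent.MW.DivA.Defs
import Fermat.Agent.S24C.Cx

/-!
# MW / DIV-A (DIVA-7): the Kummer step

A multiplicative function `h` on the upper half plane (multiplier `χ` trivial on the parabolic and
elliptic elements of `Γ₀(N)`) whose orders are given by a divisor `E` of `F_ℂ` supported away from
the cusps, with nonzero limits at all cusps, produces for every `n > 0` a function `G ≠ 0` of
`F_ℂ` with `n ∣ E w - ord_w G` at every place `w`.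

This is a bridge onto `Assemble.exists_kummer_of_multiplicative`:

* `merAtCusps_of_cuspLim`: such an `h` is meromorphic at the cusps (its zeros and poles lie over
  finitely many `Γ₀(N)`-orbits, and the imaginary part is bounded on `SL₂(ℤ)`-orbits);
* `eq_placePt_of_valPt`, `eq_placeCusp_of_valCusp`: the two branches of `IsDict.place_cases` are
  the point places `Cx.placePt` (with index `Cx.mulPt`) and the cusp places `placeCusp`.
-/

set_option autoImplicit false

open UpperHalfPlane Filter Topology AlgebraicCurve CongruenceSubgroup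
open scoped MatrixGroups

noncomputable section

namespace Fermat.Agent.MW.DivA.KummerStep

open Fermat.Agent.ESJ.Jac Fermat.Agent.ESJ.Dict Fermat.Agent.ESJ.Jac.Kummer
open Fermat.Agent.S24C

/-! ### Imaginary parts on orbits -/

/-- The imaginary part is bounded on the `SL₂(ℤ)`-saturation of the points over a place. -/
theorem exists_im_bound (N : ℕ) [NeZero N] (P : Place ℂ (Fermat.Agent.S24C.FN N)) :
    ∃ B : ℝ, ∀ τ : ℍ, Cx.placePt N τ = P → ∀ g : SL(2, ℤ), (g • τ).im ≤ B := by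
  by_cases hP : ∃ σ : ℍ, Cx.placePt N σ = P
  · obtain ⟨σ, hσ⟩ := hP
    obtain ⟨g₀, hg₀⟩ := ModularGroup.exists_max_im σ
    refine ⟨(g₀ • σ).im, fun τ hτ g => ?_⟩
    obtain ⟨γ, -, hγ⟩ := (Cx.placePt_eq_iff N σ τ).mp (hσ.trans hτ.symm)
    rw [← hγ, ← mul_smul]
    exact hg₀ (g * γ)
  · exact ⟨0, fun τ hτ => absurd ⟨τ, hτ⟩ hP⟩

/-- The imaginary part is bounded on the `SL₂(ℤ)`-saturation of the points over the support of a
divisor. -/
theorem exists_im_bound_support (N : ℕ) [NeZero N] (E : Divisor ℂ (Fermat.Agent.S24C.FN N)) :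
    ∃ B : ℝ, ∀ τ : ℍ, E (Cx.placePt N τ) ≠ 0 → ∀ g : SL(2, ℤ), (g • τ).im ≤ B := by
  classical
  choose b hb using exists_im_bound N
  obtain ⟨B, hB⟩ := (E.support.image b).exists_le
  exact ⟨B, fun τ hτ g => (hb _ τ rfl g).trans
    (hB _ (Finset.mem_image_of_mem b (Finsupp.mem_support_iff.mpr hτ)))⟩

/-! ### Meromorphy at the cusps -/

/-- A function in normal form whose orders are given by a divisor and which has limits at all
cusps is meromorphic at the cusps. -/
theorem merAtCusps_of_cuspLim (N : ℕ) [NeZero N] (E : Divisor ℂ (Fermat.Agent.S24C.FN N))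
    (h : ℂ → ℂ) (hhNF : MeromorphicNFOn h U)
    (hhord : ∀ σ : ℍ, meromorphicOrderAt h (σ : ℂ)
      = (((Cx.mulPt N σ : ℤ) * E (Cx.placePt N σ) : ℤ) : WithTop ℤ))
    (hhcusp : CuspLim h) : MerAtCusps h := by
  obtain ⟨B, hB⟩ := exists_im_bound_support N E
  intro g
  obtain ⟨L, -, hL⟩ := hhcusp g
  have hev : ∀ᶠ z in comap Complex.im atTop, ‖h (mob g z)‖ < ‖L‖ + 1 :=
    hL.norm.eventually_lt_const (lt_add_one _)
  rw [Filter.eventually_comap] at hev
  obtain ⟨Y₁, hY₁⟩ := eventually_atTop.mp hev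
  refine ⟨max (max B Y₁) 1, ‖L‖ + 1, fun z hz => ?_⟩
  have hzB : B < z.im := lt_of_le_of_lt ((le_max_left _ _).trans (le_max_left _ _)) hz
  have hzY : Y₁ ≤ z.im := ((le_max_right _ _).trans (le_max_left _ _)).trans hz.le
  have hz1 : 1 < z.im := lt_of_le_of_lt (le_max_right _ _) hz
  have hz0 : 0 < z.im := lt_trans zero_lt_one hz1
  have hzU : z ∈ U := hz0
  constructor
  · set τ : ℍ := g • (⟨z, hz0⟩ : ℍ) with hτdef
    have hτ : mob g z = (τ : ℂ) := MultFixed.mob_coe' g ⟨z, hz0⟩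
    have hE : E (Cx.placePt N τ) = 0 := by
      by_contra hne
      have h1 := hB τ hne g⁻¹
      rw [hτdef, inv_smul_smul] at h1
      exact absurd h1 (not_le.mpr hzB)
    have hord : meromorphicOrderAt h (τ : ℂ) = 0 := by
      rw [hhord τ, hE, mul_zero]
      rfl
    have han : AnalyticAt ℂ h (τ : ℂ) :=
      (hhNF τ.im_pos).meromorphicOrderAt_nonneg_iff_analyticAt.mp (by rw [hord])
    rw [← hτ] at han
    exact AnalyticAt.comp (g := h) (f := mob g) han (analyticAt_mob' g hzU)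
  · have h1 := hY₁ z.im hzY z rfl
    have h2 : ‖L‖ + 1 ≤ Real.exp ((‖L‖ + 1) * z.im) := by
      have h3 : ‖L‖ + 1 ≤ (‖L‖ + 1) * z.im := by nlinarith [norm_nonneg L]
      have h4 := Real.add_one_le_exp ((‖L‖ + 1) * z.im)
      linarith
    exact h1.le.trans h2

/-! ### Identification of the places -/

/-- A place whose order function is proportional to the point valuation at `τ` is the point place
at `τ`, and the proportionality factor is the index `Cx.mulPt`. -/
theorem eq_placePt_of_valPt (N : ℕ) [NeZero N] (v : Place ℂ (Fermat.Agent.S24C.FN N)) (τ : ℍ)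
    (e : ℕ) (he : 0 < e)
    (hv : ∀ f : FNK ℂ N, f ≠ 0 → valPtK (RingHom.id ℂ) N τ f = e * v.ord f) :
    v = Cx.placePt N τ ∧ e = Cx.mulPt N τ := by
  have hm : 0 < Cx.mulPt N τ := PlaceDict.mulPt_pos N τ (Cx.isAlgPt τ)
  have hmZ : (0 : ℤ) < (Cx.mulPt N τ : ℤ) := by exact_mod_cast hm
  have heZ : (0 : ℤ) < (e : ℤ) := by exact_mod_cast he
  have key : ∀ f : Fermat.Agent.S24C.FN N, f ≠ 0 →
      (e : ℤ) * v.ord f = (Cx.mulPt N τ : ℤ) * (Cx.placePt N τ).ord f := by
    intro f hf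
    rw [← hv f hf, ← Cx.valPt_eq_mul_ord N τ hf]
    rfl
  have hvP : v = Cx.placePt N τ := by
    refine Fermat.Agent.S24.place_eq_of_ord fun f hf => ?_
    rcases eq_or_ne f 0 with rfl | hf0
    · rw [Place.ord_zero]
    · have h1 := key f hf0
      by_contra hneg
      push Not at hneg
      have h2 : 0 ≤ (e : ℤ) * v.ord f := mul_nonneg heZ.le hf
      have h3 : (Cx.mulPt N τ : ℤ) * (Cx.placePt N τ).ord f < 0 :=
        mul_neg_of_pos_of_neg hmZ hneg
      omega
  refine ⟨hvP, ?_⟩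
  obtain ⟨π, hπ0, hπ1, -⟩ := PlaceDict.exists_uniformizer_pt N τ (Cx.isAlgPt τ)
  have h1 := key π hπ0
  have hπ1' : (Cx.placePt N τ).ord π = 1 := hπ1
  rw [hvP, hπ1', mul_one, mul_one] at h1
  exact_mod_cast h1

/-- A place whose order function is proportional to the cusp valuation at `g` is the cusp place
at `g`. -/
theorem eq_placeCusp_of_valCusp (N : ℕ) [NeZero N] (v : Place ℂ (Fermat.Agent.S24C.FN N))
    (g : SL(2, ℤ)) (e : ℕ) (he : 0 < e)
    (hv : ∀ f : FNK ℂ N, f ≠ 0 → valCuspK (RingHom.id ℂ) N g f = e * v.ord f) :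
    v = PlaceDict.placeCusp N g := by
  have hm : 0 < PlaceDict.mulCusp N g := PlaceDict.mulCusp_pos N g
  have hmZ : (0 : ℤ) < (PlaceDict.mulCusp N g : ℤ) := by exact_mod_cast hm
  have heZ : (0 : ℤ) < (e : ℤ) := by exact_mod_cast he
  have key : ∀ f : Fermat.Agent.S24C.FN N, f ≠ 0 →
      (e : ℤ) * v.ord f = (PlaceDict.mulCusp N g : ℤ) * (PlaceDict.placeCusp N g).ord f := by
    intro f hf
    rw [← hv f hf, ← PlaceDict.valCusp_eq_mul_ord N g hf]
    rfl
  refine Fermat.Agent.S24.place_eq_of_ord fun f hf => ?_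
  rcases eq_or_ne f 0 with rfl | hf0
  · rw [Place.ord_zero]
  · have h1 := key f hf0
    by_contra hneg
    push Not at hneg
    have h2 : 0 ≤ (e : ℤ) * v.ord f := mul_nonneg heZ.le hf
    have h3 : (PlaceDict.mulCusp N g : ℤ) * (PlaceDict.placeCusp N g).ord f < 0 :=
      mul_neg_of_pos_of_neg hmZ hneg
    omega

/-! ### The Kummer step -/

/-- **DIVA-7, character-free form.** A multiplicative function with PE multiplier, orders given
by a divisor `E` supported off the cusps and nonzero cusp limits yields, for every `n > 0`, a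
function `G ≠ 0` with `n ∣ E w - ord_w G` at every place. -/
theorem exists_function_of_multFn_pe (N : ℕ) [NeZero N] {n : ℕ} (hn : 0 < n)
    (E : Divisor ℂ (Fermat.Agent.S24C.FN N)) (h : ℂ → ℂ) (χ : Gamma0 N →* ℂˣ)
    (hhNF : MeromorphicNFOn h U) (hhfin : ∀ z ∈ U, meromorphicOrderAt h z ≠ ⊤)
    (hhord : ∀ σ : ℍ, meromorphicOrderAt h (σ : ℂ)
      = (((Cx.mulPt N σ : ℤ) * E (Cx.placePt N σ) : ℤ) : WithTop ℤ))
    (hEcusp : ∀ s : SL(2, ℤ), E (PlaceDict.placeCusp N s) = 0)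
    (hhmult : HasMultiplier (Gamma0 N) h χ) (hχ : IsPE (Gamma0 N) χ) (hhcusp : CuspLim h) :
    ∃ G : Fermat.Agent.S24C.FN N, G ≠ 0 ∧
      ∀ w : Place ℂ (Fermat.Agent.S24C.FN N), (n : ℤ) ∣ E w - w.ord G := by
  have hMC : MerAtCusps h := merAtCusps_of_cuspLim N E h hhNF hhord hhcusp
  refine Assemble.exists_kummer_of_multiplicative N hn (fun v => E v) h hhNF.meromorphicOn hhfin χ
    hχ hhmult hMC ?_ ?_
  · intro v τ e hell hv
    obtain ⟨hvP, heq⟩ := eq_placePt_of_valPt N v τ e hell.pos hv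
    rw [hhord τ, hvP, heq]
    rfl
  · intro v g e w hw hew _ hv
    have he : 0 < e := by
      rcases Nat.eq_zero_or_pos e with rfl | he
      · rw [zero_mul] at hew
        exact absurd hew.symm (NeZero.ne N)
      · exact he
    have hvC := eq_placeCusp_of_valCusp N v g e he hv
    obtain ⟨L, hL0, hL⟩ := hhcusp g⁻¹
    refine ⟨L, hL0, hL.congr fun z => ?_⟩
    show h (mob g⁻¹ z) = Function.Periodic.qParam (w : ℝ) z ^ (-(E v)) * h (mob g⁻¹ z)
    rw [hvC, hEcusp g, neg_zero, zpow_zero, one_mul]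

/-- **DIVA-7 (literal row statement).** -/
theorem exists_function_of_multFn (N : ℕ) [NeZero N] {n : ℕ} (hn : 0 < n)
    (E : Divisor ℂ (Fermat.Agent.S24C.FN N))
    (h : ℂ → ℂ) (χ ψ : Gamma0 N →* ℂˣ) (v : ℂ → ℂ)
    (hhNF : MeromorphicNFOn h U) (hhfin : ∀ z ∈ U, meromorphicOrderAt h z ≠ ⊤)
    (hhord : ∀ σ : ℍ, meromorphicOrderAt h (σ : ℂ)
      = (((Cx.mulPt N σ : ℤ) * E (Cx.placePt N σ) : ℤ) : WithTop ℤ))
    (hEcusp : ∀ s : SL(2, ℤ), E (PlaceDict.placeCusp N s) = 0)
    (hhmult : HasMultiplier (Gamma0 N) h χ) (hhcusp : CuspLim h)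
    (hψ : ∀ γ, ψ γ ^ n = χ γ) (hψPE : IsPE (Gamma0 N) ψ)
    (_hvNF : MeromorphicNFOn v U) (_hvfin : ∀ z ∈ U, meromorphicOrderAt v z ≠ ⊤)
    (_hvc : MerAtCusps v) (_hvmult : HasMultiplier (Gamma0 N) v ψ⁻¹) :
    ∃ G : Fermat.Agent.S24C.FN N, G ≠ 0 ∧
      ∀ w : Place ℂ (Fermat.Agent.S24C.FN N), (n : ℤ) ∣ E w - w.ord G :=
  exists_function_of_multFn_pe N hn E h χ hhNF hhfin hhord hEcusp hhmult
    (fun γ hγ => by rw [← hψ γ, hψPE γ hγ, one_pow]) hhcusp

end Fermat.Agent.MW.DivA.KummerStep
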