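import Mathlib
import Fermat.Agent.MW.DivA.Defs
import Fermat.Agent.ESJ.Jac.Multiplier
import Fermat.Agent.ESJ.Jac.Kummer
import Fermat.Agent.S21.Primitive
import Fermat.Agent.S21.Parabolic
import Fermat.Agent.S22.PeriodicPrimitive

/-!
# MW / DIV-A (DIVA-4) : from a weight-2 form with integer residues to a multiplicative function

Let `g` be a function on the upper half plane `U` with at most simple poles and integer residues
(`HasIntRes g σ (m σ)`), of weight 2 for `Γ₀(N)` (`g (γ z) γ'(z) = g z`) and exponentially small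
at all cusps.  Then a logarithmic primitive `h` of `g` (`h'/h = g`, `IsLogPrim g h U`, orders
`m σ`) satisfies `h (γ z) = χ γ · h z` for a character `χ` of `Γ₀(N)`; `h` has a NONZERO limit at
every cusp, hence `χ` is trivial on the parabolic elements; if moreover the residues vanish at
the elliptic points, `χ` is trivial on the elliptic elements (`exists_multFn`).
-/

set_option autoImplicit false

open UpperHalfPlane hiding I
open Complex Filter Function Topology CongruenceSubgroup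
open scoped MatrixGroups Manifold Real

noncomputable section

namespace Fermat.Agent.MW.DivA

open Fermat.Agent.ESJ.Jac Fermat.Agent.MW.DivA.LogPrim

namespace MultFn

/-- Pull-back of a logarithmic primitive along a Möbius map. -/
theorem isLogPrim_comp_mob {g h : ℂ → ℂ} (hh : IsLogPrim g h U) (s : SL(2, ℤ)) :
    IsLogPrim (fun y => g (mob s y) * deriv (mob s) y) (fun y => h (mob s y)) U := by
  refine ⟨fun z hz => (hh.1 (mob_mem_U s hz)).comp_analyticAt (analyticAt_mob s hz),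
    fun z hz => ?_, fun z hz => ?_⟩
  · have h1 := meromorphicOrderAt_comp_of_deriv_ne_zero (f := h) (analyticAt_mob s hz)
      (mob_deriv_ne_zero s hz)
    have h2 : meromorphicOrderAt (fun y => h (mob s y)) z = meromorphicOrderAt h (mob s z) := h1
    rw [h2]
    exact hh.2.1 _ (mob_mem_U s hz)
  · have ht := tendsto_mob_nhdsNE s hz
    have h1 := ht.eventually (hh.2.2 _ (mob_mem_U s hz))
    have h2 := ht.eventually (hh.eventually (mob_mem_U s hz))
    have h3 : ∀ᶠ y in 𝓝[≠] z, y ∈ U := nhdsWithin_le_nhds (isOpen_U.mem_nhds hz)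
    filter_upwards [h1, h2, h3] with y hy1 hy2 hy3
    have h4 := logDeriv_comp (f := h) (g := mob s) (x := y) hy2.2.differentiableAt
      (analyticAt_mob s hy3).differentiableAt
    have h5 : logDeriv (fun y => h (mob s y)) y = logDeriv h (mob s y) * deriv (mob s) y := h4
    rw [h5, hy1]

/-- A logarithmic primitive is somewhere nonzero. -/
theorem exists_ne_zero {g h : ℂ → ℂ} (hh : IsLogPrim g h U) : ∃ y ∈ U, h y ≠ 0 := by
  have h1 := hh.eventually I_mem_U
  have h3 : ∀ᶠ y in 𝓝[≠] Complex.I, y ∈ U :=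
    nhdsWithin_le_nhds (isOpen_U.mem_nhds I_mem_U)
  obtain ⟨y, hy1, hy2⟩ := (h1.and h3).exists
  exact ⟨y, hy2, hy1.1⟩

/-- **The multiplier** of a logarithmic primitive of a weight-2 form. -/
theorem exists_mult {N : ℕ} {g h : ℂ → ℂ} (hh : IsLogPrim g h U)
    (hinv : ∀ γ ∈ Gamma0 N, ∀ z ∈ U, (fun y => g (mob γ y) * deriv (mob γ) y) =ᶠ[𝓝[≠] z] g) :
    ∃ χ : Gamma0 N →* ℂˣ, HasMultiplier (Gamma0 N) h χ := by
  have key : ∀ γ : Gamma0 N, ∃ c : ℂ, c ≠ 0 ∧ ∀ z ∈ U, h (mob (γ : SL(2, ℤ)) z) = c * h z :=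
    fun γ => IsLogPrim.eq_const_mul isOpen_U isPreconnected_U
      ((isLogPrim_comp_mob hh γ).congr (hinv γ γ.2)) hh
  choose c hc0 hc using key
  obtain ⟨y, hy, hy0⟩ := exists_ne_zero hh
  have h1 : c 1 = 1 := by
    have e := hc 1 y hy
    rw [Subgroup.coe_one, mob_one] at e
    have e2 : (1 : ℂ) * h y = c 1 * h y := by rw [one_mul]; exact e
    exact (mul_right_cancel₀ hy0 e2).symm
  have hmul : ∀ γ γ' : Gamma0 N, c (γ * γ') = c γ * c γ' := by
    intro γ γ'
    have e := hc (γ * γ') y hy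
    rw [Subgroup.coe_mul, mob_mul _ _ hy, hc γ _ (mob_mem_U _ hy), hc γ' y hy] at e
    have e2 : c (γ * γ') * h y = (c γ * c γ') * h y := by rw [← e]; ring
    exact mul_right_cancel₀ hy0 e2
  refine ⟨{ toFun := fun γ => Units.mk0 (c γ) (hc0 γ)
            map_one' := Units.ext h1
            map_mul' := fun γ γ' => Units.ext (hmul γ γ') }, fun γ z hz => ?_⟩
  exact hc γ z hz

/-- A multiplier is trivial on the stabiliser of a point where the function does not vanish. -/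
theorem mult_eq_one_of_fixed {N : ℕ} {h : ℂ → ℂ} {χ : Gamma0 N →* ℂˣ}
    (hmult : HasMultiplier (Gamma0 N) h χ) (γ : Gamma0 N) (σ : ℍ)
    (hfix : (γ : SL(2, ℤ)) • σ = σ) (hσ : h (σ : ℂ) ≠ 0) : χ γ = 1 := by
  have e := hmult γ σ (coe_mem_U σ)
  rw [mob_coe, hfix] at e
  have e2 : (1 : ℂ) * h (σ : ℂ) = (χ γ : ℂ) * h (σ : ℂ) := by rw [one_mul]; exact e
  exact Units.ext (mul_right_cancel₀ hσ e2).symm

instance neBot_comap_im : (comap Complex.im atTop).NeBot :=
  Filter.NeBot.comap_of_surj inferInstance (fun y => ⟨⟨0, y⟩, rfl⟩)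

/-- An upper triangular element of `SL(2, ℤ)` acts as an integer translation. -/
theorem exists_mob_eq_add (g₁ : SL(2, ℤ)) (hg : (g₁ : Matrix (Fin 2) (Fin 2) ℤ) 1 0 = 0) :
    ∃ k : ℤ, ∀ w : ℂ, mob g₁ w = w + k := by
  have hdet : g₁ 0 0 * g₁ 1 1 - g₁ 0 1 * g₁ 1 0 = 1 := by
    have := g₁.det_coe
    rw [Matrix.det_fin_two] at this
    exact this
  rw [hg, mul_zero, sub_zero] at hdet
  refine ⟨g₁ 0 1 * g₁ 1 1, fun w => ?_⟩
  unfold mob
  rw [hg]
  rcases Int.eq_one_or_neg_one_of_mul_eq_one' hdet with ⟨h1, h2⟩ | ⟨h1, h2⟩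
  · rw [h1, h2]; push_cast; ring
  · rw [h1, h2]; push_cast; ring

/-- A multiplier of a function with nonzero limits at the cusps is trivial on the parabolic
elements. -/
theorem mult_eq_one_of_parabolic {N : ℕ} {h : ℂ → ℂ} {χ : Gamma0 N →* ℂˣ}
    (hmult : HasMultiplier (Gamma0 N) h χ) (hlim : CuspLim h) (γ : Gamma0 N)
    (htr : ((γ : SL(2, ℤ)) : Matrix (Fin 2) (Fin 2) ℤ).trace ^ 2 = 4) : χ γ = 1 := by
  obtain ⟨δ, g₁, hδ, hg⟩ := Fermat.Agent.S21.exists_conj_upperTriangular (γ : SL(2, ℤ)) htr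
  obtain ⟨k, hk⟩ := exists_mob_eq_add g₁ hg
  obtain ⟨L, hL0, hL⟩ := hlim δ
  have hshift : Tendsto (fun w : ℂ => w + (k : ℂ)) (comap Complex.im atTop)
      (comap Complex.im atTop) := by
    rw [tendsto_comap_iff]
    have : (Complex.im ∘ fun w : ℂ => w + (k : ℂ)) = Complex.im := by
      funext w
      simp
    rw [this]
    exact tendsto_comap
  have hL1 : Tendsto (fun w : ℂ => h (mob δ (w + (k : ℂ)))) (comap Complex.im atTop) (𝓝 L) :=
    hL.comp hshift
  have hL2 : Tendsto (fun w : ℂ => (χ γ : ℂ) * h (mob δ w)) (comap Complex.im atTop)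
      (𝓝 ((χ γ : ℂ) * L)) := hL.const_mul _
  have hev : ∀ᶠ w in comap Complex.im atTop, (0 : ℝ) < Complex.im w :=
    tendsto_comap.eventually (eventually_gt_atTop 0)
  have heq : (fun w : ℂ => h (mob δ (w + (k : ℂ)))) =ᶠ[comap Complex.im atTop]
      fun w : ℂ => (χ γ : ℂ) * h (mob δ w) := by
    filter_upwards [hev] with w hw
    have hwU : w ∈ U := hw
    have e := hmult γ (mob δ w) (mob_mem_U δ hwU)
    rw [← mob_mul _ _ hwU, hδ, mob_mul _ _ hwU, hk] at e
    exact e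
  have := tendsto_nhds_unique (hL1.congr' heq) hL2
  have e2 : (1 : ℂ) * L = (χ γ : ℂ) * L := by rw [one_mul]; exact this
  exact Units.ext (mul_right_cancel₀ hL0 e2).symm

/-- Translation by `n` as a Möbius map. -/
theorem mob_T_pow (n : ℕ) (y : ℂ) : mob (ModularGroup.T ^ n) y = y + (n : ℂ) := by
  unfold mob
  rw [Fermat.Agent.S21.coe_T_pow]
  simp

/-- `N`-periodicity of the translates of a weight-2 form for `Γ₀(N)`. -/
theorem weight2_periodic {N : ℕ} {g : ℂ → ℂ}
    (hinv : ∀ γ ∈ Gamma0 N, ∀ z ∈ U, (fun y => g (mob γ y) * deriv (mob γ) y) =ᶠ[𝓝[≠] z] g)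
    (s : SL(2, ℤ)) {z : ℂ} (hz : z ∈ U) :
    (fun y => g (mob s (y + (N : ℂ))) * deriv (mob s) (y + (N : ℂ))) =ᶠ[𝓝[≠] z]
      fun y => g (mob s y) * deriv (mob s) y := by
  set γ : SL(2, ℤ) := s * ModularGroup.T ^ N * s⁻¹ with hγdef
  have hγ : γ ∈ Gamma0 N := Fermat.Agent.S21.conj_T_pow_mem_Gamma0 N s
  have hmob : ∀ y ∈ U, mob s (y + (N : ℂ)) = mob γ (mob s y) := by
    intro y hy
    rw [← mob_T_pow N y, ← mob_mul _ _ hy, ← mob_mul _ _ hy]
    congr 1
    rw [hγdef]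
    group
  have hder : ∀ y ∈ U, deriv (mob s) (y + (N : ℂ)) = deriv (mob γ) (mob s y) * deriv (mob s) y := by
    intro y hy
    have e1 : (fun x => mob s (x + (N : ℂ))) =ᶠ[𝓝 y] fun x => mob γ (mob s x) := by
      filter_upwards [isOpen_U.mem_nhds hy] with x hx using hmob x hx
    have e2 : deriv (fun x => mob s (x + (N : ℂ))) y = deriv (mob s) (y + (N : ℂ)) :=
      deriv_comp_add_const (f := mob s) (a := (N : ℂ)) (x := y)
    have e3 : HasDerivAt (fun x => mob γ (mob s x))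
        (deriv (mob γ) (mob s y) * deriv (mob s) y) y :=
      ((analyticAt_mob γ (mob_mem_U s hy)).differentiableAt.hasDerivAt).comp y
        ((analyticAt_mob s hy).differentiableAt.hasDerivAt)
    rw [← e2, e1.deriv_eq, e3.deriv]
  have h1 := (tendsto_mob_nhdsNE s hz).eventually (hinv γ hγ (mob s z) (mob_mem_U s hz))
  have h3 : ∀ᶠ y in 𝓝[≠] z, y ∈ U := nhdsWithin_le_nhds (isOpen_U.mem_nhds hz)
  filter_upwards [h1, h3] with y hy1 hy3
  have hy1' : g (mob γ (mob s y)) * deriv (mob γ) (mob s y) = g (mob s y) := hy1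
  rw [hmob y hy3, hder y hy3, ← mul_assoc, hy1']

/-- **Shape at a cusp**: above some height, `h ∘ s = c₀ · E` with `c₀ ≠ 0` and `E → 1`. -/
theorem exists_cusp_form {N : ℕ} [NeZero N] {g h : ℂ → ℂ} (hh : IsLogPrim g h U)
    (hinv : ∀ γ ∈ Gamma0 N, ∀ z ∈ U, (fun y => g (mob γ y) * deriv (mob γ) y) =ᶠ[𝓝[≠] z] g)
    (s : SL(2, ℤ)) {Y C c : ℝ} (hc : 0 < c)
    (hcusp : ∀ z : ℂ, Y < z.im →
      AnalyticAt ℂ g (mob s z) ∧ ‖g (mob s z) * deriv (mob s) z‖ ≤ C * Real.exp (-c * z.im)) :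
    ∃ (Y₁ : ℝ) (c₀ : ℂ) (E : ℂ → ℂ), c₀ ≠ 0 ∧
      (∀ z : ℂ, Y₁ < z.im → AnalyticAt ℂ E z ∧ h (mob s z) = c₀ * E z) ∧
      Tendsto E (comap Complex.im atTop) (𝓝 1) := by
  set Y₁ := max Y 0 with hY₁
  set G : ℂ → ℂ := fun y => g (mob s y) * deriv (mob s) y with hG
  have hYU : ∀ z : ℂ, Y₁ < z.im → z ∈ U := fun z hz => lt_of_le_of_lt (le_max_right _ _) hz
  have hYY : ∀ z : ℂ, Y₁ < z.im → Y < z.im := fun z hz => lt_of_le_of_lt (le_max_left _ _) hz
  have hGan : ∀ z : ℂ, Y₁ < z.im → AnalyticAt ℂ G z := by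
    intro z hz
    have h1 : AnalyticAt ℂ (fun y => g (mob s y)) z :=
      (hcusp z (hYY z hz)).1.fun_comp (analyticAt_mob s (hYU z hz))
    exact h1.mul (analyticAt_mob s (hYU z hz)).deriv
  -- periodicity
  have hGper : ∀ z : ℂ, Y₁ < z.im → G (z + (N : ℂ)) = G z := by
    intro z hz
    have hzN : Y₁ < (z + (N : ℂ)).im := by simpa using hz
    have e1 := weight2_periodic hinv s (hYU z hz)
    have c1 : ContinuousAt (fun y => G (y + (N : ℂ))) z := by
      have h1 : ContinuousAt G (z + (N : ℂ)) := (hGan _ hzN).continuousAt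
      have h2 : ContinuousAt (fun y : ℂ => y + (N : ℂ)) z := by fun_prop
      exact ContinuousAt.comp (g := G) (f := fun y : ℂ => y + (N : ℂ)) h1 h2
    have c2 : ContinuousAt G z := (hGan z hz).continuousAt
    exact tendsto_nhds_unique (c1.tendsto.mono_left nhdsWithin_le_nhds)
      ((c2.tendsto.mono_left nhdsWithin_le_nhds).congr' e1.symm)
  -- the shifted function on `ℍ`
  set a : ℂ := Complex.I * (Y₁ : ℂ) with ha
  have him : ∀ w : ℂ, (w + a).im = w.im + Y₁ := by intro w; simp [ha]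
  have him' : ∀ z : ℂ, (z - a).im = z.im - Y₁ := by intro z; simp [ha]
  set Fc : ℂ → ℂ := fun w => (2 * π * Complex.I)⁻¹ * G (w + a) with hFc
  set F : ℍ → ℂ := fun τ => Fc (τ : ℂ) with hF
  have hFd : ∀ w : ℂ, 0 < w.im →
      HasDerivAt Fc ((2 * π * Complex.I)⁻¹ * deriv G (w + a)) w := by
    intro w hw
    have hwa : Y₁ < (w + a).im := by rw [him]; linarith
    have h1 : HasDerivAt G (deriv G (w + a)) (w + a) := (hGan _ hwa).differentiableAt.hasDerivAt
    exact (h1.comp_add_const w a).const_mul _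
  have hFmd : MDifferentiable 𝓘(ℂ) 𝓘(ℂ) F :=
    Fermat.Agent.S22.mdifferentiable_of_hasDerivAt (G := F) (Gc := Fc) (fun z => rfl) hFd
  have hFper : Periodic (F ∘ ofComplex) ((N : ℝ) : ℂ) := by
    refine Fermat.Agent.S22.periodic_comp_ofComplex_of_extension (G := F) (Gc := Fc)
      (h := (N : ℝ)) (fun z => rfl) (fun w hw => ?_)
    have hwa : Y₁ < (w + a).im := by rw [him]; linarith
    show (2 * π * Complex.I)⁻¹ * G (w + ((N : ℝ) : ℂ) + a) = (2 * π * Complex.I)⁻¹ * G (w + a)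
    rw [Complex.ofReal_natCast, add_right_comm, hGper _ hwa]
  have hFzero : IsZeroAtImInfty F := by
    have hb : ∀ τ : ℍ, ‖F τ‖ ≤ ‖(2 * π * Complex.I)⁻¹‖ * (C * Real.exp (-c * (τ.im + Y₁))) := by
      intro τ
      have hwa : Y₁ < ((τ : ℂ) + a).im := by
        rw [him]
        have := τ.im_pos
        have h2 : ((τ : ℂ)).im = τ.im := rfl
        linarith
      have h1 := (hcusp _ (hYY _ hwa)).2
      rw [him] at h1
      show ‖(2 * π * Complex.I)⁻¹ * G ((τ : ℂ) + a)‖ ≤ _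
      rw [norm_mul]
      exact mul_le_mul_of_nonneg_left h1 (norm_nonneg _)
    have ht : Tendsto (fun τ : ℍ => ‖(2 * π * Complex.I)⁻¹‖ * (C * Real.exp (-c * (τ.im + Y₁))))
        atImInfty (𝓝 0) := by
      have h1 : Tendsto (fun y : ℝ => ‖(2 * π * Complex.I)⁻¹‖ * (C * Real.exp (-(c * (y + Y₁)))))
          atTop (𝓝 (‖(2 * π * Complex.I)⁻¹‖ * (C * 0))) := by
        refine Tendsto.const_mul _ (Tendsto.const_mul _ ?_)
        refine Real.tendsto_exp_neg_atTop_nhds_zero.comp ?_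
        exact Tendsto.const_mul_atTop hc (tendsto_atTop_add_const_right _ _ tendsto_id)
      simp only [mul_zero] at h1
      have h2 : Tendsto UpperHalfPlane.im atImInfty atTop := tendsto_comap
      have h3 := h1.comp h2
      refine h3.congr (fun τ => ?_)
      simp [neg_mul]
    exact squeeze_zero_norm hb ht
  have hNpos : (0 : ℝ) < (N : ℝ) := by exact_mod_cast Nat.pos_of_ne_zero (NeZero.ne N)
  obtain ⟨A, hA, hDA, -, hA0⟩ :=
    Fermat.Agent.S22.exists_periodic_primitive hNpos hFmd hFper hFzero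
  set Ac : ℂ → ℂ := A ∘ ofComplex with hAc
  have hAd : ∀ w : ℂ, 0 < w.im → HasDerivAt Ac (G (w + a)) w := by
    intro w hw
    have h1 : DifferentiableAt ℂ Ac w := by
      have := hA ⟨w, hw⟩
      rw [UpperHalfPlane.mdifferentiableAt_iff] at this
      exact this
    have h2 : Derivative.normalizedDerivOfComplex A ⟨w, hw⟩ = F ⟨w, hw⟩ := congrFun hDA _
    have h3 : deriv Ac w = G (w + a) := by
      have h4 : (2 * π * Complex.I)⁻¹ * deriv Ac w = (2 * π * Complex.I)⁻¹ * G (w + a) := h2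
      have h5 : (2 * π * Complex.I)⁻¹ ≠ 0 := inv_ne_zero Complex.two_pi_I_ne_zero
      exact mul_left_cancel₀ h5 h4
    rw [← h3]
    exact h1.hasDerivAt
  -- the exponential
  set E : ℂ → ℂ := fun z => Complex.exp (Ac (z - a)) with hE
  have hEd : ∀ z : ℂ, Y₁ < z.im → HasDerivAt E (E z * G z) z := by
    intro z hz
    have hw : 0 < (z - a).im := by rw [him']; linarith
    have h1 := hAd (z - a) hw
    rw [sub_add_cancel] at h1
    exact (h1.comp_sub_const z a).cexp
  set V : Set ℂ := {z : ℂ | Y₁ < z.im} with hV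
  have hVo : IsOpen V := isOpen_lt continuous_const Complex.continuous_im
  have hVc : IsPreconnected V := (convex_halfSpace_im_gt Y₁).isPreconnected
  have hEan : ∀ z ∈ V, AnalyticAt ℂ E z := by
    have hd : DifferentiableOn ℂ E V := fun z hz =>
      (hEd z hz).differentiableAt.differentiableWithinAt
    exact fun z hz => hd.analyticAt (hVo.mem_nhds hz)
  have hElp : IsLogPrim G E V := by
    refine ⟨fun z hz => (hEan z hz).meromorphicNFAt, fun z hz => ?_, fun z hz => ?_⟩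
    · rw [meromorphicOrderAt_ne_top_iff_eventually_ne_zero (hEan z hz).meromorphicAt]
      exact Eventually.of_forall fun y => Complex.exp_ne_zero _
    · have h3 : ∀ᶠ y in 𝓝[≠] z, y ∈ V := nhdsWithin_le_nhds (hVo.mem_nhds hz)
      filter_upwards [h3] with y hy
      rw [logDeriv_apply, (hEd y hy).deriv]
      exact mul_div_cancel_left₀ _ (Complex.exp_ne_zero _)
  have hHlp : IsLogPrim G (fun y => h (mob s y)) V :=
    (isLogPrim_comp_mob hh s).mono (fun z hz => hYU z hz)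
  obtain ⟨c₀, hc₀, hc₀eq⟩ := IsLogPrim.eq_const_mul hVo hVc hHlp hElp
  refine ⟨Y₁, c₀, E, hc₀, fun z hz => ⟨hEan z hz, hc₀eq z hz⟩, ?_⟩
  -- the limit
  have h1 : Tendsto (fun z : ℂ => ofComplex (z - a)) (comap Complex.im atTop) atImInfty := by
    rw [atImInfty, tendsto_comap_iff]
    have h2 : Tendsto (fun z : ℂ => z.im + (-Y₁)) (comap Complex.im atTop) atTop :=
      (tendsto_atTop_add_const_right atTop (-Y₁) tendsto_id).comp
        (tendsto_comap (f := Complex.im) (x := atTop))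
    refine h2.congr' ?_
    have hev : ∀ᶠ z in comap Complex.im atTop, Y₁ < Complex.im z :=
      tendsto_comap.eventually (eventually_gt_atTop Y₁)
    filter_upwards [hev] with z hz
    have hw : 0 < (z - a).im := by rw [him']; linarith
    simp only [Function.comp_apply]
    rw [ofComplex_apply_of_im_pos hw]
    have h4 : (⟨z - a, hw⟩ : ℍ).im = (z - a).im := rfl
    rw [h4, him']
    ring
  have h2 : Tendsto (fun z : ℂ => A (ofComplex (z - a))) (comap Complex.im atTop) (𝓝 0) :=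
    hA0.comp h1
  have h3 := (Complex.continuous_exp.tendsto 0).comp h2
  rw [Complex.exp_zero] at h3
  exact h3

end MultFn

/-- **DIVA-4.** From a weight-2 function with integer residues, exponentially small at the cusps
and with vanishing residues at the elliptic points, to a multiplicative function: a logarithmic
primitive `h` with a character `χ` of `Γ₀(N)` trivial on the parabolic and elliptic elements,
nonzero limits at all cusps, and meromorphic at the cusps. -/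
theorem exists_multFn (N : ℕ) [NeZero N] (g : ℂ → ℂ) (m : ℍ → ℤ)
    (hres : ∀ σ : ℍ, HasIntRes g (σ : ℂ) (m σ))
    (hinv : ∀ γ ∈ Gamma0 N, ∀ z ∈ U, (fun y => g (mob γ y) * deriv (mob γ) y) =ᶠ[𝓝[≠] z] g)
    (hcusp : ∀ s : SL(2, ℤ), ∃ Y C c : ℝ, 0 < c ∧ ∀ z : ℂ, Y < z.im →
        AnalyticAt ℂ g (mob s z) ∧ ‖g (mob s z) * deriv (mob s) z‖ ≤ C * Real.exp (-c * z.im))
    (hell : ∀ (σ : ℍ) (δ : SL(2, ℤ)), δ ∈ Gamma0 N → δ • σ = σ → δ ≠ 1 → δ ≠ -1 → m σ = 0) :
    ∃ (h : ℂ → ℂ) (χ : Gamma0 N →* ℂˣ), IsLogPrim g h U ∧ HasMultiplier (Gamma0 N) h χ ∧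
      IsPE (Gamma0 N) χ ∧ CuspLim h ∧ MerAtCusps h := by
  obtain ⟨h, hh⟩ : ∃ h, IsLogPrim g h U :=
    exists_isLogPrim_upperHalfPlane (fun z hz => ⟨m ⟨z, hz⟩, hres ⟨z, hz⟩⟩)
  obtain ⟨χ, hχ⟩ := MultFn.exists_mult hh hinv
  have hform : ∀ s : SL(2, ℤ), ∃ (Y₁ : ℝ) (c₀ : ℂ) (E : ℂ → ℂ), c₀ ≠ 0 ∧
      (∀ z : ℂ, Y₁ < z.im → AnalyticAt ℂ E z ∧ h (mob s z) = c₀ * E z) ∧
      Tendsto E (comap Complex.im atTop) (𝓝 1) := by
    intro s
    obtain ⟨Y, C, c, hc, hb⟩ := hcusp s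
    exact MultFn.exists_cusp_form hh hinv s hc hb
  have hlim : CuspLim h := by
    intro s
    obtain ⟨Y₁, c₀, E, hc₀, hE, hEt⟩ := hform s
    refine ⟨c₀, hc₀, ?_⟩
    have h1 : Tendsto (fun z => c₀ * E z) (comap Complex.im atTop) (𝓝 (c₀ * 1)) :=
      hEt.const_mul c₀
    rw [mul_one] at h1
    refine h1.congr' ?_
    have hev : ∀ᶠ z in comap Complex.im atTop, Y₁ < Complex.im z :=
      tendsto_comap.eventually (eventually_gt_atTop Y₁)
    filter_upwards [hev] with z hz using ((hE z hz).2).symm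
  have hmer : MerAtCusps h := by
    intro s
    obtain ⟨Y₁, c₀, E, hc₀, hE, hEt⟩ := hform s
    have hev : ∀ᶠ z in comap Complex.im atTop, ‖E z‖ < 2 := by
      have h1 := hEt.norm
      rw [norm_one] at h1
      exact h1.eventually (gt_mem_nhds (by norm_num : (1 : ℝ) < 2))
    obtain ⟨Y₂, hY₂⟩ : ∃ Y₂ : ℝ, ∀ z : ℂ, Y₂ < z.im → ‖E z‖ < 2 := by
      rw [Filter.eventually_comap] at hev
      obtain ⟨Y₂, hY₂⟩ := eventually_atTop.1 hev
      exact ⟨Y₂, fun z hz => hY₂ z.im hz.le z rfl⟩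
    refine ⟨max (max Y₁ Y₂) 1, 2 * ‖c₀‖, fun z hz => ?_⟩
    have hz1 : Y₁ < z.im := lt_of_le_of_lt ((le_max_left _ _).trans (le_max_left _ _)) hz
    have hz2 : Y₂ < z.im := lt_of_le_of_lt ((le_max_right _ _).trans (le_max_left _ _)) hz
    have hz3 : 1 < z.im := lt_of_le_of_lt (le_max_right _ _) hz
    refine ⟨?_, ?_⟩
    · have hVo : IsOpen {z : ℂ | Y₁ < z.im} := isOpen_lt continuous_const Complex.continuous_im
      have e : (fun w => h (mob s w)) =ᶠ[𝓝 z] fun w => c₀ * E w := by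
        filter_upwards [hVo.mem_nhds hz1] with w hw using (hE w hw).2
      exact (analyticAt_const.mul (hE z hz1).1).congr e.symm
    · rw [(hE z hz1).2, norm_mul]
      have h1 : ‖c₀‖ * ‖E z‖ ≤ ‖c₀‖ * 2 :=
        mul_le_mul_of_nonneg_left (hY₂ z hz2).le (norm_nonneg _)
      have h2 : 2 * ‖c₀‖ ≤ 2 * ‖c₀‖ * z.im := by nlinarith [norm_nonneg c₀]
      have h3 : 2 * ‖c₀‖ * z.im ≤ Real.exp (2 * ‖c₀‖ * z.im) := by
        have := Real.add_one_le_exp (2 * ‖c₀‖ * z.im)
        linarith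
      linarith
  refine ⟨h, χ, hh, hχ, ?_, hlim, hmer⟩
  intro γ hγ
  rcases lt_or_eq_of_le hγ with hlt | heq
  · obtain ⟨σ, hσ⟩ := Fermat.Agent.ESJ.Jac.Kummer.exists_fixed_of_trace_sq_lt (γ : SL(2, ℤ)) hlt
    have hne1 : (γ : SL(2, ℤ)) ≠ 1 := by
      intro h1
      rw [h1] at hlt
      simp at hlt
    have hneg1 : (γ : SL(2, ℤ)) ≠ -1 := by
      intro h1
      rw [h1] at hlt
      simp at hlt
    have hm0 : m σ = 0 := hell σ γ γ.2 hσ hne1 hneg1
    have hord := hh.order_eq (coe_mem_U σ) (hres σ)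
    rw [hm0] at hord
    have hne : h (σ : ℂ) ≠ 0 :=
      (hh.1 (coe_mem_U σ)).meromorphicOrderAt_eq_zero_iff.1 (by simpa using hord)
    exact MultFn.mult_eq_one_of_fixed hχ γ σ hσ hne
  · exact MultFn.mult_eq_one_of_parabolic hχ hlim γ heq

end Fermat.Agent.MW.DivA
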