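import Mathlib
import Fermat.Agent.MW.DivA.Assemble
import Fermat.Agent.MW.DivA.Defs
import Fermat.Agent.MW.DivA.KummerStep

/-!
# MW / DIV-A (PAIR-K): the Kummer step for a difference of two good points

A multiplicative function `h` on the upper half plane (multiplier `χ` trivial on the parabolic and
elliptic elements of `Γ₀(N)`) whose orders are `resPair N τ τ'` (i.e. a simple zero on the orbit of
the good point `τ`, a simple pole on the orbit of the good point `τ'`), with nonzero limits at all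
cusps, produces for every `n > 0` a function `G ≠ 0` of `F_ℂ` with
`n ∣ pairDiv N τ τ' w - ord_w G` at every place `w` (`exists_function_pair_of_multFn`).

This is a direct application of `Assemble.exists_kummer_of_multiplicative`, the places being
identified by `KummerStep.eq_placePt_of_valPt` and `KummerStep.eq_placeCusp_of_valCusp`.
-/

set_option autoImplicit false

open UpperHalfPlane Filter Topology AlgebraicCurve CongruenceSubgroup
open scoped MatrixGroups

noncomputable section

namespace Fermat.Agent.MW.DivA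

open Fermat.Agent.ESJ.Jac Fermat.Agent.S24C Fermat.Agent.MW.DivA.LogPrim
open Fermat.Agent.S24 (Jfun)

namespace PairKummer

/-- At a good point the index of the point place is `1`. -/
theorem mulPt_eq_one_of_isGood (N : ℕ) [NeZero N] {τ : ℍ} (hτ : IsGood τ) :
    Cx.mulPt N τ = 1 := by
  have h1 : Cx.mulPt N τ ∣ Fermat.Agent.S24.JOrd.ellOrder τ :=
    PlaceDict.mulPt_dvd_ellOrder N τ (Cx.isAlgPt τ)
  rw [Fermat.Agent.S24.JPt.ellOrder_of_generic τ hτ.1 hτ.2] at h1
  exact Nat.dvd_one.mp h1

/-- Goodness only depends on the point place. -/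
theorem isGood_of_placePt_eq (N : ℕ) [NeZero N] {σ τ : ℍ}
    (h : Cx.placePt N σ = Cx.placePt N τ) (hτ : IsGood τ) : IsGood σ := by
  obtain ⟨γ, -, hγ⟩ := (Cx.placePt_eq_iff N σ τ).mp h
  have hJ : Jfun σ = Jfun τ := by
    rw [← hγ]
    exact (Fermat.Agent.S24.Jfun_smul γ σ).symm
  unfold IsGood
  rw [hJ]
  exact hτ

/-- The divisor `[τ] - [τ']` evaluated at a point place is the residue datum `resPair`. -/
theorem pairDiv_placePt (N : ℕ) [NeZero N] (τ τ' σ : ℍ) :
    pairDiv N τ τ' (Cx.placePt N σ) = resPair N τ τ' σ := by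
  classical
  unfold pairDiv resPair
  rw [Finsupp.sub_apply, Finsupp.single_apply, Finsupp.single_apply]
  congr 1
  · by_cases h : Cx.placePt N τ = Cx.placePt N σ
    · rw [if_pos h, if_pos h.symm]
    · rw [if_neg h, if_neg (fun h' => h h'.symm)]
  · by_cases h : Cx.placePt N τ' = Cx.placePt N σ
    · rw [if_pos h, if_pos h.symm]
    · rw [if_neg h, if_neg (fun h' => h h'.symm)]

/-- The divisor `[τ] - [τ']` vanishes at the cusp places. -/
theorem pairDiv_placeCusp (N : ℕ) [NeZero N] (τ τ' : ℍ) (g : SL(2, ℤ)) :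
    pairDiv N τ τ' (PlaceDict.placeCusp N g) = 0 := by
  classical
  unfold pairDiv
  have h1 : Cx.placePt N τ ≠ PlaceDict.placeCusp N g :=
    PlaceDict.placePt_ne_placeCusp N τ (Cx.isAlgPt τ) g
  have h2 : Cx.placePt N τ' ≠ PlaceDict.placeCusp N g :=
    PlaceDict.placePt_ne_placeCusp N τ' (Cx.isAlgPt τ') g
  rw [Finsupp.sub_apply, Finsupp.single_apply, Finsupp.single_apply, if_neg h1, if_neg h2,
    sub_zero]

/-- Where the residue datum does not vanish, the index of the point place is `1`. -/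
theorem mulPt_eq_one_of_resPair_ne_zero (N : ℕ) [NeZero N] {τ τ' : ℍ} (hτ : IsGood τ)
    (hτ' : IsGood τ') {σ : ℍ} (hσ : resPair N τ τ' σ ≠ 0) : Cx.mulPt N σ = 1 := by
  classical
  by_cases h1 : Cx.placePt N σ = Cx.placePt N τ
  · exact mulPt_eq_one_of_isGood N (isGood_of_placePt_eq N h1 hτ)
  · by_cases h2 : Cx.placePt N σ = Cx.placePt N τ'
    · exact mulPt_eq_one_of_isGood N (isGood_of_placePt_eq N h2 hτ')
    · exfalso
      apply hσ
      unfold resPair
      rw [if_neg h1, if_neg h2, sub_zero]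

end PairKummer

open PairKummer in
/-- **PAIR-K.** A multiplicative function with PE multiplier, divisor `[τ] - [τ']` (two good
points) and nonzero cusp limits yields, for every `n > 0`, a function `G ≠ 0` with
`n ∣ pairDiv N τ τ' w - ord_w G` at every place. -/
theorem exists_function_pair_of_multFn (N : ℕ) [NeZero N] {n : ℕ} (hn : 0 < n) (τ τ' : ℍ)
    (hτ : IsGood τ) (hτ' : IsGood τ') (hne : Cx.placePt N τ ≠ Cx.placePt N τ') (h : ℂ → ℂ)
    (χ : Gamma0 N →* ℂˣ) (hmer : MeromorphicOn h U)
    (hord : ∀ σ : ℍ, meromorphicOrderAt h (σ : ℂ) = ((resPair N τ τ' σ : ℤ) : WithTop ℤ))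
    (hmult : HasMultiplier (Gamma0 N) h χ) (hχ : IsPE (Gamma0 N) χ) (hlim : CuspLim h)
    (hcusp : MerAtCusps h) :
    ∃ G : FN N, G ≠ 0 ∧ ∀ w : Place ℂ (FN N), (n : ℤ) ∣ pairDiv N τ τ' w - w.ord G := by
  have _ := hne
  have hfin : ∀ z ∈ U, meromorphicOrderAt h z ≠ ⊤ := by
    intro z hz
    have h1 := hord ⟨z, hz⟩
    rw [show (((⟨z, hz⟩ : ℍ) : ℂ)) = z from rfl] at h1
    rw [h1]
    exact WithTop.coe_ne_top
  refine Assemble.exists_kummer_of_multiplicative N hn (fun v => pairDiv N τ τ' v) h hmer hfin χ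
    hχ hmult hcusp ?_ ?_
  · intro v σ e hell hv
    obtain ⟨hvP, heq⟩ := KummerStep.eq_placePt_of_valPt N v σ e hell.pos hv
    show (meromorphicOrderAt h (σ : ℂ)).untop₀ = (e : ℤ) * pairDiv N τ τ' v
    rw [hord σ, hvP, pairDiv_placePt, WithTop.untop₀_coe]
    by_cases h0 : resPair N τ τ' σ = 0
    · rw [h0, mul_zero]
    · rw [heq, mulPt_eq_one_of_resPair_ne_zero N hτ hτ' h0, Nat.cast_one, one_mul]
  · intro v g e w hw hew _ hv
    have he : 0 < e := by
      rcases Nat.eq_zero_or_pos e with rfl | he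
      · rw [zero_mul] at hew
        exact absurd hew.symm (NeZero.ne N)
      · exact he
    have hvC := KummerStep.eq_placeCusp_of_valCusp N v g e he hv
    obtain ⟨L, hL0, hL⟩ := hlim g⁻¹
    refine ⟨L, hL0, hL.congr fun z => ?_⟩
    show h (mob g⁻¹ z)
      = Function.Periodic.qParam (w : ℝ) z ^ (-(pairDiv N τ τ' v)) * h (mob g⁻¹ z)
    rw [hvC, pairDiv_placeCusp, neg_zero, zpow_zero, one_mul]

end Fermat.Agent.MW.DivA
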