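import Mathlib
import Fermat.Agent.MW.DivA.MultFn
import Fermat.Agent.MW.DivA.PairKummer
import Fermat.Agent.MW.DivA.DivOfPair
import Fermat.Agent.S24.KumPt

/-!
# MW / DIV-A : the pair statement from the avatar statement

`AvatarStatement N` : for two good points `τ, τ'` with different places there is a weight-2
function `g` on the upper half plane with simple poles of residues `+1`, `-1` at the orbits of
`τ`, `τ'`, regular elsewhere, and exponentially small at the cusps (the avatar of a differential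
of the third kind).

`pairStatement_of_avatar` : `AvatarStatement N → PairStatement N n` for every `n > 0`
(`exists_multFn` followed by `exists_function_pair_of_multFn`), hence
`jZero_divisible_of_avatar` : the divisibility of `J₀(N)(ℚ̄)`.
-/

set_option autoImplicit false

open UpperHalfPlane Filter Topology AlgebraicCurve CongruenceSubgroup ModularCurve
open scoped MatrixGroups

noncomputable section

namespace Fermat.Agent.MW.DivA

open Fermat.Agent.ESJ.Jac Fermat.Agent.S24C Fermat.Agent.MW.DivA.LogPrim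

/-- The avatar statement: weight-2 functions with residue data `[τ] - [τ']`. -/
def AvatarStatement (N : ℕ) [NeZero N] : Prop :=
  ∀ τ τ' : ℍ, IsGood τ → IsGood τ' → Cx.placePt N τ ≠ Cx.placePt N τ' →
    ∃ g : ℂ → ℂ,
      (∀ σ : ℍ, HasIntRes g (σ : ℂ) (resPair N τ τ' σ)) ∧
      (∀ γ ∈ Gamma0 N, ∀ z ∈ U, (fun y => g (mob γ y) * deriv (mob γ) y) =ᶠ[𝓝[≠] z] g) ∧
      (∀ s : SL(2, ℤ), ∃ Y C c : ℝ, 0 < c ∧ ∀ z : ℂ, Y < z.im →
        AnalyticAt ℂ g (mob s z) ∧ ‖g (mob s z) * deriv (mob s) z‖ ≤ C * Real.exp (-c * z.im))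

namespace Pair

/-- A point with a nontrivial stabiliser in `Γ₀(N)` has index `≠ 1`. -/
theorem mulPt_ne_one_of_fixed (N : ℕ) [NeZero N] (σ : ℍ) (δ : SL(2, ℤ)) (hδ : δ ∈ Gamma0 N)
    (hfix : δ • σ = σ) (h1 : δ ≠ 1) (h2 : δ ≠ -1) : Cx.mulPt N σ ≠ 1 := by
  rcases Fermat.Agent.S24.Kum.Pt.fixed_cases δ σ hfix with h | h | h | ⟨h, h'⟩ | ⟨h, h'⟩
  · exact absurd h h1
  · exact absurd h h2
  · have := PlaceDict.mulPt_eq_two_of_fixed N σ (Cx.isAlgPt σ) δ hδ h hfix
    unfold Cx.mulPt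
    omega
  · have := PlaceDict.mulPt_eq_three_of_fixed N σ (Cx.isAlgPt σ) δ hδ h h' hfix
    unfold Cx.mulPt
    omega
  · have hneg : -δ ∈ Gamma0 N := by
      rw [Gamma0_mem] at hδ ⊢
      simpa using hδ
    have h3 : (-δ) ^ 3 = -1 := by
      rw [Odd.neg_pow (by decide), h]
    have h4 : -δ ≠ -1 := fun e => h' (neg_inj.mp e)
    have h5 : (-δ) • σ = σ := by rw [ModularGroup.SL_neg_smul, hfix]
    have := PlaceDict.mulPt_eq_three_of_fixed N σ (Cx.isAlgPt σ) (-δ) hneg h3 h4 h5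
    unfold Cx.mulPt
    omega

/-- The residue data `[τ] - [τ']` of two good points vanish at the elliptic points. -/
theorem resPair_eq_zero_of_fixed (N : ℕ) [NeZero N] {τ τ' : ℍ} (hτ : IsGood τ)
    (hτ' : IsGood τ') (σ : ℍ) (δ : SL(2, ℤ)) (hδ : δ ∈ Gamma0 N) (hfix : δ • σ = σ)
    (h1 : δ ≠ 1) (h2 : δ ≠ -1) : resPair N τ τ' σ = 0 := by
  by_contra hne
  exact mulPt_ne_one_of_fixed N σ δ hδ hfix h1 h2
    (PairKummer.mulPt_eq_one_of_resPair_ne_zero N hτ hτ' hne)

end Pair

/-- **[PAIR] from the avatar statement.** -/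
theorem pairStatement_of_avatar (N : ℕ) [NeZero N] {n : ℕ} (hn : 0 < n)
    (hav : AvatarStatement N) : PairStatement N n := by
  intro τ τ' hτ hτ' hne
  obtain ⟨g, hres, hinv, hcusp⟩ := hav τ τ' hτ hτ' hne
  obtain ⟨h, χ, hlp, hmult, hχ, hlim, hmc⟩ := exists_multFn N g (resPair N τ τ') hres hinv hcusp
    (fun σ δ hδ hfix h1 h2 => Pair.resPair_eq_zero_of_fixed N hτ hτ' σ δ hδ hfix h1 h2)
  exact exists_function_pair_of_multFn N hn τ τ' hτ hτ' hne h χ
    (fun z hz => (hlp.1 hz).meromorphicAt) (fun σ => hlp.order_eq σ.im_pos (hres σ)) hmult hχ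
    hlim hmc

/-- **Divisibility of `J₀(N)(ℚ̄)` from the avatar statement.** -/
theorem jZero_divisible_of_avatar (N : ℕ) [NeZero N] (hav : AvatarStatement N) {n : ℕ}
    (hn : 0 < n) (x : JZero N) : ∃ y : JZero N, n • y = x :=
  jZero_divisible_of_pair N hn (pairStatement_of_avatar N hn hav) x

end Fermat.Agent.MW.DivA
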