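import Mathlib
import Fermat.Agent.MW.DivA.Avatar
import Fermat.Agent.MW.DivA.Pair

/-!
# MW / DIV-A : `J₀(N)(ℚ̄)` is divisible (analytic route)

`jZero_divisible` : for every `n > 0` the group `JZero N` is `n`-divisible.

Chain: differentials of the third kind (`ThirdKind`, `ThirdKindOrd`) → weight-2 avatar with
residues `[τ] - [τ']` (`Avatar`) → multiplicative function with parabolic-elliptic character
(`LogPrim`, `MultFn`) → roots of such characters are realised by functions (`CharRoot`,
`Assemble`, `PairKummer`) → all degree-0 divisors (`Final`) → descent `ℂ → ℚ̄` (`MW/Div`).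
-/

set_option autoImplicit false

open ModularCurve

namespace Fermat.Agent.MW.DivA

/-- The avatar statement holds. -/
theorem avatarStatement (N : ℕ) [NeZero N] : AvatarStatement N :=
  fun τ τ' hτ hτ' hne => exists_thirdKind_avatar N τ τ' hτ hτ' hne

/-- **(DIV), analytic route.** `J₀(N)(ℚ̄)` is divisible. -/
theorem jZero_divisible (N : ℕ) [NeZero N] {n : ℕ} (hn : 0 < n) (x : JZero N) :
    ∃ y : JZero N, n • y = x :=
  jZero_divisible_of_avatar N (avatarStatement N) hn x

end Fermat.Agent.MW.DivA
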