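import Mathlib
import Fermat.Agent.Lib.FF.RRApprox
import Fermat.Agent.Lib.FF.Setting
import Fermat.Agent.S24C.Cx
import Fermat.Agent.MW.DivA.Defs

/-!
# MW / DIV-A, brick 8 (Move): every degree-zero divisor of `X₀(N)` over `ℂ` is linearly equivalent
to a sum of differences of good point places

* `Move.exists_pairs` : a finitely supported integer function with total zero is a finite sum of
  differences `[a i] - [b i]` of distinct points of its support (Mathlib only).
* `exists_good_rep` : for a divisor `E` of degree zero on `X₀(N)` over `ℂ` there are a function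
  `f ≠ 0` and finitely many pairs of non-elliptic points `τ i`, `τ' i` of `ℍ` with distinct point
  places such that `E + div f = ∑ i, ([τ i] - [τ' i])`.

The bad places (cusps, and the points over `j ∈ {0, 1728}`) are among the zeros and poles of `j`
and `j - 1728`; by weak approximation (`Lib/FF/RRApprox`) the divisor is moved off this finite set.
-/

set_option autoImplicit false
set_option linter.style.haveILetI false

open UpperHalfPlane Filter Topology AlgebraicCurve CongruenceSubgroup
open scoped MatrixGroups IntermediateField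
open Fermat.Agent.ESJ.Jac Fermat.Agent.S24C Fermat.Agent.MW.DivA.LogPrim

noncomputable section

namespace Fermat.Agent.MW.DivA

namespace Move

/-- The total of a finitely supported integer function. -/
def total (α : Type*) : (α →₀ ℤ) →+ ℤ := Finsupp.liftAddHom fun _ => AddMonoidHom.id ℤ

theorem total_single {α : Type*} (a : α) (n : ℤ) : total α (Finsupp.single a n) = n := by
  simp [total]

theorem total_eq_sum {α : Type*} (D : α →₀ ℤ) : total α D = ∑ a ∈ D.support, D a := by
  simp [total, Finsupp.sum]

theorem exists_pos_of_total {α : Type*} {D : α →₀ ℤ} (hD : total α D = 0) (h0 : D ≠ 0) :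
    ∃ p, 0 < D p := by
  by_contra hcon
  push Not at hcon
  rw [total_eq_sum] at hD
  have h1 := (Finset.sum_eq_zero_iff_of_nonpos (fun a _ => hcon a)).mp hD
  apply h0
  ext a
  by_cases ha : a ∈ D.support
  · exact h1 a ha
  · simpa using ha

theorem exists_neg_of_total {α : Type*} {D : α →₀ ℤ} (hD : total α D = 0) (h0 : D ≠ 0) :
    ∃ q, D q < 0 := by
  have h1 : total α (-D) = 0 := by rw [map_neg, hD, neg_zero]
  obtain ⟨q, hq⟩ := exists_pos_of_total h1 (neg_ne_zero.mpr h0)
  refine ⟨q, ?_⟩
  rw [Finsupp.neg_apply] at hq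
  omega

/-- A finitely supported integer function with total zero is a finite sum of differences
`[a i] - [b i]` of distinct points of its support. -/
theorem exists_pairs {α : Type*} (D : α →₀ ℤ) (hD : total α D = 0) :
    ∃ (k : ℕ) (a b : Fin k → α), (∀ i, a i ∈ D.support ∧ b i ∈ D.support ∧ a i ≠ b i) ∧
      D = ∑ i, (Finsupp.single (a i) 1 - Finsupp.single (b i) 1) := by
  classical
  induction hn : ∑ a ∈ D.support, (D a).natAbs using Nat.strong_induction_on generalizing D with
  | _ n ih =>
    by_cases h0 : D = 0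
    · subst h0
      exact ⟨0, Fin.elim0, Fin.elim0, fun i => i.elim0, by simp⟩
    · obtain ⟨p, hDp⟩ := exists_pos_of_total hD h0
      obtain ⟨q, hDq⟩ := exists_neg_of_total hD h0
      have hpq : p ≠ q := by
        rintro rfl
        omega
      have hp : p ∈ D.support := by
        rw [Finsupp.mem_support_iff]
        omega
      have hq : q ∈ D.support := by
        rw [Finsupp.mem_support_iff]
        omega
      obtain ⟨D', hD'⟩ : ∃ D' : α →₀ ℤ, D' = D - (Finsupp.single p 1 - Finsupp.single q 1) :=
        ⟨_, rfl⟩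
      have hD'p : D' p = D p - 1 := by
        rw [hD']
        simp [hpq.symm]
      have hD'q : D' q = D q + 1 := by
        rw [hD']
        simp [hpq]
      have hD'o : ∀ a, a ≠ p → a ≠ q → D' a = D a := by
        intro a h1 h2
        rw [hD']
        simp [Ne.symm h1, Ne.symm h2]
      have hle : ∀ a, (D' a).natAbs ≤ (D a).natAbs := by
        intro a
        by_cases h1 : a = p
        · subst h1
          omega
        by_cases h2 : a = q
        · subst h2
          omega
        rw [hD'o a h1 h2]
      have hsupp : D'.support ⊆ D.support := by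
        intro a ha
        rw [Finsupp.mem_support_iff] at ha ⊢
        intro h
        have := hle a
        rw [h] at this
        omega
      have htot : total α D' = 0 := by
        rw [hD', map_sub, map_sub, total_single, total_single, hD]
        ring
      have hlt : ∑ a ∈ D'.support, (D' a).natAbs < n := by
        rw [← hn, Finset.sum_subset hsupp (fun a _ ha => by
          rw [Finsupp.notMem_support_iff] at ha
          rw [ha]
          rfl)]
        refine Finset.sum_lt_sum (fun a _ => hle a) ⟨p, hp, ?_⟩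
        omega
      obtain ⟨k, a, b, hab, hsum⟩ := ih _ hlt D' htot rfl
      refine ⟨k + 1, Fin.cons p a, Fin.cons q b, ?_, ?_⟩
      · intro i
        refine Fin.cases ?_ (fun j => ?_) i
        · simp only [Fin.cons_zero]
          exact ⟨hp, hq, hpq⟩
        · simp only [Fin.cons_succ]
          exact ⟨hsupp (hab j).1, hsupp (hab j).2.1, (hab j).2.2⟩
      · rw [Fin.sum_univ_succ]
        simp only [Fin.cons_zero, Fin.cons_succ]
        rw [← hsum, hD']
        abel

end Move

/-- **Moving lemma.**  A divisor of degree zero on `X₀(N)` over `ℂ` is, up to a principal divisor,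
a finite sum of differences `[τ i] - [τ' i]` of point places at non-elliptic points of `ℍ`. -/
theorem exists_good_rep (N : ℕ) [NeZero N] (E : Divisor ℂ (FN N)) (hE : Divisor.degree E = 0) :
    ∃ (f : FN N) (k : ℕ) (τ τ' : Fin k → ℍ), f ≠ 0 ∧
      (∀ i, IsGood (τ i) ∧ IsGood (τ' i) ∧ Cx.placePt N (τ i) ≠ Cx.placePt N (τ' i)) ∧
      ∀ w : Place ℂ (FN N), E w + w.ord f = ∑ i, pairDiv N (τ i) (τ' i) w := by
  classical
  haveI := finiteDimensional_jBar N
  have hFF : Fermat.Agent.Lib.FF.IsFF1 ℂ (FN N) (jBar N) :=
    Fermat.Agent.Lib.FF.isFF1_of_charZero (jBar N) (transcendental_jBar N)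
  haveI := hFF.hasPrincipalDivisors
  -- the bad set: zeros and poles of `j` and of `j - 1728`
  have hj0 : jBar N ≠ 0 := PlaceDict.jBar_ne_zero N
  have hj1 : jBar N - algebraMap ℂ (FN N) 1728 ≠ 0 := PtTop.jBar_sub_ne_zero N 1728
  obtain ⟨D0, hD0, -⟩ := hFF.hasPrincipalDivisors.exists_divisor _ hj0
  obtain ⟨D1, hD1, -⟩ := hFF.hasPrincipalDivisors.exists_divisor _ hj1
  obtain ⟨B, hB⟩ : ∃ B : Finset (Place ℂ (FN N)), B = D0.support ∪ D1.support := ⟨_, rfl⟩
  have hgood : ∀ w : Place ℂ (FN N), w ∉ B → ∃ σ : ℍ, IsGood σ ∧ w = Cx.placePt N σ := by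
    intro w hw
    have h0 : w.ord (jBar N) = 0 := by
      have h : w ∉ D0.support := fun h => hw (by rw [hB]; exact Finset.mem_union_left _ h)
      rw [Finsupp.notMem_support_iff] at h
      rw [← hD0 w]
      exact h
    have h1 : w.ord (jBar N - algebraMap ℂ (FN N) 1728) = 0 := by
      have h : w ∉ D1.support := fun h => hw (by rw [hB]; exact Finset.mem_union_right _ h)
      rw [Finsupp.notMem_support_iff] at h
      rw [← hD1 w]
      exact h
    rcases Cx.exists_placePt_or_placeCusp N w with ⟨σ, rfl⟩ | ⟨g, rfl⟩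
    · refine ⟨σ, ⟨?_, ?_⟩, rfl⟩
      · intro hJ
        have h2 := (PlaceDict.ord_jBar_sub_pos_iff N σ (Cx.isAlgPt σ) 0).mpr (by
          rw [hJ]
          rfl)
        rw [map_zero, sub_zero] at h2
        change 0 < (Cx.placePt N σ).ord (jBar N) at h2
        omega
      · intro hJ
        have h2 := (PlaceDict.ord_jBar_sub_pos_iff N σ (Cx.isAlgPt σ) 1728).mpr (by
          rw [hJ]
          rfl)
        change 0 < (Cx.placePt N σ).ord (jBar N - algebraMap ℂ (FN N) 1728) at h2
        omega
    · have h2 := PlaceDict.ord_jBar_placeCusp_neg N g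
      omega
  -- moving `E` off the bad set
  obtain ⟨f, hf0, hf⟩ := hFF.exists_ord_eq' B (fun v => - E v)
  obtain ⟨Df, hDf, hdegf⟩ := hFF.hasPrincipalDivisors.exists_divisor _ hf0
  obtain ⟨E', hE'⟩ : ∃ E' : Divisor ℂ (FN N), E' = E + Df := ⟨_, rfl⟩
  have hE'w : ∀ w : Place ℂ (FN N), E' w = E w + w.ord f := by
    intro w
    rw [hE', Finsupp.add_apply, hDf w]
  have hE'B : ∀ w ∈ B, E' w = 0 := by
    intro w hw
    rw [hE'w, hf w hw]
    ring
  have htot : Move.total _ E' = 0 := by
    have hdeg' : Divisor.degree E' = 0 := by rw [hE', map_add, hE, hdegf, add_zero]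
    rw [hFF.degree_eq_sum] at hdeg'
    rw [Move.total_eq_sum]
    exact hdeg'
  obtain ⟨k, a, b, hab, hsum⟩ := Move.exists_pairs E' htot
  have hsel : ∀ w : Place ℂ (FN N), ∃ σ : ℍ, w ∈ E'.support → IsGood σ ∧ w = Cx.placePt N σ := by
    intro w
    by_cases hw : w ∈ E'.support
    · obtain ⟨σ, hσ⟩ := hgood w (fun hwB => (Finsupp.mem_support_iff.mp hw) (hE'B w hwB))
      exact ⟨σ, fun _ => hσ⟩
    · exact ⟨UpperHalfPlane.I, fun h => absurd h hw⟩
  choose σ hσ using hsel
  refine ⟨f, k, fun i => σ (a i), fun i => σ (b i), hf0, fun i => ⟨(hσ _ (hab i).1).1,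
    (hσ _ (hab i).2.1).1, ?_⟩, fun w => ?_⟩
  · rw [← (hσ _ (hab i).1).2, ← (hσ _ (hab i).2.1).2]
    exact (hab i).2.2
  · rw [← hE'w w]
    have h3 := congrArg (fun D : Divisor ℂ (FN N) => D w) hsum
    simp only [Finsupp.coe_finsetSum, Finset.sum_apply] at h3
    rw [h3]
    refine Finset.sum_congr rfl (fun i _ => ?_)
    rw [pairDiv, ← (hσ _ (hab i).1).2, ← (hσ _ (hab i).2.1).2]

end Fermat.Agent.MW.DivA
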